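import Mathlib.RingTheory.Valuation.ValuationSubring
import Mathlib.RingTheory.Valuation.RamificationGroup
import Mathlib.FieldTheory.Minpoly.Field
import Mathlib.RingTheory.Algebraic.Basic
import Mathlib.Tactic

/-!
# Automorphisms preserving a valuation subring preserve the valuation (algebraic extensions)

Let `K / S` be an algebraic field extension, `A` a valuation subring of `K` and `σ : K ≃ₐ[S] K`
with `σ z ∈ A ↔ z ∈ A` for all `z`.  Then `A.valuation (σ x) = A.valuation x` for all `x`.
(No rank-one hypothesis: the orbit of `x` under `σ` is finite.)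
-/

set_option autoImplicit false

namespace Fermat.Agent.H64

variable {S K : Type*} [Field S] [Field K] [Algebra S K]

/-- The orbit of an algebraic element under powers of an automorphism is finite: some positive
power of `σ` fixes `x`. -/
theorem exists_pow_apply_eq_self [Algebra.IsAlgebraic S K] (σ : K ≃ₐ[S] K) (x : K) :
    ∃ k : ℕ, 0 < k ∧ (σ ^ k) x = x := by
  classical
  have hx : IsAlgebraic S x := Algebra.IsAlgebraic.isAlgebraic x
  have hint : IsIntegral S x := hx.isIntegral
  have hne : minpoly S x ≠ 0 := minpoly.ne_zero hint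
  have hfin : ((minpoly S x).rootSet K).Finite := Polynomial.rootSet_finite _ _
  have hmem : ∀ k : ℕ, (σ ^ k) x ∈ (minpoly S x).rootSet K := by
    intro k
    rw [Polynomial.mem_rootSet]
    refine ⟨hne, ?_⟩
    have h1 : Polynomial.aeval ((σ ^ k) x) (minpoly S x) =
        (σ ^ k) (Polynomial.aeval x (minpoly S x)) := by
      have := Polynomial.aeval_algHom_apply ((σ ^ k : K ≃ₐ[S] K) : K →ₐ[S] K) x (minpoly S x)
      simpa using this
    rw [h1, minpoly.aeval, map_zero]
  have : Finite ((minpoly S x).rootSet K) := hfin.to_subtype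
  let f : ℕ → (minpoly S x).rootSet K := fun k => ⟨(σ ^ k) x, hmem k⟩
  obtain ⟨i, j, hij, hfij⟩ := Finite.exists_ne_map_eq_of_infinite f
  have hfij' : (σ ^ i) x = (σ ^ j) x := congrArg Subtype.val hfij
  -- wlog i < j
  rcases lt_or_gt_of_ne hij with h | h
  · refine ⟨j - i, Nat.sub_pos_of_lt h, ?_⟩
    have hj : j = i + (j - i) := by omega
    rw [hj, pow_add, AlgEquiv.mul_apply] at hfij'
    exact ((σ ^ i).injective hfij').symm
  · refine ⟨i - j, Nat.sub_pos_of_lt h, ?_⟩
    have hi : i = j + (i - j) := by omega
    rw [hi, pow_add, AlgEquiv.mul_apply] at hfij'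
    exact (σ ^ j).injective hfij'

/-- An automorphism stabilising the valuation subring preserves the valuation. -/
theorem valuation_apply_eq_of_stable [Algebra.IsAlgebraic S K] (A : ValuationSubring K)
    (σ : K ≃ₐ[S] K) (hσ : ∀ z : K, σ z ∈ A ↔ z ∈ A) (x : K) :
    A.valuation (σ x) = A.valuation x := by
  set v := A.valuation with hv
  -- `σ` preserves the relation `v a ≤ v b`
  have hle : ∀ a b : K, v a ≤ v b → v (σ a) ≤ v (σ b) := by
    intro a b hab
    rcases eq_or_ne b 0 with rfl | hb
    · have ha : a = 0 := by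
        have : v a ≤ 0 := by simpa using hab
        exact (Valuation.zero_iff v).mp (le_antisymm this zero_le)
      subst ha; simp
    · have hσb : σ b ≠ 0 := by simpa using hb
      have h1 : v (a / b) ≤ 1 := by
        rw [map_div₀]
        exact (div_le_one₀ (zero_lt_iff.mpr ((Valuation.ne_zero_iff v).mpr hb))).mpr hab
      have h2 : a / b ∈ A := (A.valuation_le_one_iff _).mp h1
      have h3 : σ (a / b) ∈ A := (hσ _).mpr h2
      have h4 : v (σ a / σ b) ≤ 1 := by
        rw [← map_div₀]; exact (A.valuation_le_one_iff _).mpr h3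
      rw [map_div₀] at h4
      exact (div_le_one₀ (zero_lt_iff.mpr ((Valuation.ne_zero_iff v).mpr hσb))).mp h4
  have hlt : ∀ a b : K, v a < v b → v (σ a) < v (σ b) := by
    intro a b hab
    by_contra hcon
    have hcon : v (σ b) ≤ v (σ a) := not_lt.mp hcon
    -- apply the inverse
    have hσ' : ∀ z : K, σ.symm z ∈ A ↔ z ∈ A := by
      intro z
      have := hσ (σ.symm z)
      simpa using this.symm
    have hle' : v (σ.symm (σ b)) ≤ v (σ.symm (σ a)) := by
      -- same argument for `σ.symm`
      rcases eq_or_ne (σ a) 0 with h0 | h0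
      · have hb0 : σ b = 0 := by
          have : v (σ b) ≤ 0 := by simpa [h0] using hcon
          exact (Valuation.zero_iff v).mp (le_antisymm this zero_le)
        simp [h0, hb0]
      · have ha0 : σ.symm (σ a) ≠ 0 := by simpa using h0
        have h1 : v (σ b / σ a) ≤ 1 := by
          rw [map_div₀]
          exact (div_le_one₀ (zero_lt_iff.mpr ((Valuation.ne_zero_iff v).mpr h0))).mpr hcon
        have h2 : σ b / σ a ∈ A := (A.valuation_le_one_iff _).mp h1
        have h3 : σ.symm (σ b / σ a) ∈ A := (hσ' _).mpr h2
        have h4 : v (σ.symm (σ b) / σ.symm (σ a)) ≤ 1 := by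
          rw [← map_div₀]; exact (A.valuation_le_one_iff _).mpr h3
        rw [map_div₀] at h4
        exact (div_le_one₀ (zero_lt_iff.mpr ((Valuation.ne_zero_iff v).mpr ha0))).mp h4
    simp only [AlgEquiv.symm_apply_apply] at hle'
    exact absurd hab (not_lt.mpr hle')
  obtain ⟨k, hk, hkx⟩ := exists_pow_apply_eq_self σ x
  -- iterate
  have hpow : ∀ n : ℕ, (σ ^ (n + 1)) x = σ ((σ ^ n) x) := by
    intro n
    rw [pow_succ']; rfl
  rcases lt_trichotomy (v (σ x)) (v x) with h | h | h
  · exfalso
    have hdec : ∀ n : ℕ, v ((σ ^ (n + 1)) x) < v x := by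
      intro n
      induction n with
      | zero => simpa using h
      | succ n ih =>
        rw [hpow]
        exact (hlt _ _ ih).trans h
    have := hdec (k - 1)
    rw [Nat.sub_add_cancel hk, hkx] at this
    exact lt_irrefl _ this
  · exact h
  · exfalso
    have hinc : ∀ n : ℕ, v x < v ((σ ^ (n + 1)) x) := by
      intro n
      induction n with
      | zero => simpa using h
      | succ n ih =>
        rw [hpow (n + 1)]
        exact h.trans (hlt _ _ ih)
    have := hinc (k - 1)
    rw [Nat.sub_add_cancel hk, hkx] at this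
    exact lt_irrefl _ this

end Fermat.Agent.H64
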