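/-
P-ES (Eichler-Shimura gateway), block ES-G-LIN:
from a nonzero finite-dimensional module on which every group element satisfies a quadratic
relation `g² - a g + d(g) = 0` (`d` a character), to a two-dimensional representation with
characteristic polynomials `X² - a X + d(g)`.

No multiplicity one, no Weil pairing: the only inputs are Burnside's theorem and the
anti-automorphism `g ↦ d(g) g⁻¹ = a - g`.
-/
import Mathlib
import Fermat.Agent.H99.Burnside

set_option autoImplicit false

open Polynomial

namespace Fermat.Agent.H64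

section General

variable {k : Type*} [Field k] {G : Type*} [Group G]
  {V : Type*} [AddCommGroup V] [Module k V]

/-- The quadratic relation `ρ(g)² - a ρ(g) + d(g) = 0`. -/
def QuadRelAt (ρ : G →* Module.End k V) (d : G →* kˣ) (g : G) (a : k) : Prop :=
  ρ g * ρ g - a • ρ g + ((d g : kˣ) : k) • (1 : Module.End k V) = 0

theorem QuadRelAt.apply {ρ : G →* Module.End k V} {d : G →* kˣ} {g : G} {a : k}
    (h : QuadRelAt ρ d g a) (v : V) :
    ρ g (ρ g v) - a • ρ g v + ((d g : kˣ) : k) • v = 0 := by
  have := LinearMap.congr_fun h v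
  simpa only [LinearMap.sub_apply, LinearMap.add_apply, LinearMap.smul_apply,
    Module.End.mul_apply, Module.End.one_apply, LinearMap.zero_apply] using this

theorem quadRelAt_iff {ρ : G →* Module.End k V} {d : G →* kˣ} {g : G} {a : k} :
    QuadRelAt ρ d g a ↔ ∀ v : V, ρ g (ρ g v) - a • ρ g v + ((d g : kˣ) : k) • v = 0 := by
  refine ⟨fun h v => h.apply v, fun h => ?_⟩
  unfold QuadRelAt
  ext v
  simpa only [LinearMap.sub_apply, LinearMap.add_apply, LinearMap.smul_apply,
    Module.End.mul_apply, Module.End.one_apply, LinearMap.zero_apply] using h v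

/-- The basic identity: `AB + BA = b A + a B + (c - ab)` for `A = ρ g`, `B = ρ h`. -/
theorem quadRel_anticomm (ρ : G →* Module.End k V) (d : G →* kˣ) {g h : G} {a b c : k}
    (hg : QuadRelAt ρ d g a) (hh : QuadRelAt ρ d h b) (hgh : QuadRelAt ρ d (g * h) c) :
    ρ g * ρ h + ρ h * ρ g = b • ρ g + a • ρ h + (c - a * b) • (1 : Module.End k V) := by
  ext v
  simp only [LinearMap.add_apply, LinearMap.smul_apply, Module.End.mul_apply,
    Module.End.one_apply]
  have f1 := hgh.apply v
  have f2 := congrArg (ρ g) (hh.apply (ρ g v))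
  have f3 := hg.apply v
  have f4 := congrArg (ρ g) (hh.apply v)
  simp only [map_mul, Module.End.mul_apply, map_add, map_sub, map_smul, map_zero,
    Units.val_mul] at f1 f2 f4
  -- it suffices to check after applying the invertible `ρ (g * h)`
  have key : ρ (g * h) (ρ g (ρ h v) + ρ h (ρ g v)
      - (b • ρ g v + a • ρ h v + (c - a * b) • v)) = 0 := by
    simp only [map_mul, Module.End.mul_apply, map_add, map_sub, map_smul]
    linear_combination (norm := module) f1 + f2 - ((d h : kˣ) : k) • f3 - a • f4
  have hinv : ∀ w : V, ρ (g * h)⁻¹ (ρ (g * h) w) = w := by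
    intro w
    rw [← Module.End.mul_apply, ← map_mul, inv_mul_cancel, map_one, Module.End.one_apply]
  have := congrArg (ρ (g * h)⁻¹) key
  rw [hinv, map_zero, sub_eq_zero] at this
  exact this

/-- If the image of `ρ` spans `End V` and every element satisfies a quadratic relation, then
`xy + yx ∈ span {x, y, 1}` for all endomorphisms `x`, `y`. -/
theorem exists_anticomm_coeffs (ρ : G →* Module.End k V) (d : G →* kˣ) (t : G → k)
    (ht : ∀ g, QuadRelAt ρ d g (t g))
    (hspan : Submodule.span k (Set.range ρ) = ⊤) (x y : Module.End k V) :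
    ∃ α β γ : k, x * y + y * x = α • x + β • y + γ • (1 : Module.End k V) := by
  have step1 : ∀ x ∈ Submodule.span k (Set.range ρ), ∃ β : k, ∀ h : G, ∃ γ : k,
      x * ρ h + ρ h * x = t h • x + β • ρ h + γ • (1 : Module.End k V) := by
    intro x hx
    induction hx using Submodule.span_induction with
    | mem x hx =>
      obtain ⟨g, rfl⟩ := hx
      exact ⟨t g, fun h => ⟨t (g * h) - t g * t h,
        quadRel_anticomm ρ d (ht g) (ht h) (ht (g * h))⟩⟩
    | zero => exact ⟨0, fun h => ⟨0, by simp⟩⟩
    | add x₁ x₂ _ _ h₁ h₂ =>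
      obtain ⟨β₁, hβ₁⟩ := h₁
      obtain ⟨β₂, hβ₂⟩ := h₂
      refine ⟨β₁ + β₂, fun h => ?_⟩
      obtain ⟨γ₁, e₁⟩ := hβ₁ h
      obtain ⟨γ₂, e₂⟩ := hβ₂ h
      refine ⟨γ₁ + γ₂, ?_⟩
      rw [add_mul, mul_add]
      linear_combination (norm := module) e₁ + e₂
    | smul c x _ hx =>
      obtain ⟨β, hβ⟩ := hx
      refine ⟨c * β, fun h => ?_⟩
      obtain ⟨γ, e⟩ := hβ h
      refine ⟨c * γ, ?_⟩
      rw [smul_mul_assoc, mul_smul_comm]
      linear_combination (norm := module) c • e
  obtain ⟨β, hβ⟩ := step1 x (by rw [hspan]; exact Submodule.mem_top)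
  have step2 : ∀ y ∈ Submodule.span k (Set.range ρ), ∃ α γ : k,
      x * y + y * x = α • x + β • y + γ • (1 : Module.End k V) := by
    intro y hy
    induction hy using Submodule.span_induction with
    | mem y hy =>
      obtain ⟨h, rfl⟩ := hy
      obtain ⟨γ, e⟩ := hβ h
      exact ⟨t h, γ, e⟩
    | zero => exact ⟨0, 0, by simp⟩
    | add y₁ y₂ _ _ h₁ h₂ =>
      obtain ⟨α₁, γ₁, e₁⟩ := h₁
      obtain ⟨α₂, γ₂, e₂⟩ := h₂
      refine ⟨α₁ + α₂, γ₁ + γ₂, ?_⟩
      rw [add_mul, mul_add]
      linear_combination (norm := module) e₁ + e₂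
    | smul c y _ hy =>
      obtain ⟨α, γ, e⟩ := hy
      refine ⟨c * α, c * γ, ?_⟩
      rw [smul_mul_assoc, mul_smul_comm]
      linear_combination (norm := module) c • e
  obtain ⟨α, γ, e⟩ := step2 y (by rw [hspan]; exact Submodule.mem_top)
  exact ⟨α, β, γ, e⟩

/-- **Dimension bound**: if the image of `ρ` spans `End V` and every element satisfies a
quadratic relation (with `d` a character), then `dim V ≤ 2`. -/
theorem finrank_le_two_of_quadRel [FiniteDimensional k V]
    (ρ : G →* Module.End k V) (d : G →* kˣ) (t : G → k)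
    (ht : ∀ g, QuadRelAt ρ d g (t g))
    (hspan : Submodule.span k (Set.range ρ) = ⊤) : Module.finrank k V ≤ 2 := by
  classical
  by_contra hlt
  have h3 : 3 ≤ Module.finrank k V := by omega
  let b := Module.finBasis k V
  let i0 : Fin (Module.finrank k V) := ⟨0, by omega⟩
  let i1 : Fin (Module.finrank k V) := ⟨1, by omega⟩
  let i2 : Fin (Module.finrank k V) := ⟨2, by omega⟩
  have h01 : i0 ≠ i1 := by simp [i0, i1, Fin.ext_iff]
  have h02 : i0 ≠ i2 := by simp [i0, i2, Fin.ext_iff]
  have h12 : i1 ≠ i2 := by simp [i1, i2, Fin.ext_iff]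
  let x : Module.End k V := b.constr k (fun i => if i = i1 then b i0 else 0)
  let y : Module.End k V := b.constr k (fun i => if i = i2 then b i1 else 0)
  have hx1 : x (b i1) = b i0 := by simp [x]
  have hx2 : x (b i2) = 0 := by simp [x, h12.symm]
  have hy2 : y (b i2) = b i1 := by simp [y]
  obtain ⟨α, β, γ, e⟩ := exists_anticomm_coeffs ρ d t ht hspan x y
  have e2 := LinearMap.congr_fun e (b i2)
  simp only [LinearMap.add_apply, LinearMap.smul_apply, Module.End.mul_apply,
    Module.End.one_apply, hx2, hy2, hx1, map_zero, add_zero, smul_zero, zero_add] at e2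
  have e3 := congrArg (fun v => b.repr v i0) e2
  simp [h01.symm, h02.symm] at e3

end General

section Matrix2

variable {k : Type*} [Field k]

/-- Cayley-Hamilton for `2 × 2` matrices, in explicit form. -/
theorem cayley_hamilton_fin_two (M : Matrix (Fin 2) (Fin 2) k) :
    M * M - M.trace • M + M.det • (1 : Matrix (Fin 2) (Fin 2) k) = 0 := by
  ext i j
  fin_cases i <;> fin_cases j <;>
    simp [Matrix.mul_apply, Fin.sum_univ_two, Matrix.trace, Matrix.det_fin_two] <;> ring

/-- A non-scalar `2 × 2` matrix satisfying `M² - a M + δ = 0` has trace `a` and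
determinant `δ`. -/
theorem trace_det_of_quadratic_of_not_scalar (M : Matrix (Fin 2) (Fin 2) k) (a δ : k)
    (h : M * M - a • M + δ • (1 : Matrix (Fin 2) (Fin 2) k) = 0)
    (hns : ∀ c : k, M ≠ c • (1 : Matrix (Fin 2) (Fin 2) k)) :
    M.trace = a ∧ M.det = δ := by
  have hCH := cayley_hamilton_fin_two M
  have hsub : (M.trace - a) • M = (M.det - δ) • (1 : Matrix (Fin 2) (Fin 2) k) := by
    linear_combination (norm := module) h - hCH
  have htr : M.trace = a := by
    by_contra hne
    have hne' : M.trace - a ≠ 0 := sub_ne_zero.mpr hne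
    apply hns ((M.trace - a)⁻¹ * (M.det - δ))
    have := congrArg (fun N => (M.trace - a)⁻¹ • N) hsub
    simp only [smul_smul, inv_mul_cancel₀ hne', one_smul] at this
    exact this
  refine ⟨htr, ?_⟩
  rw [htr, sub_self, zero_smul] at hsub
  have h00 := congrFun (congrFun hsub 0) 0
  simp at h00
  exact (sub_eq_zero.mp h00.symm)

theorem charpoly_fin_two_of_trace_det (M : Matrix (Fin 2) (Fin 2) k) (a δ : k)
    (htr : M.trace = a) (hdet : M.det = δ) :
    M.charpoly = X ^ 2 - C a * X + C δ := by
  rw [Matrix.charpoly_fin_two, htr, hdet]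

/-- For a `2 × 2` matrix representation containing a non-scalar element, the quadratic
relations pin down all characteristic polynomials (also at scalar elements). -/
theorem charpoly_of_matrix_quadRel {G : Type*} [Group G]
    (r : G →* Matrix (Fin 2) (Fin 2) k) (d : G →* kˣ) (t : G → k)
    (ht : ∀ g, r g * r g - t g • r g
      + ((d g : kˣ) : k) • (1 : Matrix (Fin 2) (Fin 2) k) = 0)
    (hns : ∃ h, ∀ c : k, r h ≠ c • (1 : Matrix (Fin 2) (Fin 2) k)) (g : G) :
    (r g).charpoly = X ^ 2 - C (t g) * X + C ((d g : kˣ) : k) := by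
  by_cases hg : ∀ c : k, r g ≠ c • (1 : Matrix (Fin 2) (Fin 2) k)
  · obtain ⟨htr, hdet⟩ := trace_det_of_quadratic_of_not_scalar (r g) (t g) _ (ht g) hg
    exact charpoly_fin_two_of_trace_det _ _ _ htr hdet
  · simp only [ne_eq, not_forall, not_not] at hg
    obtain ⟨c, hc⟩ := hg
    obtain ⟨h, hh⟩ := hns
    -- `c ≠ 0`
    have hc0 : c ≠ 0 := by
      rintro rfl
      have h1 : r g * r g⁻¹ = 1 := by rw [← map_mul, mul_inv_cancel, map_one]
      rw [hc, zero_smul, zero_mul] at h1
      exact zero_ne_one h1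
    -- `r (g * h)` is not scalar
    have hgh : ∀ c' : k, r (g * h) ≠ c' • (1 : Matrix (Fin 2) (Fin 2) k) := by
      intro c' hc'
      apply hh (c⁻¹ * c')
      rw [map_mul, hc, smul_mul_assoc, one_mul] at hc'
      have := congrArg (fun N => c⁻¹ • N) hc'
      simp only [smul_smul, inv_mul_cancel₀ hc0, one_smul] at this
      exact this
    obtain ⟨-, hdet_h⟩ := trace_det_of_quadratic_of_not_scalar (r h) (t h) _ (ht h) hh
    obtain ⟨-, hdet_gh⟩ :=
      trace_det_of_quadratic_of_not_scalar (r (g * h)) (t (g * h)) _ (ht (g * h)) hgh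
    have hδh : ((d h : kˣ) : k) ≠ 0 := Units.ne_zero _
    have hc2 : c ^ 2 = ((d g : kˣ) : k) := by
      rw [map_mul, hc, smul_mul_assoc, one_mul, Matrix.det_smul, Fintype.card_fin, hdet_h,
        map_mul, Units.val_mul] at hdet_gh
      exact mul_right_cancel₀ hδh hdet_gh
    have hrel := congrFun (congrFun (ht g) 0) 0
    rw [hc] at hrel
    simp at hrel
    have hta : t g = 2 * c := by
      have h2 : c * (2 * c - t g) = 0 := by linear_combination hrel + hc2
      rcases mul_eq_zero.mp h2 with h0 | h0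
      · exact absurd h0 hc0
      · linear_combination -h0
    apply charpoly_fin_two_of_trace_det
    · rw [hc, hta]
      simp [Matrix.trace, two_mul]
    · rw [hc, Matrix.det_smul, Fintype.card_fin, Matrix.det_one, mul_one, hc2]

end Matrix2

section Assembly

variable {k : Type*} [Field k] {G : Type*} [Group G]
  {V : Type*} [AddCommGroup V] [Module k V]

/-- Two-dimensional case: the representation itself, written in a basis. -/
theorem exists_matrix_rep_of_finrank_two [FiniteDimensional k V]
    (hV : Module.finrank k V = 2)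
    (ρ : G →* Module.End k V) (d : G →* kˣ)
    (h : ∀ g, ∃ a, QuadRelAt ρ d g a)
    (hspan : Submodule.span k (Set.range ρ) = ⊤) :
    ∃ r : G →* Matrix (Fin 2) (Fin 2) k,
      (∀ g, ρ g = 1 → r g = 1) ∧
      ∀ g a, QuadRelAt ρ d g a →
        (r g).charpoly = X ^ 2 - C a * X + C ((d g : kˣ) : k) := by
  classical
  choose t ht using h
  let b : Module.Basis (Fin 2) k V := Module.finBasisOfFinrankEq k V hV
  let e := LinearMap.toMatrixAlgEquiv b
  let r : G →* Matrix (Fin 2) (Fin 2) k :=
    { toFun := fun g => e (ρ g)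
      map_one' := by simp
      map_mul' := fun g h => by simp }
  have hr : ∀ g, r g = e (ρ g) := fun _ => rfl
  refine ⟨r, fun g hg => by rw [hr, hg, map_one], ?_⟩
  have htr : ∀ g a, QuadRelAt ρ d g a → r g * r g - a • r g
      + ((d g : kˣ) : k) • (1 : Matrix (Fin 2) (Fin 2) k) = 0 := by
    intro g a hga
    have := congrArg e hga
    simpa only [map_add, map_sub, map_mul, map_smul, map_one, map_zero, hr] using this
  -- a non-scalar element exists
  have hns : ∃ h, ∀ c : k, r h ≠ c • (1 : Matrix (Fin 2) (Fin 2) k) := by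
    by_contra hcon
    simp only [ne_eq, not_exists, not_forall, not_not] at hcon
    have hle : Submodule.span k (Set.range ρ) ≤ Submodule.span k {(1 : Module.End k V)} := by
      rw [Submodule.span_le]
      rintro _ ⟨g, rfl⟩
      obtain ⟨c, hc⟩ := hcon g
      have : ρ g = c • (1 : Module.End k V) := by
        apply e.injective
        rw [map_smul, map_one, ← hr, hc]
      rw [this]
      exact Submodule.smul_mem _ _ (Submodule.subset_span rfl)
    rw [hspan] at hle
    let x : Module.End k V := b.constr k (fun i => if i = 1 then b 0 else 0)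
    have hx : x ∈ Submodule.span k {(1 : Module.End k V)} := hle Submodule.mem_top
    obtain ⟨c, hc⟩ := Submodule.mem_span_singleton.mp hx
    have h1 := LinearMap.congr_fun hc (b 1)
    simp only [LinearMap.smul_apply, Module.End.one_apply, x, Module.Basis.constr_basis,
      if_true] at h1
    have h2 := congrArg (fun v => b.repr v 0) h1
    simp at h2
  intro g a hga
  have ht' : ∀ g', r g' * r g' - (Function.update t g a g') • r g'
      + ((d g' : kˣ) : k) • (1 : Matrix (Fin 2) (Fin 2) k) = 0 := by
    intro g'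
    by_cases hgg : g' = g
    · subst hgg
      rw [Function.update_self]
      exact htr g' a hga
    · rw [Function.update_of_ne hgg]
      exact htr g' (t g') (ht g')
  have := charpoly_of_matrix_quadRel r d (Function.update t g a) ht' hns g
  rwa [Function.update_self] at this

/-- One-dimensional case: `χ ⊕ d χ⁻¹`. -/
theorem exists_matrix_rep_of_finrank_one [FiniteDimensional k V]
    (hV : Module.finrank k V = 1)
    (ρ : G →* Module.End k V) (d : G →* kˣ) :
    ∃ r : G →* Matrix (Fin 2) (Fin 2) k,
      (∀ g, ρ g = 1 → d g = 1 → r g = 1) ∧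
      ∀ g a, QuadRelAt ρ d g a →
        (r g).charpoly = X ^ 2 - C a * X + C ((d g : kˣ) : k) := by
  classical
  let b : Module.Basis (Fin 1) k V := Module.finBasisOfFinrankEq k V hV
  let e := LinearMap.toMatrixAlgEquiv b
  let χ : G → k := fun g => e (ρ g) 0 0
  have hχ1 : χ 1 = 1 := by simp [χ]
  have hχmul : ∀ g h, χ (g * h) = χ g * χ h := by
    intro g h
    simp [χ, Matrix.mul_apply]
  have hχ0 : ∀ g, χ g ≠ 0 := by
    intro g h0
    have := hχmul g g⁻¹
    rw [mul_inv_cancel, hχ1, h0, zero_mul] at this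
    exact one_ne_zero this
  let r : G →* Matrix (Fin 2) (Fin 2) k :=
    { toFun := fun g => !![χ g, 0; 0, ((d g : kˣ) : k) * (χ g)⁻¹]
      map_one' := by
        rw [hχ1]
        ext i j
        fin_cases i <;> fin_cases j <;> simp
      map_mul' := fun g h => by
        rw [hχmul]
        ext i j
        fin_cases i <;> fin_cases j <;>
          simp [Matrix.mul_apply, Fin.sum_univ_two]
        ring }
  have hr : ∀ g, r g = !![χ g, 0; 0, ((d g : kˣ) : k) * (χ g)⁻¹] := fun _ => rfl
  refine ⟨r, ?_, ?_⟩
  · intro g hg hd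
    have hχg : χ g = 1 := by simp [χ, hg]
    rw [hr, hχg, hd]
    ext i j
    fin_cases i <;> fin_cases j <;> simp
  · intro g a hga
    have := congrArg e hga
    simp only [map_add, map_sub, map_mul, map_smul, map_one, map_zero] at this
    have h00 := congrFun (congrFun this 0) 0
    simp [Matrix.mul_apply] at h00
    change χ g * χ g - a * χ g + ((d g : kˣ) : k) = 0 at h00
    apply charpoly_fin_two_of_trace_det
    · rw [hr]
      simp [Matrix.trace, Fin.sum_univ_two]
      field_simp [hχ0 g]
      linear_combination h00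
    · rw [hr, Matrix.det_fin_two]
      simp
      field_simp [hχ0 g]

/-- The restriction of a representation to a stable subspace. -/
def restrictRep {W : Type*} [AddCommGroup W] [Module k W]
    (ρW : G →* Module.End k W) (U : Submodule k W)
    (hU : ∀ g, ∀ x ∈ U, ρW g x ∈ U) : G →* Module.End k U where
  toFun g := (ρW g).restrict (hU g)
  map_one' := by
    ext x
    simp
  map_mul' g h := by
    ext x
    simp

@[simp]
theorem restrictRep_apply_coe {W : Type*} [AddCommGroup W] [Module k W]
    (ρW : G →* Module.End k W) (U : Submodule k W)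
    (hU : ∀ g, ∀ x ∈ U, ρW g x ∈ U) (g : G) (x : U) :
    ((restrictRep ρW U hU g x : U) : W) = ρW g x := rfl

theorem QuadRelAt.restrictRep {W : Type*} [AddCommGroup W] [Module k W]
    {ρW : G →* Module.End k W} {d : G →* kˣ} {g : G} {a : k}
    (h : QuadRelAt ρW d g a) (U : Submodule k W) (hU : ∀ g, ∀ x ∈ U, ρW g x ∈ U) :
    QuadRelAt (Fermat.Agent.H64.restrictRep ρW U hU) d g a := by
  rw [quadRelAt_iff]
  intro v
  apply Subtype.ext
  have := h.apply (v : W)
  simpa using this

/-- A nonzero finite-dimensional representation contains a minimal nonzero stable subspace. -/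
theorem exists_minimal_stable {W : Type*} [AddCommGroup W] [Module k W]
    [FiniteDimensional k W] [Nontrivial W] (ρW : G →* Module.End k W) :
    ∃ U : Submodule k W, U ≠ ⊥ ∧ (∀ g, ∀ x ∈ U, ρW g x ∈ U) ∧
      ∀ U' : Submodule k W, U' ≤ U → (∀ g, ∀ x ∈ U', ρW g x ∈ U') → U' = ⊥ ∨ U' = U := by
  classical
  let P : ℕ → Prop := fun n => ∃ U : Submodule k W, U ≠ ⊥ ∧
    (∀ g, ∀ x ∈ U, ρW g x ∈ U) ∧ Module.finrank k U = n
  have hP : ∃ n, P n := ⟨Module.finrank k (⊤ : Submodule k W), ⊤, top_ne_bot,
    fun _ _ _ => Submodule.mem_top, rfl⟩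
  obtain ⟨U, hU0, hUs, hUn⟩ := Nat.find_spec hP
  refine ⟨U, hU0, hUs, fun U' hle hs' => ?_⟩
  by_cases h0 : U' = ⊥
  · exact Or.inl h0
  · right
    have hmin : Nat.find hP ≤ Module.finrank k U' := Nat.find_min' hP ⟨U', h0, hs', rfl⟩
    rw [← hUn] at hmin
    exact Submodule.eq_of_le_of_finrank_le hle hmin

/-- **Main theorem (ES-G-LIN).** Let `W` be a nonzero finite-dimensional representation of `G`
over an algebraically closed field `k` and `d : G → kˣ` a character such that every `g`
satisfies a relation `g² - a g + d(g) = 0` on `W`. Then there is a two-dimensional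
representation `r` of `G` such that `r g` has characteristic polynomial `X² - a X + d(g)`
for EVERY relation `g² - a g + d(g) = 0` valid on `W`; moreover `r` is trivial on every `g`
acting trivially on `W` with `d g = 1`. -/
theorem exists_twoDim_of_quadratic_relations [IsAlgClosed k]
    {W : Type*} [AddCommGroup W] [Module k W] [FiniteDimensional k W] [Nontrivial W]
    (ρW : G →* Module.End k W) (d : G →* kˣ)
    (h : ∀ g : G, ∃ a : k,
      ρW g * ρW g - a • ρW g + ((d g : kˣ) : k) • (1 : Module.End k W) = 0) :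
    ∃ r : G →* Matrix (Fin 2) (Fin 2) k,
      (∀ g, ρW g = 1 → d g = 1 → r g = 1) ∧
      ∀ g a, ρW g * ρW g - a • ρW g + ((d g : kˣ) : k) • (1 : Module.End k W) = 0 →
        (r g).charpoly = X ^ 2 - C a * X + C ((d g : kˣ) : k) := by
  classical
  choose t ht using h
  obtain ⟨U, hU0, hUs, hUmin⟩ := exists_minimal_stable ρW
  have : Nontrivial U := (Submodule.nontrivial_iff_ne_bot).mpr hU0
  set ρU := restrictRep ρW U hUs with hρU
  have hρU1 : ∀ g, ρW g = 1 → ρU g = 1 := by
    intro g hg
    ext x
    simp [hρU, hg]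
  have hrelU : ∀ g a, ρW g * ρW g - a • ρW g + ((d g : kˣ) : k) • (1 : Module.End k W) = 0 →
      QuadRelAt ρU d g a := fun g a hga => QuadRelAt.restrictRep (ρW := ρW) hga U hUs
  -- irreducibility of `U`
  have hirr : ∀ W' : Submodule k U, (∀ g : G, ∀ x ∈ W', ρU g x ∈ W') → W' = ⊥ ∨ W' = ⊤ := by
    intro W' hW'
    have hst : ∀ g, ∀ x ∈ W'.map U.subtype, ρW g x ∈ W'.map U.subtype := by
      rintro g _ ⟨x, hx, rfl⟩
      exact ⟨ρU g x, hW' g x hx, rfl⟩
    have hle : W'.map U.subtype ≤ U := Submodule.map_subtype_le U W'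
    rcases hUmin _ hle hst with h0 | h1
    · left
      apply Submodule.map_injective_of_injective U.injective_subtype
      rw [h0, Submodule.map_bot]
    · right
      apply Submodule.map_injective_of_injective U.injective_subtype
      rw [h1, Submodule.map_subtype_top]
  have hspan : Submodule.span k (Set.range ρU) = ⊤ :=
    Fermat.Agent.H99.span_range_eq_top_of_irreducible_algClosed ρU hirr
  have hle2 : Module.finrank k U ≤ 2 :=
    finrank_le_two_of_quadRel ρU d t (fun g => hrelU g (t g) (ht g)) hspan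
  have hpos : 0 < Module.finrank k U := Module.finrank_pos
  have hcases : Module.finrank k U = 1 ∨ Module.finrank k U = 2 := by omega
  rcases hcases with h1 | h2
  · obtain ⟨r, hr1, hr2⟩ := exists_matrix_rep_of_finrank_one h1 ρU d
    exact ⟨r, fun g hg hd => hr1 g (hρU1 g hg) hd, fun g a hga => hr2 g a (hrelU g a hga)⟩
  · obtain ⟨r, hr1, hr2⟩ := exists_matrix_rep_of_finrank_two h2 ρU d
      (fun g => ⟨t g, hrelU g (t g) (ht g)⟩) hspan
    exact ⟨r, fun g hg _ => hr1 g (hρU1 g hg), fun g a hga => hr2 g a (hrelU g a hga)⟩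

/-- Variant of the main theorem with values in a field `k` receiving the algebraically closed
field of coefficients `k₀`. -/
theorem exists_twoDim_of_quadratic_relations_map [IsAlgClosed k]
    {k' : Type*} [Field k'] (ι : k →+* k')
    {W : Type*} [AddCommGroup W] [Module k W] [FiniteDimensional k W] [Nontrivial W]
    (ρW : G →* Module.End k W) (d : G →* kˣ)
    (h : ∀ g : G, ∃ a : k,
      ρW g * ρW g - a • ρW g + ((d g : kˣ) : k) • (1 : Module.End k W) = 0) :
    ∃ r : G →* Matrix (Fin 2) (Fin 2) k',
      (∀ g, ρW g = 1 → d g = 1 → r g = 1) ∧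
      ∀ g a, ρW g * ρW g - a • ρW g + ((d g : kˣ) : k) • (1 : Module.End k W) = 0 →
        (r g).charpoly = X ^ 2 - C (ι a) * X + C (ι ((d g : kˣ) : k)) := by
  obtain ⟨r, hr1, hr2⟩ := exists_twoDim_of_quadratic_relations ρW d h
  let r' : G →* Matrix (Fin 2) (Fin 2) k' :=
    { toFun := fun g => (r g).map ι
      map_one' := by
        rw [map_one]
        exact Matrix.map_one ι (map_zero ι) (map_one ι)
      map_mul' := fun g g' => by
        rw [map_mul]
        exact Matrix.map_mul }
  have hr' : ∀ g, r' g = (r g).map ι := fun _ => rfl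
  refine ⟨r', fun g hg hd => ?_, fun g a hga => ?_⟩
  · rw [hr', hr1 g hg hd]
    exact Matrix.map_one ι (map_zero ι) (map_one ι)
  · rw [hr', Matrix.charpoly_map, hr2 g a hga]
    simp

end Assembly

section Residual

/-- **Packaged form for residual Galois representations.** From a nonzero finite-dimensional
representation `W` of `G_ℚ` over an algebraically closed field `k₀`, factoring through a finite
level, on which every element satisfies a quadratic relation `g² - a g + d(g) = 0` for a
character `d` of finite level, we get a `ResidualGaloisRep k` over any field `k` receiving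
`k₀`, with characteristic polynomial `X² - ι(a) X + ι(d g)` for every such relation, and
trivial on every `g` acting trivially on `W` with `d g = 1`. -/
theorem exists_residualGaloisRep_of_quadratic_relations
    {k₀ : Type} [Field k₀] [IsAlgClosed k₀] {k : Type} [Field k] (ι : k₀ →+* k)
    {W : Type} [AddCommGroup W] [Module k₀ W] [FiniteDimensional k₀ W] [Nontrivial W]
    (ρW : (AlgebraicClosure ℚ ≃ₐ[ℚ] AlgebraicClosure ℚ) →* Module.End k₀ W)
    (hρW : GaloisFactorsThroughFiniteLevel ρW)
    (d : (AlgebraicClosure ℚ ≃ₐ[ℚ] AlgebraicClosure ℚ) →* k₀ˣ)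
    (hd : GaloisFactorsThroughFiniteLevel d)
    (h : ∀ g, ∃ a : k₀,
      ρW g * ρW g - a • ρW g + ((d g : k₀ˣ) : k₀) • (1 : Module.End k₀ W) = 0) :
    ∃ ρ : ResidualGaloisRep k,
      (∀ g, ρW g = 1 → d g = 1 → ρ.ρ g = 1) ∧
      ∀ g a, ρW g * ρW g - a • ρW g + ((d g : k₀ˣ) : k₀) • (1 : Module.End k₀ W) = 0 →
        LinearMap.charpoly (ρ.ρ g) = X ^ 2 - C (ι a) * X + C (ι ((d g : k₀ˣ) : k₀)) := by
  classical
  obtain ⟨r, hr1, hr2⟩ := exists_twoDim_of_quadratic_relations_map ι ρW d h
  let ρ₀ : (AlgebraicClosure ℚ ≃ₐ[ℚ] AlgebraicClosure ℚ) →* Module.End k (Fin 2 → k) :=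
    { toFun := fun g => Matrix.toLin' (r g)
      map_one' := by rw [map_one, Matrix.toLin'_one]; rfl
      map_mul' := fun g g' => by rw [map_mul, Matrix.toLin'_mul]; rfl }
  have hρ₀ : ∀ g, ρ₀ g = Matrix.toLin' (r g) := fun _ => rfl
  have hρ₀1 : ∀ g, ρW g = 1 → d g = 1 → ρ₀ g = 1 := by
    intro g hg hdg
    rw [hρ₀, hr1 g hg hdg, Matrix.toLin'_one]
    rfl
  obtain ⟨L₁, hL₁, h₁⟩ := hρW
  obtain ⟨L₂, hL₂, h₂⟩ := hd
  refine ⟨{ V := Fin 2 → k
            finrank_eq := by simp
            ρ := ρ₀
            factorsThroughFiniteLevel := ⟨L₁ ⊔ L₂, inferInstance, fun σ hσ => ?_⟩ },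
    hρ₀1, fun g a hga => ?_⟩
  · exact hρ₀1 σ (h₁ σ fun x hx => hσ x ((le_sup_left : L₁ ≤ L₁ ⊔ L₂) hx))
      (h₂ σ fun x hx => hσ x ((le_sup_right : L₂ ≤ L₁ ⊔ L₂) hx))
  · change LinearMap.charpoly (ρ₀ g) = _
    rw [hρ₀, Matrix.charpoly_toLin', hr2 g a hga]

end Residual

end Fermat.Agent.H64
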