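/-
P-ES (Eichler-Shimura gateway), block ES-G-LIN, part 2:
quadratic relations propagate to powers (`h² - a h + d = 0 ⇒ (hᵐ)² - Vₘ hᵐ + dᵐ = 0`), hence
the hypothesis of `exists_twoDim_of_quadratic_relations` follows from the relation at Frobenius
lifts together with the Frobenius density theorem in its weak ("power") form.
-/
import Mathlib
import Fermat.Agent.H64.QuadRel
import Fermat.Prelude.Def_EllipticCurve_FrobeniusTrace
import Fermat.Prelude.Def_FLTPrelim_Ramification

set_option autoImplicit false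

open Polynomial

namespace Fermat.Agent.H64

section Pow

variable {k : Type*} [Field k] {G : Type*} [Group G]
  {V : Type*} [AddCommGroup V] [Module k V]

theorem QuadRelAt.congr {ρ : G →* Module.End k V} {d : G →* kˣ} {g g' : G} {a : k}
    (h : QuadRelAt ρ d g a) (hρ : ρ g' = ρ g) (hd : d g' = d g) : QuadRelAt ρ d g' a := by
  unfold QuadRelAt at h ⊢
  rw [hρ, hd]
  exact h

/-- Abstract power lemma in `End V`: if `M (a - M) = δ`, then `Mᵐ + (a - M)ᵐ` is a scalar. -/
theorem exists_pow_add_pow_eq_smul (M : Module.End k V) (a δ : k)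
    (h : M * M - a • M + δ • (1 : Module.End k V) = 0) (m : ℕ) :
    ∃ v : k, M ^ m + (a • (1 : Module.End k V) - M) ^ m = v • (1 : Module.End k V) := by
  set M' : Module.End k V := a • (1 : Module.End k V) - M with hM'
  have hMM' : M * M' = δ • (1 : Module.End k V) := by
    rw [hM', mul_sub, mul_smul_comm, mul_one]
    linear_combination (norm := module) -h
  have hM'M : M' * M = δ • (1 : Module.End k V) := by
    rw [hM', sub_mul, smul_mul_assoc, one_mul]
    linear_combination (norm := module) -h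
  have hsum : M + M' = a • (1 : Module.End k V) := by rw [hM']; abel
  have key : ∀ m : ℕ, (∃ v : k, M ^ m + M' ^ m = v • (1 : Module.End k V)) ∧
      (∃ v : k, M ^ (m + 1) + M' ^ (m + 1) = v • (1 : Module.End k V)) := by
    intro m
    induction m with
    | zero =>
      refine ⟨⟨2, ?_⟩, ⟨a, ?_⟩⟩
      · rw [pow_zero, pow_zero, two_smul]
      · rw [zero_add, pow_one, pow_one, hsum]
    | succ m ih =>
      obtain ⟨⟨v, hv⟩, ⟨v', hv'⟩⟩ := ih
      refine ⟨⟨v', hv'⟩, ⟨v' * a - δ * v, ?_⟩⟩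
      have e1 : M ^ (m + 1) * M' = δ • M ^ m := by
        rw [pow_succ, mul_assoc, hMM', mul_smul_comm, mul_one]
      have e2 : M' ^ (m + 1) * M = δ • M' ^ m := by
        rw [pow_succ, mul_assoc, hM'M, mul_smul_comm, mul_one]
      have e3 : (M ^ (m + 1) + M' ^ (m + 1)) * (M + M')
          = (v' * a) • (1 : Module.End k V) := by
        rw [hv', hsum, smul_mul_assoc, one_mul, smul_smul]
      rw [add_mul, mul_add, mul_add] at e3
      rw [pow_succ M (m + 1), pow_succ M' (m + 1)]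
      linear_combination (norm := module) e3 - e1 - e2 - δ • hv
  exact (key m).1

/-- **Power lemma**: a quadratic relation at `g` gives a quadratic relation at `g ^ m`. -/
theorem QuadRelAt.pow {ρ : G →* Module.End k V} {d : G →* kˣ} {g : G} {a : k}
    (h : QuadRelAt ρ d g a) (m : ℕ) : ∃ a' : k, QuadRelAt ρ d (g ^ m) a' := by
  obtain ⟨v, hv⟩ := exists_pow_add_pow_eq_smul (ρ g) a _ h m
  refine ⟨v, ?_⟩
  unfold QuadRelAt at h ⊢
  set M : Module.End k V := ρ g with hM
  set M' : Module.End k V := a • (1 : Module.End k V) - M with hM'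
  have hMM' : M * M' = ((d g : kˣ) : k) • (1 : Module.End k V) := by
    rw [hM', mul_sub, mul_smul_comm, mul_one]
    linear_combination (norm := module) -h
  have hM'M : M' * M = ((d g : kˣ) : k) • (1 : Module.End k V) := by
    rw [hM', sub_mul, smul_mul_assoc, one_mul]
    linear_combination (norm := module) -h
  have hcomm : Commute M M' := by
    unfold Commute SemiconjBy
    rw [hMM', hM'M]
  have hprod : M ^ m * M' ^ m = (((d g : kˣ) : k) ^ m) • (1 : Module.End k V) := by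
    rw [← hcomm.mul_pow, hMM', _root_.smul_pow, one_pow]
  have hM'm : M' ^ m = v • (1 : Module.End k V) - M ^ m := by
    rw [← hv]; abel
  rw [hM'm, mul_sub, mul_smul_comm, mul_one] at hprod
  rw [map_pow, map_pow, Units.val_pow_eq_pow_val]
  linear_combination (norm := module) -hprod

end Pow

section Frobenius

/-- The absolute Galois group of `ℚ`. -/
local notation "Gℚ" => (AlgebraicClosure ℚ ≃ₐ[ℚ] AlgebraicClosure ℚ)

/-- **Frobenius density, weak ("power") form**: every element of `G_ℚ` agrees, on any given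
finite extension of `ℚ`, with a power of a Frobenius element at a place over a prime outside
any given finite set. (Implied by Chebotarev's theorem with `m = 1`, and by the Frobenius
density theorem.) -/
def FrobPowDense : Prop :=
  ∀ (F : IntermediateField ℚ (AlgebraicClosure ℚ)), FiniteDimensional ℚ F →
    ∀ (g : Gℚ) (S : Finset ℕ),
    ∃ (ℓ : ℕ) (A : ValuationSubring (AlgebraicClosure ℚ)) (φ : Gℚ) (m : ℕ),
      ℓ.Prime ∧ ℓ ∉ S ∧ A.LiesOverPrime ℓ ∧ A.IsFrobeniusAt φ ℓ ∧ ∀ x ∈ F, (φ ^ m) x = g x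

/-- Chebotarev's theorem (existence form) implies the weak form. -/
theorem frobPowDense_of_chebotarev
    (h : ∀ (F : IntermediateField ℚ (AlgebraicClosure ℚ)), FiniteDimensional ℚ F →
      ∀ (g : Gℚ) (S : Finset ℕ),
      ∃ (ℓ : ℕ) (A : ValuationSubring (AlgebraicClosure ℚ)) (φ : Gℚ),
        ℓ.Prime ∧ ℓ ∉ S ∧ A.LiesOverPrime ℓ ∧ A.IsFrobeniusAt φ ℓ ∧ ∀ x ∈ F, φ x = g x) :
    FrobPowDense := by
  intro F hF g S
  obtain ⟨ℓ, A, φ, h1, h2, h3, h4, h5⟩ := h F hF g S
  exact ⟨ℓ, A, φ, 1, h1, h2, h3, h4, fun x hx => by rw [pow_one]; exact h5 x hx⟩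

/-- Two elements of `G_ℚ` agreeing on a field of definition have the same image. -/
theorem eq_of_agree_on_level {M : Type} [Monoid M] (ρ : Gℚ →* M)
    (L : IntermediateField ℚ (AlgebraicClosure ℚ))
    (hL : ∀ σ : Gℚ, (∀ x ∈ L, σ x = x) → ρ σ = 1) (g g' : Gℚ)
    (hgg : ∀ x ∈ L, g' x = g x) : ρ g = ρ g' := by
  have hτ : ρ (g'⁻¹ * g) = 1 := by
    apply hL
    intro x hx
    rw [AlgEquiv.mul_apply, ← hgg x hx]
    exact AlgEquiv.symm_apply_apply g' x
  have : g = g' * (g'⁻¹ * g) := by group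
  rw [this, map_mul, hτ, mul_one]

variable {k : Type} [Field k] {W : Type} [AddCommGroup W] [Module k W]

/-- **Glue**: quadratic relations at Frobenius elements outside `S` + Frobenius density (weak
form) give a quadratic relation at every element of `G_ℚ`. -/
theorem quadRel_all_of_frobPowDense (hdense : FrobPowDense)
    (ρW : Gℚ →* Module.End k W) (hρW : GaloisFactorsThroughFiniteLevel ρW)
    (d : Gℚ →* kˣ) (hd : GaloisFactorsThroughFiniteLevel d) (S : Finset ℕ)
    (hFrob : ∀ ℓ : ℕ, ℓ.Prime → ℓ ∉ S → ∀ A : ValuationSubring (AlgebraicClosure ℚ),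
      A.LiesOverPrime ℓ → ∀ φ : Gℚ, A.IsFrobeniusAt φ ℓ → ∃ a : k, QuadRelAt ρW d φ a)
    (g : Gℚ) : ∃ a : k, QuadRelAt ρW d g a := by
  obtain ⟨L₁, hL₁, h₁⟩ := hρW
  obtain ⟨L₂, hL₂, h₂⟩ := hd
  obtain ⟨ℓ, A, φ, m, hℓ, hℓS, hA, hφ, hagree⟩ := hdense (L₁ ⊔ L₂) inferInstance g S
  obtain ⟨a, ha⟩ := hFrob ℓ hℓ hℓS A hA φ hφ
  obtain ⟨a', ha'⟩ := ha.pow m
  refine ⟨a', ha'.congr ?_ ?_⟩
  · exact eq_of_agree_on_level ρW L₁ h₁ g (φ ^ m)
      (fun x hx => hagree x ((le_sup_left : L₁ ≤ L₁ ⊔ L₂) hx))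
  · exact eq_of_agree_on_level d L₂ h₂ g (φ ^ m)
      (fun x hx => hagree x ((le_sup_right : L₂ ≤ L₁ ⊔ L₂) hx))

/-- **Residual representation from Frobenius relations.** Let `W ≠ 0` be a finite-dimensional
representation of `G_ℚ` over an algebraically closed field `k₀`, of finite level, `d` a
character of finite level, `S` a finite set of primes, and assume that every Frobenius element
`φ` at a prime `ℓ ∉ S` satisfies `φ² - t(ℓ) φ + d(φ) = 0` on `W`. Then, given Frobenius
density in the weak form, there is a `ResidualGaloisRep k` (for any field `k` receiving `k₀`)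
whose characteristic polynomial at every such `φ` is `X² - ι(t ℓ) X + ι(d φ)`, and which is
trivial on every `g` acting trivially on `W` with `d g = 1`. -/
theorem exists_residualGaloisRep_of_frobenius_relations (hdense : FrobPowDense)
    {k₀ : Type} [Field k₀] [IsAlgClosed k₀] {k : Type} [Field k] (ι : k₀ →+* k)
    {W : Type} [AddCommGroup W] [Module k₀ W] [FiniteDimensional k₀ W] [Nontrivial W]
    (ρW : Gℚ →* Module.End k₀ W) (hρW : GaloisFactorsThroughFiniteLevel ρW)
    (d : Gℚ →* k₀ˣ) (hd : GaloisFactorsThroughFiniteLevel d) (S : Finset ℕ) (t : ℕ → k₀)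
    (hFrob : ∀ ℓ : ℕ, ℓ.Prime → ℓ ∉ S → ∀ A : ValuationSubring (AlgebraicClosure ℚ),
      A.LiesOverPrime ℓ → ∀ φ : Gℚ, A.IsFrobeniusAt φ ℓ →
        ρW φ * ρW φ - t ℓ • ρW φ + ((d φ : k₀ˣ) : k₀) • (1 : Module.End k₀ W) = 0) :
    ∃ ρ : ResidualGaloisRep k,
      (∀ g, ρW g = 1 → d g = 1 → ρ.ρ g = 1) ∧
      ∀ ℓ : ℕ, ℓ.Prime → ℓ ∉ S → ∀ A : ValuationSubring (AlgebraicClosure ℚ),
        A.LiesOverPrime ℓ → ∀ φ : Gℚ, A.IsFrobeniusAt φ ℓ →
          LinearMap.charpoly (ρ.ρ φ) = X ^ 2 - C (ι (t ℓ)) * X + C (ι ((d φ : k₀ˣ) : k₀)) := by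
  have hall : ∀ g : Gℚ, ∃ a : k₀,
      ρW g * ρW g - a • ρW g + ((d g : k₀ˣ) : k₀) • (1 : Module.End k₀ W) = 0 :=
    quadRel_all_of_frobPowDense hdense ρW hρW d hd S
      (fun ℓ hℓ hℓS A hA φ hφ => ⟨t ℓ, hFrob ℓ hℓ hℓS A hA φ hφ⟩)
  obtain ⟨ρ, hρ1, hρ2⟩ := exists_residualGaloisRep_of_quadratic_relations ι ρW hρW d hd hall
  exact ⟨ρ, hρ1, fun ℓ hℓ hℓS A hA φ hφ => hρ2 φ (t ℓ) (hFrob ℓ hℓ hℓS A hA φ hφ)⟩

end Frobenius

end Fermat.Agent.H64
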