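import Mathlib

/-!
# Abhyankar's lemma, elementary core (helper64)

Pure valuation theory / polynomial algebra (Mathlib only).

* `abh_val_eq_exp_neg_one` : a criterion for an element `π` to be a uniformiser of a discrete
  valuation `v` of a field `E₁`, in terms of a subring `B` of the valuation ring with
  `Frac B = E₁` which is "reduced modulo `π` at `v`".
* `abh_reduced` : if `O` is a local ring with principal maximal ideal `(u)` dominated by `v`,
  and `t ^ n = w` with `w` and `n` units of `O`, then `O[t]` is reduced modulo `u` at `v`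
  (separability of `X ^ n - w` over the residue field).
-/

set_option autoImplicit false

open WithZero Polynomial

namespace Fermat.Agent.H64

section Valuation

variable {E₁ : Type*} [Field E₁] (v : Valuation E₁ ℤᵐ⁰)

/-- the order of an element -/
noncomputable def abhOrd (y : E₁) : ℤ := -(WithZero.log (v y))

theorem abhOrd_mul {y z : E₁} (hy : y ≠ 0) (hz : z ≠ 0) :
    abhOrd v (y * z) = abhOrd v y + abhOrd v z := by
  unfold abhOrd
  rw [map_mul, WithZero.log_mul ((Valuation.ne_zero_iff v).mpr hy)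
    ((Valuation.ne_zero_iff v).mpr hz)]
  ring

theorem abhOrd_nonneg {y : E₁} (hy : y ≠ 0) (h : v y ≤ 1) : 0 ≤ abhOrd v y := by
  unfold abhOrd
  have h0 : v y ≠ 0 := (Valuation.ne_zero_iff v).mpr hy
  have : WithZero.log (v y) ≤ 0 := by
    rw [← WithZero.log_one]
    exact (WithZero.log_le_log h0 one_ne_zero).mpr h
  omega

theorem abhOrd_pos {y : E₁} (hy : y ≠ 0) (h : v y < 1) : 0 < abhOrd v y := by
  unfold abhOrd
  have h0 : v y ≠ 0 := (Valuation.ne_zero_iff v).mpr hy
  have : WithZero.log (v y) < 0 := by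
    rw [← WithZero.log_one]
    exact (WithZero.log_lt_log h0 one_ne_zero).mpr h
  omega

theorem abhOrd_eq_zero {y : E₁} (h : v y = 1) : abhOrd v y = 0 := by
  unfold abhOrd
  rw [h, WithZero.log_one, neg_zero]

theorem abh_val_eq_of_ord {y : E₁} (hy : y ≠ 0) {k : ℤ} (h : abhOrd v y = k) :
    v y = WithZero.exp (-k) := by
  have h0 : v y ≠ 0 := (Valuation.ne_zero_iff v).mpr hy
  unfold abhOrd at h
  have : WithZero.log (v y) = -k := by omega
  rw [← this, WithZero.exp_log h0]

/-- **Uniformiser criterion.** -/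
theorem abh_val_eq_exp_neg_one
    (hsurj : ∃ π₁ : E₁, v π₁ = WithZero.exp (-1 : ℤ))
    (B : Subring E₁) (hB : ∀ b ∈ B, v b ≤ 1)
    (hfrac : ∀ y : E₁, ∃ b ∈ B, ∃ b' ∈ B, b' ≠ 0 ∧ y * b' = b)
    (π : E₁) (hπ0 : π ≠ 0) (hπ : v π < 1)
    (hred : ∀ b ∈ B, v b < 1 → ∃ h ∈ B, v h = 1 ∧ ∃ b₁ ∈ B, b * h = π * b₁) :
    v π = WithZero.exp (-1 : ℤ) := by
  have hπpos : 0 < abhOrd v π := abhOrd_pos v hπ0 hπ
  -- every nonzero element of `B` has order divisible by `ord π`
  have key : ∀ k : ℕ, ∀ b ∈ B, b ≠ 0 → abhOrd v b = k → abhOrd v π ∣ (k : ℤ) := by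
    intro k
    induction k using Nat.strong_induction_on with
    | _ k ih =>
      intro b hb hb0 hk
      by_cases h1 : v b = 1
      · rw [abhOrd_eq_zero v h1] at hk
        rw [← hk]
        exact dvd_zero _
      · have hlt : v b < 1 := lt_of_le_of_ne (hB b hb) h1
        obtain ⟨h, hh, hvh, b₁, hb₁, he⟩ := hred b hb hlt
        have hh0 : h ≠ 0 := by
          rintro rfl
          rw [map_zero] at hvh
          exact zero_ne_one hvh
        have hb₁0 : b₁ ≠ 0 := by
          rintro rfl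
          rw [mul_zero] at he
          exact (mul_ne_zero hb0 hh0) he
        have e1 : abhOrd v b + abhOrd v h = abhOrd v π + abhOrd v b₁ := by
          rw [← abhOrd_mul v hb0 hh0, ← abhOrd_mul v hπ0 hb₁0, he]
        rw [abhOrd_eq_zero v hvh, add_zero, hk] at e1
        have hb₁nn : 0 ≤ abhOrd v b₁ := abhOrd_nonneg v hb₁0 (hB b₁ hb₁)
        obtain ⟨j, hj⟩ : ∃ j : ℕ, abhOrd v b₁ = j := ⟨(abhOrd v b₁).toNat, by omega⟩
        have hjk : j < k := by omega
        have := ih j hjk b₁ hb₁ hb₁0 hj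
        rw [e1, hj]
        exact dvd_add (dvd_refl _) this
  have key' : ∀ b ∈ B, b ≠ 0 → abhOrd v π ∣ abhOrd v b := by
    intro b hb hb0
    have hnn : 0 ≤ abhOrd v b := abhOrd_nonneg v hb0 (hB b hb)
    have := key (abhOrd v b).toNat b hb hb0 (by omega)
    rwa [Int.toNat_of_nonneg hnn] at this
  obtain ⟨π₁, hπ₁⟩ := hsurj
  have hπ₁0 : π₁ ≠ 0 := by
    rintro rfl
    rw [map_zero] at hπ₁
    exact WithZero.exp_ne_zero.symm hπ₁
  have hπ₁ord : abhOrd v π₁ = 1 := by
    unfold abhOrd
    rw [hπ₁, WithZero.log_exp]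
    ring
  obtain ⟨b, hb, b', hb', hb'0, he⟩ := hfrac π₁
  have hb0 : b ≠ 0 := by
    rw [← he]
    exact mul_ne_zero hπ₁0 hb'0
  have e1 : abhOrd v π₁ + abhOrd v b' = abhOrd v b := by
    rw [← abhOrd_mul v hπ₁0 hb'0, he]
  have h1 := key' b hb hb0
  have h2 := key' b' hb' hb'0
  have h3 : abhOrd v π ∣ 1 := by
    have : abhOrd v π ∣ abhOrd v b - abhOrd v b' := dvd_sub h1 h2
    have e2 : abhOrd v b - abhOrd v b' = 1 := by omega
    rwa [e2] at this
  have h4 : abhOrd v π = 1 := by
    have := Int.eq_one_of_dvd_one hπpos.le h3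
    exact this
  have := abh_val_eq_of_ord v hπ0 h4
  simpa using this

end Valuation

section Reduced

variable {E₁ : Type*} [Field E₁] {Γ₀ : Type*} [LinearOrderedCommGroupWithZero Γ₀]
  (v : Valuation E₁ Γ₀)

theorem abh_val_aeval_le_one {O : Type*} [CommRing O] [Algebra O E₁]
    (hO : ∀ a : O, v (algebraMap O E₁ a) ≤ 1) (t : E₁) (ht : v t ≤ 1) (G : O[X]) :
    v (aeval t G) ≤ 1 := by
  rw [aeval_eq_sum_range]
  apply Valuation.map_sum_le
  intro i _
  rw [Algebra.smul_def, map_mul, map_pow]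
  exact mul_le_one' (hO _) (pow_le_one' ht i)

/-- **Reducedness of `O[t]` modulo `u`** when `t ^ n` is a unit of `O` and `n` is invertible. -/
theorem abh_reduced {O : Type*} [CommRing O] [Algebra O E₁]
    (hO : ∀ a : O, v (algebraMap O E₁ a) ≤ 1)
    (u : O) (hu : v (algebraMap O E₁ u) < 1)
    (hdiv : ∀ a : O, v (algebraMap O E₁ a) < 1 → u ∣ a)
    (hunit : ∀ a : O, v (algebraMap O E₁ a) = 1 → IsUnit a)
    (n : ℕ) (hnv : v (algebraMap O E₁ (n : O)) = 1)
    (w : O) (hw : v (algebraMap O E₁ w) = 1)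
    (t : E₁) (ht : t ^ n = algebraMap O E₁ w) (hn : 0 < n)
    (F : O[X]) (hF : v (aeval t F) < 1) :
    ∃ H c : O[X], v (aeval t H) = 1 ∧
      aeval t F * aeval t H = algebraMap O E₁ u * aeval t c := by
  classical
  -- `v t = 1`
  have hvt : v t = 1 := by
    have h1 : v t ^ n = 1 := by rw [← map_pow, ht, hw]
    exact (pow_eq_one_iff_of_nonneg zero_le hn.ne').mp h1
  have hle : ∀ G : O[X], v (aeval t G) ≤ 1 := abh_val_aeval_le_one v hO t hvt.le
  -- the maximal ideal
  have hmem : ∀ a : O, a ∈ Ideal.span ({u} : Set O) ↔ v (algebraMap O E₁ a) < 1 := by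
    intro a
    constructor
    · intro ha
      obtain ⟨b, rfl⟩ := Ideal.mem_span_singleton.mp ha
      rw [map_mul, map_mul]
      calc v (algebraMap O E₁ u) * v (algebraMap O E₁ b)
          ≤ v (algebraMap O E₁ u) * 1 := mul_le_mul' le_rfl (hO b)
        _ = v (algebraMap O E₁ u) := mul_one _
        _ < 1 := hu
    · intro ha
      exact Ideal.mem_span_singleton.mpr (hdiv a ha)
  have hmax : (Ideal.span ({u} : Set O)).IsMaximal := by
    rw [Ideal.isMaximal_iff]
    refine ⟨fun h => ?_, fun J a _ ha haJ => ?_⟩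
    · have := (hmem 1).mp h
      rw [map_one, map_one] at this
      exact lt_irrefl _ this
    · have h1 : v (algebraMap O E₁ a) = 1 :=
        le_antisymm (hO a) (not_lt.mp (fun h => ha ((hmem a).mpr h)))
      have hu' := hunit a h1
      have := Ideal.eq_top_of_isUnit_mem J haJ hu'
      rw [this]
      trivial
  let κ := O ⧸ Ideal.span ({u} : Set O)
  let _ : Field κ := Ideal.Quotient.field _
  set q : O →+* κ := Ideal.Quotient.mk _ with hq
  set π : O[X] →+* κ[X] := mapRingHom q with hπdef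
  have hπsurj : Function.Surjective π := Polynomial.map_surjective q Ideal.Quotient.mk_surjective
  -- kernel of `π`
  have hker : ∀ G : O[X], π G = 0 → ∃ c : O[X], G = C u * c := by
    intro G hG
    have h1 : G ∈ RingHom.ker π := hG
    rw [hπdef, Polynomial.ker_mapRingHom, hq, Ideal.mk_ker, Ideal.map_span, Set.image_singleton,
      Ideal.mem_span_singleton] at h1
    obtain ⟨c, hc⟩ := h1
    exact ⟨c, hc⟩
  -- the ideal `I`
  let I : Ideal O[X] :=
    { carrier := {G | v (aeval t G) < 1}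
      add_mem' := by
        intro a b ha hb
        simp only [Set.mem_ofPred_eq, map_add] at ha hb ⊢
        exact lt_of_le_of_lt (v.map_add _ _) (max_lt ha hb)
      zero_mem' := by simp
      smul_mem' := by
        intro c a ha
        simp only [Set.mem_ofPred_eq, smul_eq_mul, map_mul] at ha ⊢
        calc v (aeval t c) * v (aeval t a) ≤ 1 * v (aeval t a) := mul_le_mul' (hle c) le_rfl
          _ = v (aeval t a) := one_mul _
          _ < 1 := ha }
  have hI : ∀ G : O[X], G ∈ I ↔ v (aeval t G) < 1 := fun G => Iff.rfl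
  have hkerI : ∀ G : O[X], π G = 0 → G ∈ I := by
    intro G hG
    obtain ⟨c, rfl⟩ := hker G hG
    rw [hI, map_mul, aeval_C, map_mul]
    calc v (algebraMap O E₁ u) * v (aeval t c)
        ≤ v (algebraMap O E₁ u) * 1 := mul_le_mul' le_rfl (hle c)
      _ = v (algebraMap O E₁ u) := mul_one _
      _ < 1 := hu
  have hImap : ∀ G : O[X], π G ∈ I.map π → G ∈ I := by
    intro G hG
    obtain ⟨G', hG', he⟩ := (Ideal.mem_map_iff_of_surjective π hπsurj).mp hG
    have : G - G' ∈ I := hkerI _ (by rw [map_sub, he, sub_self])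
    have := I.add_mem this hG'
    simpa using this
  -- generator
  have hprin : (I.map π).IsPrincipal := IsPrincipalIdealRing.principal _
  set g : κ[X] := Submodule.IsPrincipal.generator (I.map π) with hg
  have hgspan : Ideal.span {g} = I.map π := Ideal.span_singleton_generator _
  -- `f = X ^ n - C w`
  have hfI : (X ^ n - C w : O[X]) ∈ I := by
    rw [hI]
    simp [ht]
  have hwbar : q w ≠ 0 := by
    intro h
    rw [hq, Ideal.Quotient.eq_zero_iff_mem, hmem, hw] at h
    exact lt_irrefl _ h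
  have hnbar : ((n : ℕ) : κ) ≠ 0 := by
    intro h
    have h2 : q (n : O) = 0 := by rw [map_natCast]; exact h
    rw [hq, Ideal.Quotient.eq_zero_iff_mem, hmem, hnv] at h2
    exact lt_irrefl _ h2
  have hsep : (X ^ n - C (q w) : κ[X]).Separable := separable_X_pow_sub_C (q w) hnbar hwbar
  have hsq : Squarefree (X ^ n - C (q w) : κ[X]) := hsep.squarefree
  have hπf : π (X ^ n - C w) = X ^ n - C (q w) := by
    simp [hπdef]
  have hfJ : (X ^ n - C (q w) : κ[X]) ∈ Ideal.span {g} := by
    rw [hgspan, ← hπf]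
    exact Ideal.mem_map_of_mem π hfI
  obtain ⟨h, hh⟩ := Ideal.mem_span_singleton.mp hfJ
  -- `h ∉ J`
  have hhJ : h ∉ I.map π := by
    intro hmemh
    rw [← hgspan] at hmemh
    obtain ⟨h', rfl⟩ := Ideal.mem_span_singleton.mp hmemh
    have hdvd : g * g ∣ X ^ n - C (q w) := ⟨h', by rw [hh]; ring⟩
    have hgu : IsUnit g := hsq g hdvd
    have htop : I.map π = ⊤ := by
      rw [← hgspan]
      exact Ideal.span_singleton_eq_top.mpr hgu
    have h1 : (1 : O[X]) ∈ I := by
      apply hImap
      rw [htop]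
      trivial
    rw [hI, map_one, map_one] at h1
    exact lt_irrefl _ h1
  -- now use `F`
  have hFJ : π F ∈ Ideal.span {g} := by
    rw [hgspan]
    exact Ideal.mem_map_of_mem π ((hI F).mpr hF)
  obtain ⟨z, hz⟩ := Ideal.mem_span_singleton.mp hFJ
  obtain ⟨H, hH⟩ := hπsurj h
  obtain ⟨Z, hZ⟩ := hπsurj z
  have hzero : π (F * H - Z * (X ^ n - C w)) = 0 := by
    rw [map_sub, map_mul, map_mul, hπf, hH, hZ, hz, hh]
    ring
  obtain ⟨c, hc⟩ := hker _ hzero
  refine ⟨H, c, ?_, ?_⟩
  · refine le_antisymm (hle H) (not_lt.mp (fun hlt => hhJ ?_))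
    rw [← hH]
    exact Ideal.mem_map_of_mem π ((hI H).mpr hlt)
  · have h1 := congrArg (aeval t) hc
    simp only [map_sub, map_mul, map_pow, aeval_X, aeval_C, ht, sub_self, mul_zero, sub_zero] at h1
    exact h1

end Reduced

end Fermat.Agent.H64
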