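import Mathlib
import Fermat.Agent.H25.CFT.Interfaces
import Fermat.Agent.H64.AbhCore

/-!
# P-CFT 2I-UNRAM (row 597): Kummer extensions are unramified at tame unit primes (helper64)

`kummerUnramified : Fermat.Agent.H25.CFT.KummerUnramifiedStatement`.

Route: elementary, via the uniformiser criterion `abh_val_eq_exp_neg_one` and the reducedness
lemma `abh_reduced` of `Fermat.Agent.H64.AbhCore` (`O_v[θ]`, `θ ^ p = x` a unit, `p` a unit, is
reduced modulo a uniformiser of `v`), and Mathlib's `valuation_liesOver`.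
No Galois theory, no different, no roots of unity are needed.
-/

set_option autoImplicit false

open Polynomial IsDedekindDomain NumberField WithZero IntermediateField

namespace Fermat.Agent.H64

section Abstract

variable {K : Type*} {L : Type*} [Field K] [Field L] [Algebra K L]

/-- clearing denominators: every element of `K[θ]` is a quotient of elements of `O[θ]` -/
theorem kumu_exists_integer_mul (O : ValuationSubring K) (θ : L)
    (hgen : Algebra.adjoin K ({θ} : Set L) = ⊤) (y : L) :
    ∃ (G : (O)[X]) (d : O), d ≠ 0 ∧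
      y * algebraMap K L (d : K) = G.eval₂ ((algebraMap K L).comp O.subtype) θ := by
  have hy : y ∈ Algebra.adjoin K ({θ} : Set L) := by rw [hgen]; trivial
  rw [Algebra.adjoin_singleton_eq_range_aeval] at hy
  obtain ⟨P, rfl⟩ := hy
  obtain ⟨b, hb, hP⟩ := IsLocalization.integerNormalization_spec (nonZeroDivisors O) P
  refine ⟨IsLocalization.integerNormalization (nonZeroDivisors O) P, b,
    nonZeroDivisors.ne_zero hb, ?_⟩
  have h1 : (IsLocalization.integerNormalization (nonZeroDivisors O) P).eval₂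
      ((algebraMap K L).comp O.subtype) θ = eval₂ (algebraMap K L) θ
        (map (algebraMap O K)
          (IsLocalization.integerNormalization (nonZeroDivisors O) P)) := by
    rw [Polynomial.eval₂_map]
    rfl
  rw [h1, hP, Algebra.smul_def, Polynomial.eval₂_mul]
  rw [Polynomial.algebraMap_apply, Polynomial.eval₂_C]
  rw [mul_comm]
  rfl

/-- **Kummer extensions are unramified at unit primes, valuation form.** -/
theorem kumu_val_eq (vK : Valuation K ℤᵐ⁰) (vL : Valuation L ℤᵐ⁰) (e : ℕ) (he : e ≠ 0)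
    (hcomp : ∀ a : K, vK a ^ e = vL (algebraMap K L a))
    (hsurjL : ∃ π₁ : L, vL π₁ = WithZero.exp (-1 : ℤ))
    (π : K) (hπ : vK π = WithZero.exp (-1 : ℤ))
    (n : ℕ) (hn : 0 < n) (hnv : vK ((n : ℕ) : K) = 1)
    (x : K) (hx : vK x = 1) (θ : L) (hθ : θ ^ n = algebraMap K L x)
    (hgen : Algebra.adjoin K ({θ} : Set L) = ⊤) :
    vL (algebraMap K L π) = WithZero.exp (-1 : ℤ) := by
  have hle : ∀ a : K, vL (algebraMap K L a) ≤ 1 ↔ vK a ≤ 1 := by
    intro a
    rw [← hcomp]
    exact pow_le_one_iff he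
  have hlt : ∀ a : K, vL (algebraMap K L a) < 1 ↔ vK a < 1 := by
    intro a
    rw [← hcomp]
    exact pow_lt_one_iff he
  have heq : ∀ a : K, vL (algebraMap K L a) = 1 ↔ vK a = 1 := by
    intro a
    rw [← hcomp]
    exact pow_eq_one_iff_of_nonneg zero_le he
  let O : ValuationSubring K := vK.valuationSubring
  let ι : O →+* L := (algebraMap K L).comp O.subtype
  have hιapply : ∀ a : O, ι a = algebraMap K L (a : K) := fun a => rfl
  have hO : ∀ a : O, vL (ι a) ≤ 1 := fun a => (hle _).mpr a.2
  have hπ0 : π ≠ 0 := by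
    rintro rfl
    rw [map_zero] at hπ
    exact WithZero.exp_ne_zero.symm hπ
  have hπlt : vK π < 1 := by
    rw [hπ, ← WithZero.exp_zero, WithZero.exp_lt_exp]
    norm_num
  have hπO : π ∈ O := hπlt.le
  have hxO : x ∈ O := hx.le
  have hθv : vL θ ≤ 1 := by
    have h1 : vL θ ^ n = 1 := by rw [← map_pow, hθ, heq, hx]
    exact ((pow_eq_one_iff_of_nonneg zero_le hn.ne').mp h1).le
  have hevalle : ∀ G : (O)[X], vL (G.eval₂ ι θ) ≤ 1 := by
    intro G
    let _ : Algebra O L := ι.toAlgebra
    exact abh_val_aeval_le_one vL hO θ hθv G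
  apply abh_val_eq_exp_neg_one vL hsurjL
    (RingHom.range (R := (O)[X]) (S := L) (Polynomial.eval₂RingHom ι θ))
  · rintro b ⟨G, rfl⟩
    exact hevalle G
  · intro y
    obtain ⟨G, d, hd, hG⟩ := kumu_exists_integer_mul O θ hgen y
    refine ⟨G.eval₂ ι θ, ⟨G, rfl⟩, ι d, ⟨C d, ?_⟩, ?_, hG⟩
    · rw [Polynomial.coe_eval₂RingHom, Polynomial.eval₂_C]
    · rw [hιapply, Ne, map_eq_zero]
      exact fun h => hd (Subtype.ext h)
  · rw [Ne, map_eq_zero (algebraMap K L)]
    exact hπ0
  · exact (hlt π).mpr hπlt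
  · rintro b ⟨F, rfl⟩ hb
    rw [Polynomial.coe_eval₂RingHom] at hb
    let _ : Algebra O L := ι.toAlgebra
    have hdiv : ∀ a : O, vL (ι a) < 1 → (⟨π, hπO⟩ : O) ∣ a := by
      intro a ha
      have ha' : vK (a : K) < 1 := (hlt _).mp ha
      have hquot : (a : K) / π ∈ O := by
        change vK ((a : K) / π) ≤ 1
        rw [map_div₀, hπ]
        rw [div_le_iff₀ (by rw [← hπ]; exact zero_lt_iff.mpr ((Valuation.ne_zero_iff _).mpr hπ0)),
          one_mul]
        by_cases ha0 : (a : K) = 0
        · rw [ha0, map_zero]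
          exact zero_le
        · have hpos := abhOrd_pos vK ha0 ha'
          rw [abh_val_eq_of_ord vK ha0 rfl, WithZero.exp_le_exp]
          omega
      refine ⟨⟨_, hquot⟩, ?_⟩
      apply Subtype.ext
      simp only [MulMemClass.coe_mul]
      field_simp
    have hunit : ∀ a : O, vL (ι a) = 1 → IsUnit a := by
      intro a ha
      have ha' : vK (a : K) = 1 := (heq _).mp ha
      have ha0 : (a : K) ≠ 0 := by
        intro h
        rw [h, map_zero] at ha'
        exact zero_ne_one ha'
      have hinv : (a : K)⁻¹ ∈ O := by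
        change vK (a : K)⁻¹ ≤ 1
        rw [map_inv₀, ha', inv_one]
      refine ⟨⟨a, ⟨_, hinv⟩, ?_, ?_⟩, rfl⟩
      · apply Subtype.ext
        simp only [MulMemClass.coe_mul, OneMemClass.coe_one]
        exact mul_inv_cancel₀ ha0
      · apply Subtype.ext
        simp only [MulMemClass.coe_mul, OneMemClass.coe_one]
        exact inv_mul_cancel₀ ha0
    have hnv' : vL (ι ((n : ℕ) : O)) = 1 := by
      rw [map_natCast, ← map_natCast (algebraMap K L), heq]
      exact hnv
    obtain ⟨H, c, hH, hc⟩ := abh_reduced vL hO ⟨π, hπO⟩ ((hlt π).mpr hπlt) hdiv hunit n hnv'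
      ⟨x, hxO⟩ ((heq x).mpr hx) θ hθ hn F hb
    exact ⟨H.eval₂ ι θ, ⟨H, rfl⟩, hH, c.eval₂ ι θ, ⟨c, rfl⟩, hc⟩

end Abstract

section Generation

variable {K : Type*} {L : Type*} [Field K] [Field L] [Algebra K L]

/-- in an extension of prime degree, an element outside the base field generates -/
theorem kumu_adjoin_eq_top [FiniteDimensional K L] {p : ℕ} (hp : p.Prime)
    (hdeg : Module.finrank K L = p) (θ : L) (hθ : θ ∉ Set.range (algebraMap K L)) :
    Algebra.adjoin K ({θ} : Set L) = ⊤ := by
  have halg : IsAlgebraic K θ := Algebra.IsAlgebraic.isAlgebraic θ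
  have h1 : Module.finrank K K⟮θ⟯ * Module.finrank K⟮θ⟯ L = p := by
    rw [Module.finrank_mul_finrank, hdeg]
  have h2 : Module.finrank K K⟮θ⟯ ∣ p := Dvd.intro _ h1
  have h3 : Module.finrank K K⟮θ⟯ ≠ 1 := by
    intro h
    rw [IntermediateField.finrank_adjoin_simple_eq_one_iff, IntermediateField.mem_bot] at h
    exact hθ h
  have h4 : Module.finrank K K⟮θ⟯ = p := by
    rcases (Nat.dvd_prime hp).mp h2 with h | h
    · exact absurd h h3
    · exact h
  have h5 : K⟮θ⟯ = ⊤ := by
    apply IntermediateField.eq_of_le_of_finrank_eq le_top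
    rw [h4, IntermediateField.finrank_top', hdeg]
  rw [← IntermediateField.adjoin_simple_toSubalgebra_of_isAlgebraic halg, h5,
    IntermediateField.top_toSubalgebra]

end Generation

/-- **2I-UNRAM** (row 597). -/
theorem kummerUnramified.{u, v} : Fermat.Agent.H25.CFT.KummerUnramifiedStatement.{u, v} := by
  intro K _ _ L _ _ _ _ p hp hdeg ζ _ x θ hθ hx w hwp hwx
  have hlies : w.asIdeal.LiesOver (w.under (𝓞 K)).asIdeal := by
    rw [HeightOneSpectrum.under_asIdeal]
    infer_instance
  rw [← Ideal.ramificationIdx'_eq_ramificationIdx (w.under (𝓞 K)).asIdeal w.asIdeal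
    (w.under (𝓞 K)).ne_bot]
  have he : (w.under (𝓞 K)).asIdeal.ramificationIdx' w.asIdeal ≠ 0 :=
    Ideal.IsDedekindDomain.ramificationIdx'_ne_zero_of_liesOver w.asIdeal (w.under (𝓞 K)).ne_bot
  obtain ⟨π, hπ⟩ := (w.under (𝓞 K)).valuation_exists_uniformizer K
  have hθK : θ ∉ Set.range (algebraMap K L) := by
    rintro ⟨y, rfl⟩
    apply hx
    have hy0 : y ≠ 0 := by
      rintro rfl
      rw [map_zero, zero_pow hp.ne_zero] at hθ
      have := (map_eq_zero (algebraMap K L)).mp hθ.symm
      exact x.ne_zero this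
    refine ⟨Units.mk0 y hy0, ?_⟩
    apply Units.ext
    rw [powMonoidHom_apply, Units.val_pow_eq_pow_val, Units.val_mk0]
    apply (algebraMap K L).injective
    rw [map_pow]
    exact hθ
  have hgen : Algebra.adjoin K ({θ} : Set L) = ⊤ := kumu_adjoin_eq_top hp hdeg θ hθK
  have key := kumu_val_eq ((w.under (𝓞 K)).valuation K) (w.valuation L) _ he
    (fun a => HeightOneSpectrum.valuation_liesOver L (w.under (𝓞 K)) w a)
    (w.valuation_exists_uniformizer L) π hπ p hp.pos hwp x hwx θ hθ hgen
  have h1 := HeightOneSpectrum.valuation_liesOver L (w.under (𝓞 K)) w π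
  rw [key, hπ, ← WithZero.exp_nsmul, WithZero.exp_inj] at h1
  simp only [nsmul_eq_mul, mul_neg, mul_one, neg_inj] at h1
  exact_mod_cast h1

end Fermat.Agent.H64
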