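import Mathlib.RingTheory.AdicCompletion.Completeness
import Mathlib.RingTheory.MvPowerSeries.Trunc

namespace Fermat.Agent.H64

open MvPowerSeries Finsupp

variable {σ : Type*} {R : Type*} [CommRing R]

/-- Membership in powers of the ideal generated by the variables of a multivariate power series
ring in finitely many variables: all coefficients of total degree `< n` vanish. -/
theorem mem_pow_span_X_iff [Finite σ] (n : ℕ) (g : MvPowerSeries σ R) :
    g ∈ (Ideal.span (Set.range (X : σ → MvPowerSeries σ R))) ^ n ↔
      ∀ x : σ →₀ ℕ, degree x < n → coeff x g = 0 := by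
  classical
  set e := toAdicCompletionAlgEquiv σ R with he
  have h1 : Ideal.map e.toRingEquiv (Ideal.span (Set.range X)) =
      (MvPolynomial.idealOfVars σ R).map (algebraMap ..) := by
    simp_rw [Ideal.map_span, ← Set.range_comp]
    congr 2; ext1
    simp [he, AdicCompletion.algebraMap_apply, ← MvPolynomial.coe_X, toAdicCompletion_coe]
  have h2 : g ∈ (Ideal.span (Set.range (X : σ → MvPowerSeries σ R))) ^ n ↔
      e g ∈ ((MvPolynomial.idealOfVars σ R) ^ n).map
        (algebraMap (MvPolynomial σ R)
          (AdicCompletion (MvPolynomial.idealOfVars σ R) (MvPolynomial σ R))) := by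
    rw [Ideal.map_pow, ← h1, ← Ideal.map_pow]
    exact (Ideal.apply_mem_of_equiv_iff (f := e.toRingEquiv)).symm
  have h3 : e g ∈ ((MvPolynomial.idealOfVars σ R) ^ n).map
        (algebraMap (MvPolynomial σ R)
          (AdicCompletion (MvPolynomial.idealOfVars σ R) (MvPolynomial σ R))) ↔
      (e g).val n = 0 := by
    have := AdicCompletion.pow_smul_top_eq_ker_eval (M := MvPolynomial σ R) (n := n)
      (MvPolynomial.idealOfVars_fg σ R)
    rw [Ideal.smul_top_eq_map] at this
    have h4 : e g ∈ ((MvPolynomial.idealOfVars σ R ^ n).map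
        (algebraMap (MvPolynomial σ R)
          (AdicCompletion (MvPolynomial.idealOfVars σ R) (MvPolynomial σ R)))).restrictScalars
            (MvPolynomial σ R) ↔ e g ∈ LinearMap.ker (AdicCompletion.eval
              (MvPolynomial.idealOfVars σ R) (MvPolynomial σ R) n) := by
      rw [this]
    rw [LinearMap.mem_ker, AdicCompletion.eval_apply] at h4
    exact h4
  rw [h2, h3, he, toAdicCompletionAlgEquiv_apply, toAdicCompletion_apply_eq_mk_truncTotal]
  rw [Ideal.Quotient.eq_zero_iff_mem, smul_eq_mul, Ideal.mul_top,
    MvPolynomial.mem_pow_idealOfVars_iff']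
  constructor
  · intro h x hx
    rw [← h x hx, coeff_truncTotal _ hx]
  · intro h x hx
    rw [coeff_truncTotal _ hx, h x hx]

/-- Lemma (B): a power series differs from its total-degree truncation by an element of the
`n`-th power of the ideal generated by the variables. -/
theorem sub_truncTotal_mem_pow_span_X [Finite σ] (n : ℕ) (f : MvPowerSeries σ R) :
    f - ((truncTotal n f : MvPolynomial σ R) : MvPowerSeries σ R) ∈
      (Ideal.span (Set.range (X : σ → MvPowerSeries σ R))) ^ n := by
  rw [mem_pow_span_X_iff]
  intro x hx
  rw [map_sub, MvPolynomial.coeff_coe, coeff_truncTotal _ hx, sub_self]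

/-- Lemma (B), in the exact shape requested (variables indexed by `Fin N`). -/
theorem sub_truncTotal_mem {R : Type} [CommRing R] (N n : Nat) (f : MvPowerSeries (Fin N) R) :
    f - ((MvPowerSeries.truncTotal n f : MvPolynomial (Fin N) R) : MvPowerSeries (Fin N) R) ∈
      (Ideal.span (Set.range (MvPowerSeries.X : Fin N → MvPowerSeries (Fin N) R))) ^ n :=
  sub_truncTotal_mem_pow_span_X n f

end Fermat.Agent.H64
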