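import Mathlib.RingTheory.AdicCompletion.Completeness
import Mathlib.RingTheory.MvPowerSeries.Trunc
import Mathlib.RingTheory.MvPowerSeries.Inverse
import Mathlib.RingTheory.DiscreteValuationRing.Basic
import Fermat.Agent.H64.MvPSIdeal

namespace Fermat.Agent.H64

open MvPowerSeries Finsupp

variable {σ : Type*} {R : Type*} [CommRing R]

/-- The ideal `𝔞 R⟦X⟧ + (X_i)` of a power series ring. -/
noncomputable def bigIdeal (σ : Type*) {R : Type*} [CommRing R] (𝔞 : Ideal R) :
    Ideal (MvPowerSeries σ R) :=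
  𝔞.map (C (σ := σ) (R := R)) ⊔ Ideal.span (Set.range (X : σ → MvPowerSeries σ R))

/-- The ideal of power series whose coefficient at `x` lies in `𝔞 ^ (n - degree x)`. -/
noncomputable def coeffIdeal (σ : Type*) {R : Type*} [CommRing R] (𝔞 : Ideal R) (n : ℕ) :
    Ideal (MvPowerSeries σ R) where
  carrier := {f | ∀ x : σ →₀ ℕ, coeff x f ∈ 𝔞 ^ (n - degree x)}
  add_mem' := by
    intro f g hf hg x
    rw [map_add]
    exact Ideal.add_mem _ (hf x) (hg x)
  zero_mem' := by
    intro x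
    rw [map_zero]
    exact Ideal.zero_mem _
  smul_mem' := by
    classical
    intro c f hf x
    rw [smul_eq_mul, coeff_mul]
    refine Ideal.sum_mem _ ?_
    rintro ⟨a, b⟩ hab
    rw [Finset.mem_antidiagonal] at hab
    have hdeg : degree b ≤ degree x := by
      rw [← hab, map_add]
      exact Nat.le_add_left _ _
    exact Ideal.mul_mem_left _ _ (Ideal.pow_le_pow_right (by omega) (hf b))

theorem mem_coeffIdeal_iff (𝔞 : Ideal R) (n : ℕ) (f : MvPowerSeries σ R) :
    f ∈ coeffIdeal σ 𝔞 n ↔ ∀ x : σ →₀ ℕ, coeff x f ∈ 𝔞 ^ (n - degree x) := Iff.rfl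

theorem coeffIdeal_mul_le (𝔞 : Ideal R) (m n : ℕ) :
    coeffIdeal σ 𝔞 m * coeffIdeal σ 𝔞 n ≤ coeffIdeal σ 𝔞 (m + n) := by
  classical
  rw [Ideal.mul_le]
  intro f hf g hg x
  rw [coeff_mul]
  refine Ideal.sum_mem _ ?_
  rintro ⟨a, b⟩ hab
  rw [Finset.mem_antidiagonal] at hab
  have hdeg : degree a + degree b = degree x := by
    rw [← hab, map_add]
  have h1 := Ideal.mul_mem_mul (hf a) (hg b)
  rw [← pow_add] at h1
  exact Ideal.pow_le_pow_right (by omega) h1

theorem bigIdeal_le_coeffIdeal_one (𝔞 : Ideal R) : bigIdeal σ 𝔞 ≤ coeffIdeal σ 𝔞 1 := by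
  classical
  rw [bigIdeal, sup_le_iff]
  constructor
  · rw [Ideal.map_le_iff_le_comap]
    intro a ha x
    rw [coeff_C]
    split_ifs with h
    · subst h
      simpa using ha
    · exact Ideal.zero_mem _
  · rw [Ideal.span_le]
    rintro _ ⟨i, rfl⟩ x
    rw [coeff_X]
    split_ifs with h
    · subst h
      simp
    · exact Ideal.zero_mem _

theorem bigIdeal_pow_le_coeffIdeal (𝔞 : Ideal R) (n : ℕ) :
    bigIdeal σ 𝔞 ^ n ≤ coeffIdeal σ 𝔞 n := by
  induction n with
  | zero =>
    intro f _ x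
    simp
  | succ n ih =>
    rw [pow_succ]
    exact (Ideal.mul_mono ih (bigIdeal_le_coeffIdeal_one 𝔞)).trans (coeffIdeal_mul_le 𝔞 n 1)


theorem C_mem_bigIdeal_pow (𝔞 : Ideal R) {k : ℕ} {c : R} (hc : c ∈ 𝔞 ^ k) :
    (C (σ := σ) (R := R) c) ∈ bigIdeal σ 𝔞 ^ k := by
  have h1 : C (σ := σ) (R := R) c ∈ (𝔞 ^ k).map (C (σ := σ) (R := R)) :=
    Ideal.mem_map_of_mem _ hc
  rw [Ideal.map_pow] at h1
  exact Ideal.pow_right_mono le_sup_left k h1

theorem monomial_one_mem_bigIdeal_pow [Finite σ] (𝔞 : Ideal R) (x : σ →₀ ℕ) :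
    (monomial x (1 : R) : MvPowerSeries σ R) ∈ bigIdeal σ 𝔞 ^ (degree x) := by
  classical
  have h1 : (monomial x (1 : R) : MvPowerSeries σ R) ∈
      (Ideal.span (Set.range (X : σ → MvPowerSeries σ R))) ^ (degree x) := by
    rw [mem_pow_span_X_iff]
    intro y hy
    rw [coeff_monomial]
    split_ifs with h
    · subst h
      exact absurd hy (lt_irrefl _)
    · rfl
  exact Ideal.pow_right_mono le_sup_right _ h1

theorem coeffIdeal_le_bigIdeal_pow [Finite σ] (𝔞 : Ideal R) (n : ℕ) :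
    coeffIdeal σ 𝔞 n ≤ bigIdeal σ 𝔞 ^ n := by
  classical
  intro f hf
  have h1 : f - ((truncTotal n f : MvPolynomial σ R) : MvPowerSeries σ R) ∈ bigIdeal σ 𝔞 ^ n :=
    Ideal.pow_right_mono le_sup_right _ (sub_truncTotal_mem_pow_span_X n f)
  have h2 : ((truncTotal n f : MvPolynomial σ R) : MvPowerSeries σ R) ∈ bigIdeal σ 𝔞 ^ n := by
    have hsum : ((truncTotal n f : MvPolynomial σ R) : MvPowerSeries σ R) =
        ∑ v ∈ (truncTotal n f).support,
          MvPowerSeries.monomial v ((truncTotal n f).coeff v) := by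
      conv_lhs => rw [(truncTotal n f).as_sum]
      rw [← MvPolynomial.coeToMvPowerSeries.ringHom_apply, map_sum]
      refine Finset.sum_congr rfl fun v _ => ?_
      rw [MvPolynomial.coeToMvPowerSeries.ringHom_apply, MvPolynomial.coe_monomial]
    rw [hsum]
    refine Ideal.sum_mem _ fun v hv => ?_
    have hvn : degree v < n := by
      by_contra hcon
      rw [MvPolynomial.mem_support_iff] at hv
      exact hv (coeff_truncTotal_eq_zero _ (not_lt.mp hcon))
    rw [coeff_truncTotal _ hvn]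
    have hc : coeff v f ∈ 𝔞 ^ (n - degree v) := hf v
    have hmon : (MvPowerSeries.monomial v (coeff v f) : MvPowerSeries σ R) =
        C (σ := σ) (R := R) (coeff v f) * MvPowerSeries.monomial v (1 : R) := by
      rw [← MvPowerSeries.smul_eq_C_mul, ← LinearMap.map_smul, smul_eq_mul, mul_one]
    rw [hmon]
    have hprod := Ideal.mul_mem_mul (C_mem_bigIdeal_pow (σ := σ) 𝔞 hc)
      (monomial_one_mem_bigIdeal_pow 𝔞 v)
    rw [← pow_add, Nat.sub_add_cancel hvn.le] at hprod
    exact hprod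
  have := Ideal.add_mem _ h1 h2
  rwa [sub_add_cancel] at this


theorem bigIdeal_pow_eq_coeffIdeal [Finite σ] (𝔞 : Ideal R) (n : ℕ) :
    bigIdeal σ 𝔞 ^ n = coeffIdeal σ 𝔞 n :=
  le_antisymm (bigIdeal_pow_le_coeffIdeal 𝔞 n) (coeffIdeal_le_bigIdeal_pow 𝔞 n)

/-- Coefficientwise description of the powers of the ideal `𝔞 R⟦X⟧ + (X_i)`. -/
theorem mem_bigIdeal_pow_iff [Finite σ] (𝔞 : Ideal R) (n : ℕ) (f : MvPowerSeries σ R) :
    f ∈ bigIdeal σ 𝔞 ^ n ↔ ∀ x : σ →₀ ℕ, coeff x f ∈ 𝔞 ^ (n - degree x) := by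
  rw [bigIdeal_pow_eq_coeffIdeal, mem_coeffIdeal_iff]

theorem isHausdorff_bigIdeal [Finite σ] (𝔞 : Ideal R) [IsHausdorff 𝔞 R] :
    IsHausdorff (bigIdeal σ 𝔞) (MvPowerSeries σ R) := by
  rw [isHausdorff_iff]
  intro f hf
  ext x
  rw [map_zero]
  refine IsHausdorff.haus (I := 𝔞) inferInstance _ fun m => ?_
  have h1 := hf (m + degree x)
  rw [SModEq.zero, smul_eq_mul, Ideal.mul_top, mem_bigIdeal_pow_iff] at h1
  have h2 := h1 x
  rw [Nat.add_sub_cancel] at h2
  rw [SModEq.zero, smul_eq_mul, Ideal.mul_top]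
  exact h2

theorem isPrecomplete_bigIdeal [Finite σ] (𝔞 : Ideal R) [IsPrecomplete 𝔞 R] :
    IsPrecomplete (bigIdeal σ 𝔞) (MvPowerSeries σ R) := by
  rw [isPrecomplete_iff]
  intro f hf
  -- coefficientwise Cauchy sequences
  have hc : ∀ x : σ →₀ ℕ, ∃ L : R, ∀ j : ℕ,
      coeff x (f (j + degree x)) ≡ L [SMOD (𝔞 ^ j • ⊤ : Submodule R R)] := by
    intro x
    refine IsPrecomplete.prec (I := 𝔞) inferInstance (f := fun j => coeff x (f (j + degree x))) ?_
    intro i j hij
    have h1 := hf (m := i + degree x) (n := j + degree x) (by omega)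
    rw [SModEq.sub_mem, smul_eq_mul, Ideal.mul_top, mem_bigIdeal_pow_iff] at h1
    have h2 := h1 x
    rw [Nat.add_sub_cancel, map_sub] at h2
    rw [SModEq.sub_mem, smul_eq_mul, Ideal.mul_top]
    exact h2
  choose L hL using hc
  set F : MvPowerSeries σ R := fun x => L x with hF
  have hFc : ∀ x, coeff x F = L x := fun x => rfl
  refine ⟨F, fun n => ?_⟩
  rw [SModEq.sub_mem, smul_eq_mul, Ideal.mul_top, mem_bigIdeal_pow_iff]
  intro x
  rw [map_sub, hFc]
  by_cases hx : degree x ≤ n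
  · have h1 := hL x (n - degree x)
    rw [SModEq.sub_mem, smul_eq_mul, Ideal.mul_top, Nat.sub_add_cancel hx] at h1
    exact h1
  · have : n - degree x = 0 := by omega
    rw [this, pow_zero, Ideal.one_eq_top]
    exact Submodule.mem_top

theorem isAdicComplete_bigIdeal [Finite σ] (𝔞 : Ideal R) [IsAdicComplete 𝔞 R] :
    IsAdicComplete (bigIdeal σ 𝔞) (MvPowerSeries σ R) :=
  { isHausdorff_bigIdeal 𝔞, isPrecomplete_bigIdeal 𝔞 with }

theorem maximalIdeal_eq_bigIdeal [Finite σ] [IsLocalRing R] :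
    IsLocalRing.maximalIdeal (MvPowerSeries σ R) = bigIdeal σ (IsLocalRing.maximalIdeal R) := by
  ext f
  rw [← pow_one (bigIdeal σ (IsLocalRing.maximalIdeal R)), mem_bigIdeal_pow_iff,
    IsLocalRing.mem_maximalIdeal, mem_nonunits_iff, MvPowerSeries.isUnit_iff_constantCoeff]
  constructor
  · intro h x
    by_cases hx : x = 0
    · subst hx
      simpa using h
    · have h0 : 1 - degree x = 0 := by
        have : degree x ≠ 0 := by
          rwa [Ne, Finsupp.degree_eq_zero_iff]
        omega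
      rw [h0, pow_zero, Ideal.one_eq_top]
      exact Submodule.mem_top
  · intro h
    have := h 0
    simpa using this

/-- Lemma (A): the power series ring in finitely many variables over a local ring that is
complete for its maximal ideal is complete for its own maximal ideal. -/
theorem mvPowerSeries_isAdicComplete_maximalIdeal [Finite σ] [IsLocalRing R]
    [IsAdicComplete (IsLocalRing.maximalIdeal R) R] :
    IsAdicComplete (IsLocalRing.maximalIdeal (MvPowerSeries σ R)) (MvPowerSeries σ R) := by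
  rw [maximalIdeal_eq_bigIdeal]
  exact isAdicComplete_bigIdeal _

/-- Lemma (A), in the exact shape requested. -/
theorem mvps_isAdicComplete (O : Type) [CommRing O] [IsDomain O] [IsDiscreteValuationRing O]
    [IsAdicComplete (IsLocalRing.maximalIdeal O) O] (N : Nat) :
    IsAdicComplete (IsLocalRing.maximalIdeal (MvPowerSeries (Fin N) O))
      (MvPowerSeries (Fin N) O) :=
  mvPowerSeries_isAdicComplete_maximalIdeal

end Fermat.Agent.H64
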