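import Fermat.Agent.H64.QuadRelPow
import Fermat.Agent.H3.FrobPrelude

/-!
# `FrobPowDense`, unconditionally (helper64)

The weak ("power") form of Frobenius density used by `Fermat.Agent.H64.QuadRelPow` follows from
the landed Frobenius density theorem `Fermat.Agent.H3.Frob.frobPow` (helper3).
-/

set_option autoImplicit false

namespace Fermat.Agent.H64

/-- **Frobenius density, weak form** (unconditional): every `g ∈ Gal(ℚ̄/ℚ)` agrees on a given
finite extension of `ℚ` with a power of a Frobenius element at a place over a prime outside any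
given finite set. -/
theorem frobPowDense : FrobPowDense := by
  intro F hF g S
  obtain ⟨ℓ, A, σ, k, _j, hℓ, hℓS, hA, hσ, hk, _hj⟩ := Fermat.Agent.H3.Frob.frobPow F hF g S
  exact ⟨ℓ, A, σ, k, hℓ, hℓS, hA, hσ, fun x hx => (hk x hx).symm⟩

end Fermat.Agent.H64
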