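import Mathlib
import Fermat.Agent.H18.RedInst
import Fermat.Agent.H58.RR.ESD
import Fermat.Agent.H27.ESD.Interfaces2

/-!
# S18 from the KEY LEMMA (helper64; block S18-ASM of the P-ES architecture, findings #298)

`KeyLemmaAt N A m` : if `a`, `b` are integral Laurent series in `F = ℚ̄(X₀(N))` with the same
nonzero reduction (lying in `F_k`) and every place of `F` has order divisible by `m` at `a / b`,
then `a / b` is an `m`-th power in `F`.

`s18At_of_keyLemma` : the key lemma (for all `m` prime to `ℓ`), algebraic closedness of the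
residue field and Riemann's theorem for `F_k` imply the conclusion of S18 for the ARBITRARY place
reduction chosen by the prelude.
-/

set_option autoImplicit false
set_option linter.unusedSectionVars false
set_option linter.style.haveILetI false
set_option synthInstance.maxHeartbeats 400000
set_option maxHeartbeats 1600000

noncomputable section

open ModularCurve AlgebraicCurve Fermat.Agent.H18 Fermat.Agent.H27.ESD

namespace Fermat.Agent.H64

/-- **KEY LEMMA** `KL(N, A, m)` (findings #298 (0)). -/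
def KeyLemmaAt (N : ℕ) (A : ValuationSubring (AlgebraicClosure ℚ)) (m : ℕ) : Prop :=
  ∀ (a b : LaurentSeries A)
    (ha : coeffMap A.subtype a ∈ modularFunctionFieldBar N)
    (hb : coeffMap A.subtype b ∈ modularFunctionFieldBar N),
    coeffMap (IsLocalRing.residue A) a ∈
      modularFunctionFieldFullC (IsLocalRing.ResidueField A) N →
    coeffMap (IsLocalRing.residue A) a = coeffMap (IsLocalRing.residue A) b →
    coeffMap (IsLocalRing.residue A) b ≠ 0 →
    (∀ P : Place (AlgebraicClosure ℚ) ↥(modularFunctionFieldBar N),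
      (m : ℤ) ∣ P.ord ((⟨_, ha⟩ : ↥(modularFunctionFieldBar N)) * (⟨_, hb⟩)⁻¹)) →
    ∃ w : ↥(modularFunctionFieldBar N),
      w ^ m = (⟨_, ha⟩ : ↥(modularFunctionFieldBar N)) * (⟨_, hb⟩)⁻¹

/-- **KEY LEMMA**, all levels and primes. -/
def KeyLemmaStatement : Prop :=
  ∀ (N : ℕ) [NeZero N] (ℓ : ℕ) [Fact ℓ.Prime], ¬ ℓ ∣ N →
    ∀ (A : ValuationSubring (AlgebraicClosure ℚ)), A.LiesOverPrime ℓ →
      ∀ m : ℕ, 0 < m → ¬ ℓ ∣ m → KeyLemmaAt N A m

/-- **S18 from the key lemma** (at one level and one valuation ring), for the arbitrary place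
reduction `h.choose` of the prelude. -/
theorem s18At_of_keyLemma (N : ℕ) [NeZero N] {ℓ : ℕ}
    (A : ValuationSubring (AlgebraicClosure ℚ))
    (hKL : ∀ m : ℕ, 0 < m → ¬ ℓ ∣ m → KeyLemmaAt N A m)
    (hac : IsAlgClosed (IsLocalRing.ResidueField A))
    (hrr : Fermat.Agent.H58.RRHyp (IsLocalRing.ResidueField A)
      ↥(modularFunctionFieldFullC (IsLocalRing.ResidueField A) N))
    (h : ModularCurve.ReductionInputsModL A N) : S18At N ℓ A := by
  intro m hm z hmz hz
  have hm0 : 0 < m := Nat.pos_of_ne_zero (fun h0 => hm (h0 ▸ dvd_zero ℓ))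
  have hPL := Fermat.Agent.H58.riemannPackage_of_rrHyp
    (Fermat.Agent.H58.rrHyp_modularFunctionFieldBar N)
  have H : RvHyp A (IsLocalRing.residue A) N (placeReductionModL h) :=
    rvHyp_of_inputs A N h hPL
  haveI : Infinite (IsLocalRing.ResidueField A) := IsAlgClosed.instInfinite
  have hPk := Fermat.Agent.H58.riemannPackage_of_rrHyp hrr
  obtain ⟨D, rfl⟩ := Pic0.mk_surjective z
  -- `m • D` is principal
  have hmD : m • (D : Divisor (AlgebraicClosure ℚ) ↥(modularFunctionFieldBar N)) ∈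
      Divisor.principal (K := AlgebraicClosure ℚ) (F := ↥(modularFunctionFieldBar N)) := by
    have h1 : Pic0.mk (m • D) = 0 := hmz
    have h2 := (QuotientAddGroup.eq_zero_iff _).mp h1
    rwa [AddSubgroup.mem_addSubgroupOf, AddSubgroupClass.coe_nsmul] at h2
  -- `r_* D` is principal
  have hrD : Finsupp.mapDomain (placeReductionModL h)
      (D : Divisor (AlgebraicClosure ℚ) ↥(modularFunctionFieldBar N)) ∈
      Divisor.principal (K := IsLocalRing.ResidueField A)
        (F := ↥(modularFunctionFieldFullC (IsLocalRing.ResidueField A) N)) := by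
    rw [reductionModL_mk h D] at hz
    have h2 := (QuotientAddGroup.eq_zero_iff _).mp hz
    rwa [AddSubgroup.mem_addSubgroupOf, coe_reductionDegZeroAlong] at h2
  obtain ⟨xbar, hxbar0, hxbar⟩ := hrD
  -- `m • D = div (Yp / Ym)` with good integral series
  obtain ⟨yp, ym, hp, hm', hD⟩ := rv_closure_rep (H.hgen hmD)
  set Yp : ↥(modularFunctionFieldBar N) := ⟨rvIota A yp, hp.1⟩ with hYp
  set Ym : ↥(modularFunctionFieldBar N) := ⟨rvIota A ym, hm'.1⟩ with hYm
  have hYp0 : Yp ≠ 0 := fun h0 => hp.iota_ne_zero (congrArg Subtype.val h0)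
  have hYm0 : Ym ≠ 0 := fun h0 => hm'.iota_ne_zero (congrArg Subtype.val h0)
  have hrep0 : RvRep A (IsLocalRing.residue A) N
      (((Yp * Ym⁻¹ : ↥(modularFunctionFieldBar N)) : LaurentSeries (AlgebraicClosure ℚ)))
      yp ym := by
    refine ⟨hm', hp.num, ?_⟩
    have e : Yp * Ym⁻¹ * Ym = Yp := by field_simp
    exact congrArg Subtype.val e
  set u0 : rvRing A (IsLocalRing.residue A) N := ⟨Yp * Ym⁻¹, mem_rvRing.mpr ⟨yp, ym, hrep0⟩⟩
    with hu0
  have hu0F : (u0 : ↥(modularFunctionFieldBar N)) = Yp * Ym⁻¹ := rfl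
  have hu0ne : (u0 : ↥(modularFunctionFieldBar N)) ≠ 0 := by
    rw [hu0F]
    exact mul_ne_zero hYp0 (inv_ne_zero hYm0)
  have hred0 : rvRed A (IsLocalRing.residue A) N u0 ≠ 0 := by
    intro h0
    have hs := rvRed_spec u0 hrep0
    rw [h0] at hs
    apply hp.2.2
    rw [← hs]
    simp
  have hD0 : ∀ P : Place (AlgebraicClosure ℚ) ↥(modularFunctionFieldBar N),
      (m • (D : Divisor (AlgebraicClosure ℚ) ↥(modularFunctionFieldBar N))) P =
        P.ord (u0 : ↥(modularFunctionFieldBar N)) := by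
    intro P
    rw [hD P, hu0F, P.ord_mul hYp0 (inv_ne_zero hYm0), P.ord_inv]
    ring
  have hQ : ∀ Q : Place (IsLocalRing.ResidueField A)
      ↥(modularFunctionFieldFullC (IsLocalRing.ResidueField A) N),
      Q.ord (rvRed A (IsLocalRing.residue A) N u0) = (m : ℤ) * Q.ord xbar := by
    intro Q
    rw [← H.mapDomain_eq u0 hred0 _ hD0 Q, ← hxbar Q]
    have e : Finsupp.mapDomain (placeReductionModL h)
        (m • (D : Divisor (AlgebraicClosure ℚ) ↥(modularFunctionFieldBar N))) =
        m • Finsupp.mapDomain (placeReductionModL h)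
          (D : Divisor (AlgebraicClosure ℚ) ↥(modularFunctionFieldBar N)) :=
      map_nsmul (Finsupp.mapDomain.addMonoidHom (placeReductionModL h)) m _
    rw [e, Finsupp.smul_apply, nsmul_eq_mul]
  -- the quotient `red u0 / xbar ^ m` is a constant, hence an `m`-th power
  set t : ↥(modularFunctionFieldFullC (IsLocalRing.ResidueField A) N) :=
    rvRed A (IsLocalRing.residue A) N u0 * (xbar ^ m)⁻¹ with ht
  have hxm0 : xbar ^ m ≠ 0 := pow_ne_zero m hxbar0
  have ht0 : t ≠ 0 := mul_ne_zero hred0 (inv_ne_zero hxm0)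
  have htord : ∀ Q : Place (IsLocalRing.ResidueField A)
      ↥(modularFunctionFieldFullC (IsLocalRing.ResidueField A) N), Q.ord t = 0 := by
    intro Q
    have hpow : Q.ord (xbar ^ m) = (m : ℤ) * Q.ord xbar := by
      have := Q.ord_zpow xbar (m : ℤ)
      rwa [zpow_natCast] at this
    rw [ht, Q.ord_mul hred0 (inv_ne_zero hxm0), Q.ord_inv, hQ Q, hpow]
    ring
  obtain ⟨c, hc⟩ := rp_const_of_ord_nonneg hPk t (fun v => Or.inr (htord v).ge)
  obtain ⟨d, hd⟩ := IsAlgClosed.exists_pow_nat_eq c hm0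
  set x' : ↥(modularFunctionFieldFullC (IsLocalRing.ResidueField A) N) :=
    algebraMap (IsLocalRing.ResidueField A) _ d * xbar with hx'
  have hx'm : x' ^ m = rvRed A (IsLocalRing.residue A) N u0 := by
    rw [hx', mul_pow, ← map_pow, hd, hc, ht]
    field_simp
  have hx'0 : x' ≠ 0 := by
    intro h0
    apply hred0
    rw [← hx'm, h0, zero_pow hm0.ne']
  -- lift `x'` to the Gauss ring
  obtain ⟨X, hX⟩ := rvRed_surjective (A := A) (N := N) (rv_residue_surjective A) x'
  have hXred : rvRed A (IsLocalRing.residue A) N X ≠ 0 := by rw [hX]; exact hx'0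
  have hX0 : (X : ↥(modularFunctionFieldBar N)) ≠ 0 := by
    intro h0
    apply hXred
    have : X = 0 := Subtype.ext h0
    rw [this, map_zero]
  set Xi : rvRing A (IsLocalRing.residue A) N :=
    ⟨(X : ↥(modularFunctionFieldBar N))⁻¹, inv_mem_rvRing_of_red_ne_zero hXred⟩ with hXi
  have hXired : rvRed A (IsLocalRing.residue A) N Xi = x'⁻¹ := by
    rw [hXi, rvRed_inv hXred, hX]
  set u1 : rvRing A (IsLocalRing.residue A) N := u0 * Xi ^ m with hu1
  have hu1red : rvRed A (IsLocalRing.residue A) N u1 = 1 := by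
    rw [hu1, map_mul, map_pow, hXired, ← hx'm, inv_pow]
    exact mul_inv_cancel₀ (pow_ne_zero m hx'0)
  have hu1F : (u1 : ↥(modularFunctionFieldBar N)) =
      (u0 : ↥(modularFunctionFieldBar N)) * ((X : ↥(modularFunctionFieldBar N))⁻¹) ^ m := rfl
  -- a representation `u1 = ι a / ι b` with equal reductions
  obtain ⟨a, b, hrep⟩ := mem_rvRing.mp u1.2
  have hab : rvRho A (IsLocalRing.residue A) a = rvRho A (IsLocalRing.residue A) b := by
    have hs := rvRed_spec u1 hrep
    rw [hu1red] at hs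
    rw [← hs]
    simp
  have hb0 : (⟨rvIota A b, hrep.1.1⟩ : ↥(modularFunctionFieldBar N)) ≠ 0 := fun h0 =>
    hrep.1.iota_ne_zero (congrArg Subtype.val h0)
  have hu1ab : (⟨rvIota A a, hrep.2.1.1⟩ : ↥(modularFunctionFieldBar N)) *
      (⟨rvIota A b, hrep.1.1⟩ : ↥(modularFunctionFieldBar N))⁻¹ =
        (u1 : ↥(modularFunctionFieldBar N)) := by
    have e : (u1 : ↥(modularFunctionFieldBar N)) *
        (⟨rvIota A b, hrep.1.1⟩ : ↥(modularFunctionFieldBar N)) =
          (⟨rvIota A a, hrep.2.1.1⟩ : ↥(modularFunctionFieldBar N)) := Subtype.ext hrep.2.2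
    rw [← e]
    field_simp
  have hordX : ∀ P : Place (AlgebraicClosure ℚ) ↥(modularFunctionFieldBar N),
      P.ord (u1 : ↥(modularFunctionFieldBar N)) =
        (m : ℤ) * ((D : Divisor (AlgebraicClosure ℚ) ↥(modularFunctionFieldBar N)) P -
          P.ord (X : ↥(modularFunctionFieldBar N))) := by
    intro P
    have hpow : P.ord (((X : ↥(modularFunctionFieldBar N))⁻¹) ^ m) =
        (m : ℤ) * P.ord ((X : ↥(modularFunctionFieldBar N))⁻¹) := by
      have := P.ord_zpow ((X : ↥(modularFunctionFieldBar N))⁻¹) (m : ℤ)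
      rwa [zpow_natCast] at this
    rw [hu1F, P.ord_mul hu0ne (pow_ne_zero m (inv_ne_zero hX0)), hpow, P.ord_inv, ← hD0 P,
      Finsupp.smul_apply, nsmul_eq_mul]
    ring
  obtain ⟨w, hw⟩ := hKL m hm0 hm a b hrep.2.1.1 hrep.1.1 hrep.2.1.2 hab hrep.1.2.2
    (fun P => by rw [hu1ab, hordX P]; exact dvd_mul_right _ _)
  rw [hu1ab] at hw
  -- `D = div (w * X)`
  set g : ↥(modularFunctionFieldBar N) := w * (X : ↥(modularFunctionFieldBar N)) with hg
  have hgm : g ^ m = (u0 : ↥(modularFunctionFieldBar N)) := by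
    rw [hg, mul_pow, hw, hu1F, inv_pow, mul_assoc, inv_mul_cancel₀ (pow_ne_zero m hX0), mul_one]
  have hg0 : g ≠ 0 := by
    intro h0
    apply hu0ne
    rw [← hgm, h0, zero_pow hm0.ne']
  have hgord : ∀ P : Place (AlgebraicClosure ℚ) ↥(modularFunctionFieldBar N),
      (D : Divisor (AlgebraicClosure ℚ) ↥(modularFunctionFieldBar N)) P = P.ord g := by
    intro P
    have hpow : P.ord (g ^ m) = (m : ℤ) * P.ord g := by
      have := P.ord_zpow g (m : ℤ)
      rwa [zpow_natCast] at this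
    have h1 := hD0 P
    rw [← hgm, hpow, Finsupp.smul_apply, nsmul_eq_mul] at h1
    have hmZ : (m : ℤ) ≠ 0 := by exact_mod_cast hm0.ne'
    exact mul_left_cancel₀ hmZ h1
  refine (QuotientAddGroup.eq_zero_iff _).mpr ?_
  rw [AddSubgroup.mem_addSubgroupOf]
  exact ⟨g, hg0, hgord⟩

/-- **KEY LEMMA at tame pairs only.** -/
def KeyLemmaTameStatement : Prop :=
  ∀ (N : ℕ) [NeZero N] (ℓ : ℕ) [Fact ℓ.Prime], ¬ ℓ ∣ N → TamePair N ℓ →
    ∀ (A : ValuationSubring (AlgebraicClosure ℚ)), A.LiesOverPrime ℓ →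
      ∀ m : ℕ, 0 < m → ¬ ℓ ∣ m → KeyLemmaAt N A m

theorem keyLemmaTame_of_keyLemma (h : KeyLemmaStatement) : KeyLemmaTameStatement :=
  fun N _ ℓ _ hℓN _ A hA m hm0 hm => h N ℓ hℓN A hA m hm0 hm

/-- **S18 at tame pairs** (the ES-D target `S18TameStatement`) from the key lemma at tame pairs
and Riemann's theorem for `F_k`. -/
theorem s18Tame_of_keyLemma (hKL : KeyLemmaTameStatement) (hk : RRModLStatement) :
    S18TameStatement := by
  intro N _ ℓ _ hℓN ht A hA h
  obtain ⟨hac, hrr⟩ := hk N ℓ hℓN A hA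
  exact s18At_of_keyLemma N A (fun m hm0 hm => hKL N ℓ hℓN ht A hA m hm0 hm) hac hrr h

/-- **S18 (frozen shape)** from the key lemma at all pairs `(N, ℓ)`, `ℓ ∤ N`, and Riemann's
theorem for `F_k`. -/
theorem s18_of_keyLemma (hKL : KeyLemmaStatement) (hk : RRModLStatement)
    (N : ℕ) [NeZero N] {ℓ : ℕ} [Fact ℓ.Prime] (hℓN : ¬ ℓ ∣ N)
    (A : ValuationSubring (AlgebraicClosure ℚ)) (hA : A.LiesOverPrime ℓ)
    (h : ModularCurve.ReductionInputsModL A N) (m : ℕ) (hm : ¬ ℓ ∣ m)
    (z : ModularCurve.JZero N) (hmz : m • z = 0)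
    (hz : ModularCurve.reductionModL A N z = 0) : z = 0 := by
  obtain ⟨hac, hrr⟩ := hk N ℓ hℓN A hA
  exact s18At_of_keyLemma N A (fun m hm0 hm => hKL N ℓ hℓN A hA m hm0 hm) hac hrr h m hm z hmz hz

/-- **S18 (frozen shape)** from the key lemma at TAME pairs, Riemann's theorem for `F_k`,
existence of reduction inputs at tame pairs and level change (ES-D targets T4, T5). -/
theorem s18_of_keyLemmaTame (hKL : KeyLemmaTameStatement) (hk : RRModLStatement)
    (hE : ExistsReductionTameStatement) (hL : LevelChangeStatement)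
    (N : ℕ) [NeZero N] {ℓ : ℕ} [Fact ℓ.Prime] (hℓN : ¬ ℓ ∣ N)
    (A : ValuationSubring (AlgebraicClosure ℚ)) (hA : A.LiesOverPrime ℓ)
    (h : ModularCurve.ReductionInputsModL A N) (m : ℕ) (hm : ¬ ℓ ∣ m)
    (z : ModularCurve.JZero N) (hmz : m • z = 0)
    (hz : ModularCurve.reductionModL A N z = 0) : z = 0 :=
  s18_of_tame (s18Tame_of_keyLemma hKL hk) hE hL N hℓN A hA h m hm z hmz hz

end Fermat.Agent.H64
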