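import Mathlib
import Fermat.Agent.H64.S18ofKL
import Fermat.Agent.H22.ES.Interfaces
import Fermat.Agent.H16.ESDRRModL

/-!
# S18 from the official KEY LEMMA `Fermat.Agent.H22.ES.KeyLemmaStatement` (helper64)

Row S18-ASM of P-ES: `s18_of_KL : KeyLemmaStatement N ℓ → <statement of S18>`, with no other
hypothesis (Riemann's theorem for the reduction field `F_k` is `Fermat.Agent.H16.rrModLStatement`).
-/

set_option autoImplicit false
set_option linter.unusedSectionVars false
set_option linter.style.haveILetI false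
set_option synthInstance.maxHeartbeats 400000
set_option maxHeartbeats 1600000

noncomputable section

open ModularCurve AlgebraicCurve Fermat.Agent.H18 Fermat.Agent.H27.ESD

namespace Fermat.Agent.H64

/-- adapter: the official key lemma gives `KeyLemmaAt`. -/
theorem keyLemmaAt_of_official {N ℓ : ℕ} (hKL : Fermat.Agent.H22.ES.KeyLemmaStatement N ℓ)
    (A : ValuationSubring (AlgebraicClosure ℚ)) (hA : A.LiesOverPrime ℓ)
    (m : ℕ) (hm0 : 0 < m) (hm : ¬ ℓ ∣ m) : KeyLemmaAt N A m := by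
  intro a b ha hb _ hab hb0 hdiv
  have ha0 : coeffMap (IsLocalRing.residue A) a ≠ 0 := by rw [hab]; exact hb0
  have hane : (⟨coeffMap A.subtype a, ha⟩ : ↥(modularFunctionFieldBar N)) ≠ 0 := by
    intro h0
    apply ha0
    have h1 : coeffMap A.subtype a = 0 := congrArg Subtype.val h0
    have h2 : a = 0 := rvIota_injective A (by rw [h1, map_zero])
    rw [h2, map_zero]
  have hbne : (⟨coeffMap A.subtype b, hb⟩ : ↥(modularFunctionFieldBar N)) ≠ 0 := by
    intro h0
    apply hb0
    have h1 : coeffMap A.subtype b = 0 := congrArg Subtype.val h0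
    have h2 : b = 0 := rvIota_injective A (by rw [h1, map_zero])
    rw [h2, map_zero]
  obtain ⟨w, hw⟩ := hKL A hA m hm0 hm a b ha hb hab ha0 (fun P => by
    have := hdiv P
    rwa [P.ord_mul hane (inv_ne_zero hbne), P.ord_inv, ← sub_eq_add_neg] at this)
  exact ⟨w, by rw [← hw]; field_simp⟩

/-- **S18-ASM (row 368).**  The statement of S18 at `(N, ℓ)` from the key lemma `KL(N, ℓ)`. -/
theorem s18_of_KL (N : ℕ) [NeZero N] {ℓ : ℕ} [Fact ℓ.Prime] (hℓN : ¬ ℓ ∣ N)
    (hKL : Fermat.Agent.H22.ES.KeyLemmaStatement N ℓ)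
    (A : ValuationSubring (AlgebraicClosure ℚ)) (hA : A.LiesOverPrime ℓ)
    (h : ModularCurve.ReductionInputsModL A N) (m : ℕ) (hm : ¬ ℓ ∣ m)
    (z : ModularCurve.JZero N) (hmz : m • z = 0)
    (hz : ModularCurve.reductionModL A N z = 0) : z = 0 := by
  obtain ⟨hac, hrr⟩ := Fermat.Agent.H16.rrModLStatement N ℓ hℓN A hA
  exact s18At_of_keyLemma N A (fun m hm0 hm => keyLemmaAt_of_official hKL A hA m hm0 hm)
    hac hrr h m hm z hmz hz

/-- **S18 (frozen shape)** from `KeyLemmaAllStatement`. -/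
theorem s18_of_KLAll (hKL : Fermat.Agent.H22.ES.KeyLemmaAllStatement)
    (N : ℕ) [NeZero N] {ℓ : ℕ} [Fact ℓ.Prime] (hℓN : ¬ ℓ ∣ N)
    (A : ValuationSubring (AlgebraicClosure ℚ)) (hA : A.LiesOverPrime ℓ)
    (h : ModularCurve.ReductionInputsModL A N) (m : ℕ) (hm : ¬ ℓ ∣ m)
    (z : ModularCurve.JZero N) (hmz : m • z = 0)
    (hz : ModularCurve.reductionModL A N z = 0) : z = 0 :=
  s18_of_KL N hℓN (hKL N ℓ Fact.out hℓN) A hA h m hm z hmz hz

end Fermat.Agent.H64
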