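import Mathlib
import Fermat.Agent.H22.ES.KLSetting
import Fermat.Agent.H64.AbhCore

set_option autoImplicit false

open Polynomial WithZero

namespace Fermat.Agent.H64

open Fermat.Agent.H22.KL

section DVR

variable {E₁ : Type} [Field E₁] (v₁ : ValuationSubring E₁)

/-- a principal valuation subring which is not the whole field is a discrete valuation ring -/
theorem abh_isDVR (hne : v₁ ≠ ⊤) (hpir : IsPrincipalIdealRing v₁) :
    IsDiscreteValuationRing v₁ := by
  have := hpir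
  refine { not_a_field' := ?_ }
  intro hbot
  apply hne
  rw [eq_top_iff]
  intro y _
  rcases v₁.mem_or_inv_mem y with h | h
  · exact h
  · by_cases hy : y = 0
    · rw [hy]; exact v₁.zero_mem
    · by_contra hyn
      have h1 : y⁻¹ ∈ v₁.nonunits := by
        rw [ValuationSubring.mem_nonunits_iff_or]
        right
        rwa [inv_inv]
      rw [ValuationSubring.mem_nonunits_iff_exists_mem_maximalIdeal] at h1
      obtain ⟨ha, hm⟩ := h1
      rw [hbot, Ideal.mem_bot] at hm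
      have : y⁻¹ = 0 := congrArg Subtype.val hm
      exact hy (inv_eq_zero.mp this)

variable [IsDiscreteValuationRing v₁]

/-- the normalised valuation of a discrete valuation subring -/
noncomputable def abhVal : Valuation E₁ ℤᵐ⁰ :=
  (IsDiscreteValuationRing.maximalIdeal v₁).valuation E₁

theorem abhVal_le_one_of_mem {y : E₁} (hy : y ∈ v₁) : abhVal v₁ y ≤ 1 :=
  (IsDiscreteValuationRing.maximalIdeal v₁).valuation_le_one (⟨y, hy⟩ : v₁)

theorem abhVal_lt_one_of_mem_nonunits {y : E₁} (hy : y ∈ v₁.nonunits) : abhVal v₁ y < 1 := by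
  rw [ValuationSubring.mem_nonunits_iff_exists_mem_maximalIdeal] at hy
  obtain ⟨ha, hm⟩ := hy
  exact ((IsDiscreteValuationRing.maximalIdeal v₁).valuation_lt_one_iff_mem (⟨y, ha⟩ : v₁)).mpr hm

theorem abh_mem_of_abhVal_le_one {y : E₁} (hy : abhVal v₁ y ≤ 1) : y ∈ v₁ := by
  by_contra hyn
  have hy0 : y ≠ 0 := by
    rintro rfl
    exact hyn v₁.zero_mem
  have h1 : y⁻¹ ∈ v₁.nonunits := by
    rw [ValuationSubring.mem_nonunits_iff_or]
    right
    rwa [inv_inv]
  have h2 := abhVal_lt_one_of_mem_nonunits v₁ h1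
  have h3 : abhVal v₁ y * abhVal v₁ y⁻¹ = 1 := by
    rw [← map_mul, mul_inv_cancel₀ hy0, map_one]
  have h4 : abhVal v₁ y * abhVal v₁ y⁻¹ < 1 := by
    calc abhVal v₁ y * abhVal v₁ y⁻¹ ≤ 1 * abhVal v₁ y⁻¹ := mul_le_mul' hy le_rfl
      _ = abhVal v₁ y⁻¹ := one_mul _
      _ < 1 := h2
  rw [h3] at h4
  exact lt_irrefl _ h4

theorem abh_mem_iff {y : E₁} : y ∈ v₁ ↔ abhVal v₁ y ≤ 1 :=
  ⟨abhVal_le_one_of_mem v₁, abh_mem_of_abhVal_le_one v₁⟩

theorem abh_mem_nonunits_iff {y : E₁} : y ∈ v₁.nonunits ↔ abhVal v₁ y < 1 := by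
  refine ⟨abhVal_lt_one_of_mem_nonunits v₁, fun h => ?_⟩
  rw [ValuationSubring.mem_nonunits_iff_or]
  by_cases hy0 : y = 0
  · exact Or.inl hy0
  · right
    intro hinv
    have h2 := abhVal_le_one_of_mem v₁ hinv
    have h3 : abhVal v₁ y * abhVal v₁ y⁻¹ = 1 := by
      rw [← map_mul, mul_inv_cancel₀ hy0, map_one]
    have h4 : abhVal v₁ y * abhVal v₁ y⁻¹ < 1 := by
      calc abhVal v₁ y * abhVal v₁ y⁻¹ ≤ abhVal v₁ y * 1 := mul_le_mul' le_rfl h2
        _ = abhVal v₁ y := mul_one _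
        _ < 1 := h
    rw [h3] at h4
    exact lt_irrefl _ h4

theorem abhVal_eq_one_of_mem {y : E₁} (hy0 : y ≠ 0) (h1 : y ∈ v₁) (h2 : y⁻¹ ∈ v₁) :
    abhVal v₁ y = 1 := by
  have h1' := (abh_mem_iff v₁).mp h1
  have h2' := (abh_mem_iff v₁).mp h2
  refine le_antisymm h1' ?_
  by_contra hlt
  rw [not_le] at hlt
  have h3 : abhVal v₁ y * abhVal v₁ y⁻¹ = 1 := by
    rw [← map_mul, mul_inv_cancel₀ hy0, map_one]
  have h4 : abhVal v₁ y * abhVal v₁ y⁻¹ < 1 := by
    calc abhVal v₁ y * abhVal v₁ y⁻¹ ≤ abhVal v₁ y * 1 := mul_le_mul' le_rfl h2'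
      _ = abhVal v₁ y := mul_one _
      _ < 1 := hlt
  rw [h3] at h4
  exact lt_irrefl _ h4

theorem abh_inv_mem_of_abhVal_eq_one {y : E₁} (h : abhVal v₁ y = 1) : y⁻¹ ∈ v₁ := by
  rw [abh_mem_iff, map_inv₀, h, inv_one]

theorem abhVal_exists_uniformizer : ∃ π₁ : E₁, abhVal v₁ π₁ = WithZero.exp (-1 : ℤ) :=
  (IsDiscreteValuationRing.maximalIdeal v₁).valuation_exists_uniformizer E₁

/-- an element of normalised valuation `exp (-1)` is a uniformiser -/
theorem abh_isUniformiser_of_val {t : E₁} (ht : abhVal v₁ t = WithZero.exp (-1 : ℤ)) :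
    IsUniformiser E₁ v₁ t := by
  have ht0 : t ≠ 0 := by
    rintro rfl
    rw [map_zero] at ht
    exact WithZero.exp_ne_zero.symm ht
  have hlt : abhVal v₁ t < 1 := by
    rw [ht, ← WithZero.exp_zero, WithZero.exp_lt_exp]
    norm_num
  refine ⟨ht0, (abh_mem_nonunits_iff v₁).mpr hlt, fun y hy => ?_⟩
  rw [abh_mem_iff, map_div₀, ht]
  have hy' := (abh_mem_nonunits_iff v₁).mp hy
  by_cases hy0 : y = 0
  · rw [hy0, map_zero, zero_div]
    exact zero_le_one
  · have hvy : abhVal v₁ y ≠ 0 := (Valuation.ne_zero_iff _).mpr hy0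
    have h1 : abhVal v₁ y ≤ WithZero.exp (-1 : ℤ) := by
      have hpos := abhOrd_pos (abhVal v₁) hy0 hy'
      have := abh_val_eq_of_ord (abhVal v₁) hy0 (k := abhOrd (abhVal v₁) y) rfl
      rw [this, WithZero.exp_le_exp]
      omega
    rw [div_le_iff₀ (by rw [← ht]; exact zero_lt_iff.mpr ((Valuation.ne_zero_iff _).mpr ht0))]
    rw [one_mul]
    exact h1


end DVR

end Fermat.Agent.H64
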