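import Mathlib
import Fermat.Agent.H22.ES.KLSetting
import Fermat.Agent.H64.AbhCore
import Fermat.Agent.H64.AbhValA

set_option autoImplicit false

open Polynomial WithZero

namespace Fermat.Agent.H64

open Fermat.Agent.H22.KL

section Restrict

variable {E E₁ : Type} [Field E] [Field E₁] [Algebra E E₁] (v₁ : ValuationSubring E₁)

/-- the restriction of a valuation subring to a subfield -/
abbrev abhRes : ValuationSubring E := v₁.comap (algebraMap E E₁)

theorem abhRes_mem {a : E} : a ∈ abhRes (E := E) v₁ ↔ algebraMap E E₁ a ∈ v₁ :=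
  ValuationSubring.mem_comap

theorem abhRes_mem_nonunits {a : E} :
    a ∈ (abhRes (E := E) v₁).nonunits ↔ algebraMap E E₁ a ∈ v₁.nonunits := by
  rw [ValuationSubring.mem_nonunits_iff_or, ValuationSubring.mem_nonunits_iff_or, abhRes_mem,
    map_inv₀, map_eq_zero]

variable [IsDiscreteValuationRing v₁]

theorem abhRes_ne_top [Algebra.IsAlgebraic E E₁] (hne : v₁ ≠ ⊤) :
    abhRes (E := E) v₁ ≠ ⊤ := by
  intro htop
  have hall : ∀ a : E, algebraMap E E₁ a ∈ v₁ := by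
    intro a
    rw [← abhRes_mem, htop]
    exact ValuationSubring.mem_top a
  have hex : ∃ y : E₁, y ∉ v₁ := by
    by_contra hcon
    apply hne
    rw [eq_top_iff]
    intro y _
    by_contra hy
    exact hcon ⟨y, hy⟩
  obtain ⟨y, hy⟩ := hex
  have hy0 : y ≠ 0 := by
    rintro rfl
    exact hy v₁.zero_mem
  have hz0 : y⁻¹ ≠ 0 := inv_ne_zero hy0
  have hz : y⁻¹ ∈ v₁.nonunits := by
    rw [ValuationSubring.mem_nonunits_iff_or]
    right
    rwa [inv_inv]
  have hzv : abhVal v₁ y⁻¹ < 1 := (abh_mem_nonunits_iff v₁).mp hz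
  have hint : IsIntegral E y⁻¹ := (Algebra.IsAlgebraic.isAlgebraic (R := E) y⁻¹).isIntegral
  have hc0 : (minpoly E y⁻¹).coeff 0 ≠ 0 := minpoly.coeff_zero_ne_zero hint hz0
  have hsplit := Polynomial.divX_mul_X_add (minpoly E y⁻¹)
  have h0 : aeval y⁻¹ (minpoly E y⁻¹) = 0 := minpoly.aeval E y⁻¹
  rw [← hsplit] at h0
  simp only [map_add, map_mul, aeval_X, aeval_C] at h0
  have hle : abhVal v₁ (aeval y⁻¹ (minpoly E y⁻¹).divX) ≤ 1 :=
    abh_val_aeval_le_one (abhVal v₁) (fun a => (abh_mem_iff v₁).mp (hall a)) y⁻¹ hzv.le _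
  have h1 : algebraMap E E₁ ((minpoly E y⁻¹).coeff 0) =
      -(aeval y⁻¹ (minpoly E y⁻¹).divX * y⁻¹) := by
    rw [eq_neg_iff_add_eq_zero, add_comm]
    exact h0
  have h2 : abhVal v₁ (algebraMap E E₁ ((minpoly E y⁻¹).coeff 0)) < 1 := by
    rw [h1, Valuation.map_neg, map_mul]
    calc abhVal v₁ (aeval y⁻¹ (minpoly E y⁻¹).divX) * abhVal v₁ y⁻¹
        ≤ 1 * abhVal v₁ y⁻¹ := mul_le_mul' hle le_rfl
      _ = abhVal v₁ y⁻¹ := one_mul _
      _ < 1 := hzv
  have h3 : abhVal v₁ (algebraMap E E₁ ((minpoly E y⁻¹).coeff 0)) = 1 := by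
    apply abhVal_eq_one_of_mem v₁
    · rwa [Ne, map_eq_zero]
    · exact hall _
    · rw [← map_inv₀]
      exact hall _
  rw [h3] at h2
  exact lt_irrefl _ h2

theorem abhRes_isPrincipalIdealRing : IsPrincipalIdealRing (abhRes (E := E) v₁) := by
  classical
  refine ⟨fun I => ?_⟩
  by_cases hI : I = ⊥
  · rw [hI]
    exact bot_isPrincipal
  obtain ⟨a, haI, ha0⟩ := Submodule.exists_mem_ne_zero_of_ne_bot hI
  let P : ℕ → Prop := fun k =>
    ∃ b : abhRes (E := E) v₁, b ∈ I ∧ b ≠ 0 ∧ abhOrd (abhVal v₁) (algebraMap E E₁ (b : E)) = k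
  have hnn : ∀ b : abhRes (E := E) v₁, b ≠ 0 →
      0 ≤ abhOrd (abhVal v₁) (algebraMap E E₁ (b : E)) := by
    intro b hb
    apply abhOrd_nonneg
    · rw [Ne, map_eq_zero]
      exact fun h => hb (Subtype.ext h)
    · exact (abh_mem_iff v₁).mp ((abhRes_mem v₁).mp b.2)
  have hP : ∃ k, P k :=
    ⟨(abhOrd (abhVal v₁) (algebraMap E E₁ (a : E))).toNat, a, haI, ha0,
      (Int.toNat_of_nonneg (hnn a ha0)).symm⟩
  obtain ⟨a₀, ha₀I, ha₀0, ha₀k⟩ := Nat.find_spec hP
  have ha₀0' : (a₀ : E) ≠ 0 := fun h => ha₀0 (Subtype.ext h)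
  have hfa₀ : algebraMap E E₁ (a₀ : E) ≠ 0 := by rwa [Ne, map_eq_zero]
  refine ⟨⟨a₀, ?_⟩⟩
  apply le_antisymm
  · intro b hbI
    by_cases hb0 : b = 0
    · rw [hb0]
      exact Submodule.zero_mem _
    have hb0' : (b : E) ≠ 0 := fun h => hb0 (Subtype.ext h)
    have hfb : algebraMap E E₁ (b : E) ≠ 0 := by rwa [Ne, map_eq_zero]
    have hmin : Nat.find hP ≤ (abhOrd (abhVal v₁) (algebraMap E E₁ (b : E))).toNat :=
      Nat.find_min' hP ⟨b, hbI, hb0, (Int.toNat_of_nonneg (hnn b hb0)).symm⟩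
    have hord : abhOrd (abhVal v₁) (algebraMap E E₁ (a₀ : E)) ≤
        abhOrd (abhVal v₁) (algebraMap E E₁ (b : E)) := by
      have := hnn b hb0
      omega
    have hquot : (b : E) / (a₀ : E) ∈ abhRes (E := E) v₁ := by
      rw [abhRes_mem, abh_mem_iff, map_div₀, map_div₀]
      rw [div_le_iff₀ (zero_lt_iff.mpr ((Valuation.ne_zero_iff _).mpr hfa₀)), one_mul]
      rw [abh_val_eq_of_ord (abhVal v₁) hfb rfl, abh_val_eq_of_ord (abhVal v₁) hfa₀ rfl,
        WithZero.exp_le_exp]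
      omega
    rw [Submodule.mem_span_singleton]
    refine ⟨⟨_, hquot⟩, ?_⟩
    apply Subtype.ext
    simp only [smul_eq_mul, MulMemClass.coe_mul]
    field_simp
  · rw [Submodule.span_le]
    intro b hb
    rw [Set.mem_singleton_iff] at hb
    rw [hb]
    exact ha₀I

end Restrict

end Fermat.Agent.H64
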