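import Mathlib
import Fermat.Agent.H22.ES.KLSetting
import Fermat.Agent.H64.AbhCore
import Fermat.Agent.H64.AbhValA
import Fermat.Agent.H64.AbhValB

set_option autoImplicit false

open Polynomial WithZero

namespace Fermat.Agent.H64

open Fermat.Agent.H22.KL

section Wrappers

variable {E₁ : Type*} [Field E₁] {Γ₀ : Type*} [LinearOrderedCommGroupWithZero Γ₀]
  (v : Valuation E₁ Γ₀)

theorem abh_val_eval₂_le_one {O : Type*} [CommRing O] (ι : O →+* E₁)
    (hO : ∀ a : O, v (ι a) ≤ 1) (t : E₁) (ht : v t ≤ 1) (G : O[X]) :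
    v (G.eval₂ ι t) ≤ 1 := by
  let _ : Algebra O E₁ := ι.toAlgebra
  exact abh_val_aeval_le_one v hO t ht G

theorem abh_reduced_eval₂ {O : Type*} [CommRing O] (ι : O →+* E₁)
    (hO : ∀ a : O, v (ι a) ≤ 1)
    (u : O) (hu : v (ι u) < 1)
    (hdiv : ∀ a : O, v (ι a) < 1 → u ∣ a)
    (hunit : ∀ a : O, v (ι a) = 1 → IsUnit a)
    (n : ℕ) (hnv : v (ι (n : O)) = 1)
    (w : O) (hw : v (ι w) = 1)
    (t : E₁) (ht : t ^ n = ι w) (hn : 0 < n)
    (F : O[X]) (hF : v (F.eval₂ ι t) < 1) :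
    ∃ H c : O[X], v (H.eval₂ ι t) = 1 ∧ F.eval₂ ι t * H.eval₂ ι t = ι u * c.eval₂ ι t := by
  let _ : Algebra O E₁ := ι.toAlgebra
  exact abh_reduced v hO u hu hdiv hunit n hnv w hw t ht hn F hF

end Wrappers

section Frac

variable {E E₁ : Type} [Field E] [Field E₁] [Algebra E E₁] (v₁ : ValuationSubring E₁)

/-- the structure map `O_v → E₁` of the restricted valuation ring -/
noncomputable def abhIota : abhRes (E := E) v₁ →+* E₁ :=
  (algebraMap E E₁).comp (abhRes (E := E) v₁).subtype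

theorem abhIota_apply (a : abhRes (E := E) v₁) : abhIota v₁ a = algebraMap E E₁ (a : E) := rfl

theorem abh_exists_integer_mul (s : E₁) (hgen : Algebra.adjoin E ({s} : Set E₁) = ⊤) (y : E₁) :
    ∃ (G : (abhRes (E := E) v₁)[X]) (d : abhRes (E := E) v₁), d ≠ 0 ∧
      y * abhIota v₁ d = G.eval₂ (abhIota v₁) s := by
  have hy : y ∈ Algebra.adjoin E ({s} : Set E₁) := by rw [hgen]; trivial
  rw [Algebra.adjoin_singleton_eq_range_aeval] at hy
  obtain ⟨P, rfl⟩ := hy
  obtain ⟨b, hb, hP⟩ := IsLocalization.integerNormalization_spec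
    (nonZeroDivisors (abhRes (E := E) v₁)) P
  refine ⟨IsLocalization.integerNormalization (nonZeroDivisors (abhRes (E := E) v₁)) P, b,
    nonZeroDivisors.ne_zero hb, ?_⟩
  have h1 : (IsLocalization.integerNormalization (nonZeroDivisors (abhRes (E := E) v₁)) P).eval₂
      (abhIota v₁) s = eval₂ (algebraMap E E₁) s
        (map (algebraMap (abhRes (E := E) v₁) E)
          (IsLocalization.integerNormalization (nonZeroDivisors (abhRes (E := E) v₁)) P)) := by
    rw [Polynomial.eval₂_map]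
    rfl
  rw [h1, hP, Algebra.smul_def, Polynomial.eval₂_mul]
  rw [Polynomial.algebraMap_apply, Polynomial.eval₂_C]
  rw [mul_comm]
  rfl


variable [IsDiscreteValuationRing v₁]

theorem abhIota_le_one (a : abhRes (E := E) v₁) : abhVal v₁ (abhIota v₁ a) ≤ 1 :=
  (abh_mem_iff v₁).mp ((abhRes_mem v₁).mp a.2)

/-- reducedness modulo a uniformiser `t` of the restricted place, for `O_v[τ]`, `τ ^ n = w` a
unit of `O_v`. -/
theorem abh_core_red (t : E) (ht : IsUniformiser E (abhRes (E := E) v₁) t)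
    (n : ℕ) (hn : 0 < n) (hnv : abhVal v₁ ((n : ℕ) : E₁) = 1)
    (w : E) (hw0 : w ≠ 0) (hw : w ∈ abhRes (E := E) v₁) (hw' : w⁻¹ ∈ abhRes (E := E) v₁)
    (τ : E₁) (hτ : τ ^ n = algebraMap E E₁ w)
    (F : (abhRes (E := E) v₁)[X]) (hF : abhVal v₁ (F.eval₂ (abhIota v₁) τ) < 1) :
    ∃ H c : (abhRes (E := E) v₁)[X], abhVal v₁ (H.eval₂ (abhIota v₁) τ) = 1 ∧
      F.eval₂ (abhIota v₁) τ * H.eval₂ (abhIota v₁) τ =
        algebraMap E E₁ t * c.eval₂ (abhIota v₁) τ := by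
  obtain ⟨ht0, htm, htdiv⟩ := ht
  have htv : t ∈ abhRes (E := E) v₁ := ValuationSubring.nonunits_subset htm
  refine abh_reduced_eval₂ (abhVal v₁) (abhIota v₁) (abhIota_le_one v₁) ⟨t, htv⟩ ?_ ?_ ?_ n ?_
    ⟨w, hw⟩ ?_ τ hτ hn F hF
  · exact (abh_mem_nonunits_iff v₁).mp ((abhRes_mem_nonunits v₁).mp htm)
  · intro a ha
    have ha' : (a : E) ∈ (abhRes (E := E) v₁).nonunits :=
      (abhRes_mem_nonunits v₁).mpr ((abh_mem_nonunits_iff v₁).mpr ha)
    refine ⟨⟨_, htdiv _ ha'⟩, ?_⟩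
    apply Subtype.ext
    simp only [MulMemClass.coe_mul]
    field_simp
  · intro a ha
    have ha0 : (a : E) ≠ 0 := by
      intro h
      rw [abhIota_apply, h, map_zero, map_zero] at ha
      exact zero_ne_one ha
    have hinv : (a : E)⁻¹ ∈ abhRes (E := E) v₁ := by
      rw [abhRes_mem, map_inv₀]
      exact abh_inv_mem_of_abhVal_eq_one v₁ ha
    refine ⟨⟨a, ⟨_, hinv⟩, ?_, ?_⟩, rfl⟩
    · apply Subtype.ext
      simp only [MulMemClass.coe_mul, OneMemClass.coe_one]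
      exact mul_inv_cancel₀ ha0
    · apply Subtype.ext
      simp only [MulMemClass.coe_mul, OneMemClass.coe_one]
      exact inv_mul_cancel₀ ha0
  · rw [map_natCast]
    exact hnv
  · rw [abhIota_apply]
    apply abhVal_eq_one_of_mem v₁
    · rwa [Ne, map_eq_zero]
    · exact (abhRes_mem v₁).mp hw
    · rw [← map_inv₀]
      exact (abhRes_mem v₁).mp hw'

/-- **Abhyankar, unit case**: if `s ^ e = w` is a unit at the restricted place `v`, a
uniformiser of `v` stays a uniformiser of `v₁`. -/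
theorem abh_unit_case (s : E₁) (hgen : Algebra.adjoin E ({s} : Set E₁) = ⊤)
    (e : ℕ) (he : 0 < e) (hev : abhVal v₁ ((e : ℕ) : E₁) = 1)
    (w : E) (hw0 : w ≠ 0) (hw : w ∈ abhRes (E := E) v₁) (hw' : w⁻¹ ∈ abhRes (E := E) v₁)
    (hs : s ^ e = algebraMap E E₁ w)
    (t : E) (ht : IsUniformiser E (abhRes (E := E) v₁) t) :
    abhVal v₁ (algebraMap E E₁ t) = WithZero.exp (-1 : ℤ) := by
  have hsv : abhVal v₁ s ≤ 1 := by
    have h1 : abhVal v₁ s ^ e = 1 := by
      rw [← map_pow, hs]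
      apply abhVal_eq_one_of_mem v₁
      · rwa [Ne, map_eq_zero]
      · exact (abhRes_mem v₁).mp hw
      · rw [← map_inv₀]
        exact (abhRes_mem v₁).mp hw'
    exact ((pow_eq_one_iff_of_nonneg zero_le he.ne').mp h1).le
  apply abh_val_eq_exp_neg_one (abhVal v₁) (abhVal_exists_uniformizer v₁)
    (Polynomial.eval₂RingHom (abhIota (E := E) v₁) s).range
  · rintro b ⟨G, rfl⟩
    rw [Polynomial.coe_eval₂RingHom]
    exact abh_val_eval₂_le_one (abhVal v₁) (abhIota v₁) (abhIota_le_one v₁) s hsv G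
  · intro y
    obtain ⟨G, d, hd, hG⟩ := abh_exists_integer_mul v₁ s hgen y
    refine ⟨G.eval₂ (abhIota v₁) s, ⟨G, rfl⟩, abhIota v₁ d, ⟨C d, ?_⟩, ?_, hG⟩
    · rw [Polynomial.coe_eval₂RingHom, Polynomial.eval₂_C]
    · rw [abhIota_apply, Ne, map_eq_zero]
      exact fun h => hd (Subtype.ext h)
  · rw [Ne, map_eq_zero (algebraMap E E₁)]
    exact ht.1
  · exact (abh_mem_nonunits_iff v₁).mp ((abhRes_mem_nonunits v₁).mp ht.2.1)
  · rintro b ⟨F, rfl⟩ hb
    rw [Polynomial.coe_eval₂RingHom] at hb ⊢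
    obtain ⟨H, c, hH, hc⟩ := abh_core_red v₁ t ht e he hev w hw0 hw hw' s hs F hb
    exact ⟨H.eval₂ (abhIota v₁) s, ⟨H, rfl⟩, hH, c.eval₂ (abhIota v₁) s, ⟨c, rfl⟩, hc⟩


/-- **Abhyankar, ramified case**: if `s ^ e = z` where `z` has order `n ∣ e` at the restricted
place `v`, then `s` is a uniformiser of `v₁`. -/
theorem abh_ram_case (s : E₁) (hgen : Algebra.adjoin E ({s} : Set E₁) = ⊤)
    (e : ℕ) (he : 0 < e) (hchar : ∀ n : ℕ, 0 < n → abhVal v₁ ((n : ℕ) : E₁) = 1)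
    (z : E) (hz0 : z ≠ 0) (hzm : z ∈ (abhRes (E := E) v₁).nonunits)
    (hs : s ^ e = algebraMap E E₁ z)
    (t : E) (ht : IsUniformiser E (abhRes (E := E) v₁) t)
    (n : ℕ) (hne : n ∣ e) (h1 : z / t ^ n ∈ abhRes (E := E) v₁)
    (h2 : t ^ n / z ∈ abhRes (E := E) v₁) :
    abhVal v₁ s = WithZero.exp (-1 : ℤ) := by
  obtain ⟨m, rfl⟩ := hne
  have hn : 0 < n := Nat.pos_of_ne_zero (fun h => by rw [h, zero_mul] at he; exact lt_irrefl _ he)
  have hm : 0 < m := Nat.pos_of_ne_zero (fun h => by rw [h, mul_zero] at he; exact lt_irrefl _ he)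
  have ht0 : t ≠ 0 := ht.1
  have hft0 : algebraMap E E₁ t ≠ 0 := by rwa [Ne, map_eq_zero]
  have hfz0 : algebraMap E E₁ z ≠ 0 := by rwa [Ne, map_eq_zero]
  have hs0 : s ≠ 0 := by
    intro h
    rw [h, zero_pow he.ne'] at hs
    exact hfz0 hs.symm
  set τ : E₁ := s ^ m / algebraMap E E₁ t with hτdef
  have hτ : τ ^ n = algebraMap E E₁ (z / t ^ n) := by
    rw [hτdef, div_pow, ← pow_mul, mul_comm m n, hs, map_div₀, map_pow]
  have hw0 : z / t ^ n ≠ 0 := div_ne_zero hz0 (pow_ne_zero _ ht0)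
  have hw' : (z / t ^ n)⁻¹ ∈ abhRes (E := E) v₁ := by rwa [inv_div]
  have hτv : abhVal v₁ τ = 1 := by
    have h3 : abhVal v₁ τ ^ n = 1 := by
      rw [← map_pow, hτ]
      apply abhVal_eq_one_of_mem v₁
      · rwa [Ne, map_eq_zero]
      · exact (abhRes_mem v₁).mp h1
      · rw [← map_inv₀]
        exact (abhRes_mem v₁).mp hw'
    exact (pow_eq_one_iff_of_nonneg zero_le hn.ne').mp h3
  have hτ0 : τ ≠ 0 := by
    intro h
    rw [h, map_zero] at hτv
    exact zero_ne_one hτv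
  have hsv : abhVal v₁ s < 1 := by
    have h3 : abhVal v₁ s ^ (n * m) < 1 := by
      rw [← map_pow, hs]
      exact (abh_mem_nonunits_iff v₁).mp ((abhRes_mem_nonunits v₁).mp hzm)
    by_contra hcon
    rw [not_lt] at hcon
    exact absurd h3 (not_lt.mpr (one_le_pow_of_one_le' hcon _))
  -- the ring hom `φ : O_v[T][S] → E₁`, `T ↦ τ`, `S ↦ s`
  let ι : abhRes (E := E) v₁ →+* E₁ := abhIota (E := E) v₁
  let ι' : (abhRes (E := E) v₁)[X] →+* E₁ := Polynomial.eval₂RingHom ι τ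
  let φ : (abhRes (E := E) v₁)[X][X] →+* E₁ := Polynomial.eval₂RingHom ι' s
  have hι'apply : ∀ G, ι' G = G.eval₂ ι τ := fun G => rfl
  have hφC : ∀ G, φ (C G) = ι' G := fun G => by
    change Polynomial.eval₂ ι' s (C G) = _
    rw [Polynomial.eval₂_C]
  have hφX : φ X = s := by
    change Polynomial.eval₂ ι' s X = _
    rw [Polynomial.eval₂_X]
  have hι'C : ∀ a, ι' (C a) = ι a := fun a => by
    change Polynomial.eval₂ ι τ (C a) = _
    rw [Polynomial.eval₂_C]
  have hι'X : ι' X = τ := by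
    change Polynomial.eval₂ ι τ X = _
    rw [Polynomial.eval₂_X]
  have hι' : ∀ G, abhVal v₁ (ι' G) ≤ 1 := fun G =>
    abh_val_eval₂_le_one _ ι (abhIota_le_one v₁) τ hτv.le G
  have hφ : ∀ P, abhVal v₁ (φ P) ≤ 1 := fun P =>
    abh_val_eval₂_le_one _ ι' hι' s hsv.le P
  apply abh_val_eq_exp_neg_one (abhVal v₁) (abhVal_exists_uniformizer v₁)
    (RingHom.range (R := (abhRes (E := E) v₁)[X][X]) (S := E₁)
      (Polynomial.eval₂RingHom (Polynomial.eval₂RingHom (abhIota (E := E) v₁) τ) s))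
  · rintro b ⟨P, rfl⟩
    exact hφ P
  · intro y
    obtain ⟨G, d, hd, hG⟩ := abh_exists_integer_mul v₁ s hgen y
    have hmap : φ (G.map C) = G.eval₂ ι s := by
      change Polynomial.eval₂ ι' s (G.map C) = _
      rw [Polynomial.eval₂_map]
      congr 1
      ext a
      exact hι'C a
    refine ⟨φ (G.map C), ⟨_, rfl⟩, φ (C (C d)), ⟨_, rfl⟩, ?_, ?_⟩
    · rw [hφC, hι'C]
      change algebraMap E E₁ (d : E) ≠ 0
      rw [Ne, map_eq_zero]
      exact fun h => hd (Subtype.ext h)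
    · rw [hφC, hι'C, hmap]
      exact hG
  · exact hs0
  · exact hsv
  · rintro b ⟨P, rfl⟩ hb
    have hdec : φ P = φ P.divX * s + ι' (P.coeff 0) := by
      conv_lhs => rw [← Polynomial.divX_mul_X_add P]
      rw [map_add, map_mul, hφX, hφC]
    have hF : abhVal v₁ (ι' (P.coeff 0)) < 1 := by
      have h3 : ι' (P.coeff 0) = φ P - φ P.divX * s := by rw [hdec]; ring
      rw [h3]
      refine lt_of_le_of_lt (Valuation.map_sub _ _ _) (max_lt hb ?_)
      rw [map_mul]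
      calc abhVal v₁ (φ P.divX) * abhVal v₁ s ≤ 1 * abhVal v₁ s := mul_le_mul' (hφ _) le_rfl
        _ = abhVal v₁ s := one_mul _
        _ < 1 := hsv
    obtain ⟨H, c, hH, hc⟩ := abh_core_red v₁ t ht n hn (hchar n hn) (z / t ^ n) hw0 h1 hw' τ hτ
      (P.coeff 0) hF
    have hft : algebraMap E E₁ t =
        s * (s ^ (m - 1) * (τ ^ (n - 1) * algebraMap E E₁ (t ^ n / z))) := by
      have e1 : s * s ^ (m - 1) = s ^ m := by
        rw [← pow_succ']
        congr 1
        omega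
      have e2 : τ ^ (n - 1) * τ = τ ^ n := by
        rw [← pow_succ]
        congr 1
        omega
      have e3 : τ ^ (n - 1) = τ ^ n * τ⁻¹ := by
        rw [← e2, mul_assoc, mul_inv_cancel₀ hτ0, mul_one]
      have e4 : s ^ m * τ⁻¹ = algebraMap E E₁ t := by
        rw [hτdef, inv_div]
        field_simp
      have e5 : τ ^ n * algebraMap E E₁ (t ^ n / z) = 1 := by
        rw [hτ, ← map_mul]
        have : z / t ^ n * (t ^ n / z) = 1 := by
          field_simp
        rw [this, map_one]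
      calc algebraMap E E₁ t = (s ^ m * τ⁻¹) * (τ ^ n * algebraMap E E₁ (t ^ n / z)) := by
            rw [e4, e5, mul_one]
        _ = s * (s ^ (m - 1) * (τ ^ (n - 1) * algebraMap E E₁ (t ^ n / z))) := by
            rw [e3, ← e1]
            ring
    refine ⟨φ (C H), ⟨_, rfl⟩, ?_,
      φ (P.divX * C H + X ^ (m - 1) * C (X ^ (n - 1) * C ⟨t ^ n / z, h2⟩ * c)), ⟨_, rfl⟩, ?_⟩
    · rw [hφC]
      exact hH
    · rw [hdec, hφC, add_mul, ← hι'apply, ← hι'apply, ← hι'apply] at *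
      rw [map_add, map_mul, map_mul, map_pow, hφC, hφC, hφX, map_mul, map_mul, map_pow, hι'X,
        hι'C]
      have h4 : ι ⟨t ^ n / z, h2⟩ = algebraMap E E₁ (t ^ n / z) := rfl
      rw [h4, hc]
      conv_lhs => rw [hft]
      ring

end Frac

end Fermat.Agent.H64
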