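import Mathlib
import Fermat.Agent.H22.ES.KLSetting
import Fermat.Agent.H64.AbhCore
import Fermat.Agent.H64.AbhValA
import Fermat.Agent.H64.AbhValB
import Fermat.Agent.H64.AbhValC

/-!
# Abhyankar's lemma in valuation-subring form (helper64)

`unramifiedNear_of_tameNear` : in the setting of `Fermat.Agent.H22.KL` (KLSetting v2), if
`TameNear A E ϖ x c e` holds and `E₁ = E(s)` with `s ^ e = x - c`, then
`UnramifiedNear A E₁ ϖ s X`: every characteristic-zero place of `E₁` in the residue disc of
`(ϖ, s)` has a uniformiser in `K₀(s)`.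

No Galois theory: the restricted place `v` lies in the disc of `(ϖ, x - c)`; if `x - c` is a
unit at `v` then `O_v[s]` is reduced modulo a uniformiser `t` of `v` (separability of
`X ^ e - (x - c)` over the residue field, of characteristic zero), so `t` stays a uniformiser;
if `x - c` has order `n ∣ e` at `v` then `O_v[s, τ]`, `τ = s ^ (e / n) / t`, is reduced modulo
`s`, so `s` is a uniformiser.
-/

set_option autoImplicit false

open Polynomial WithZero

namespace Fermat.Agent.H64

open Fermat.Agent.H22.KL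

section Main

variable (A : Type) [CommRing A] (E E₁ : Type) [Field E] [Field E₁] [Algebra A E] [Algebra A E₁]
  [Algebra E E₁] [IsScalarTower A E E₁]

theorem abh_map_mem_chartField (x : E) (s : E₁) (c : A) (e : ℕ)
    (hs : s ^ e = algebraMap E E₁ (x - algebraMap A E c)) {t : E}
    (ht : t ∈ chartField A E x) : algebraMap E E₁ t ∈ chartField A E₁ s := by
  have hx : algebraMap E E₁ x = s ^ e + algebraMap A E₁ c := by
    rw [hs, map_sub, ← IsScalarTower.algebraMap_apply]
    ring
  have h1 : chartRing A E x ≤ (chartRing A E₁ s).comap (IsScalarTower.toAlgHom A E E₁) := by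
    apply Algebra.adjoin_le
    intro y hy
    rw [Set.mem_singleton_iff] at hy
    rw [hy]
    change algebraMap E E₁ x ∈ chartRing A E₁ s
    rw [hx]
    exact Subalgebra.add_mem _
      (Subalgebra.pow_mem _ (Algebra.subset_adjoin (Set.mem_singleton s)) e)
      (Subalgebra.algebraMap_mem _ c)
  have h2 : chartField A E x ≤ (chartField A E₁ s).comap (algebraMap E E₁) := by
    apply Subfield.closure_le.mpr
    intro y hy
    exact Subfield.subset_closure (h1 hy)
  exact h2 ht

theorem abh_inDisc (ϖ : A) (x : E) (s : E₁) (c : A) (e : ℕ) (he : 0 < e)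
    (hs : s ^ e = algebraMap E E₁ (x - algebraMap A E c)) (v₁ : ValuationSubring E₁)
    (hdisc : InDisc A E₁ ϖ s X v₁) :
    InDisc A E ϖ x (X - C c) (abhRes (E := E) v₁) := by
  intro h hh
  have hx : algebraMap E E₁ x = aeval s (X ^ e + C c : A[X]) := by
    rw [map_add, map_pow, aeval_X, aeval_C, hs, map_sub, ← IsScalarTower.algebraMap_apply]
    ring
  have h1 : aeval s (h.comp (X ^ e + C c)) ∈ v₁.nonunits := by
    rw [aeval_comp, ← hx, Polynomial.aeval_algebraMap_apply]
    exact (abhRes_mem_nonunits v₁).mp hh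
  obtain ⟨p, q, hpq⟩ := hdisc _ h1
  have h2 : h.eval c = ϖ * p.eval 0 := by
    have := congrArg (Polynomial.eval 0) hpq
    simpa [Polynomial.eval_comp, zero_pow he.ne'] using this
  obtain ⟨q', hq'⟩ := Polynomial.X_sub_C_dvd_sub_C_eval (a := c) (p := h)
  refine ⟨C (p.eval 0), q', ?_⟩
  rw [← C_mul, ← h2, ← hq']
  ring

variable [CharZero E]

/-- **Abhyankar's lemma**, valuation-subring form (support for KL-N-TAME). -/
theorem unramifiedNear_of_tameNear' (ϖ : A) (x : E) (c : A)
    (hz0 : x - algebraMap A E c ≠ 0) (e : ℕ) (he : 0 < e)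
    (hT : TameNear A E ϖ x c e) (s : E₁)
    (hs : s ^ e = algebraMap E E₁ (x - algebraMap A E c))
    (hgen : Algebra.adjoin E ({s} : Set E₁) = ⊤) :
    UnramifiedNear A E₁ ϖ s X := by
  intro v₁ hv₁ hdisc
  obtain ⟨⟨hne, hpir, hA⟩, hsv⟩ := hv₁
  have := abh_isDVR v₁ hne hpir
  -- algebraicity of `E₁ / E`
  have hsint : IsIntegral E s := by
    refine ⟨X ^ e - C (x - algebraMap A E c), Polynomial.monic_X_pow_sub_C _ he.ne', ?_⟩
    rw [Polynomial.eval₂_sub, Polynomial.eval₂_pow, Polynomial.eval₂_X, Polynomial.eval₂_C, hs,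
      sub_self]
  have : Algebra.IsAlgebraic E E₁ := by
    refine ⟨fun y => ?_⟩
    have hy : y ∈ Algebra.adjoin E ({s} : Set E₁) := by rw [hgen]; trivial
    exact (IsIntegral.isAlgebraic (adjoin_le_integralClosure hsint hy))
  have hAmem : ∀ a : A, algebraMap A E₁ a ∈ v₁ := by
    intro a
    by_cases ha : a = 0
    · rw [ha, map_zero]
      exact v₁.zero_mem
    · exact (hA a ha).1
  have hfx : algebraMap E E₁ x = s ^ e + algebraMap A E₁ c := by
    rw [hs, map_sub, ← IsScalarTower.algebraMap_apply]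
    ring
  -- the restricted place is a finite place
  have hv : IsFinitePlace A E x (abhRes (E := E) v₁) := by
    refine ⟨⟨abhRes_ne_top v₁ hne, abhRes_isPrincipalIdealRing v₁, fun a ha => ?_⟩, ?_⟩
    · rw [abhRes_mem, abhRes_mem, map_inv₀, ← IsScalarTower.algebraMap_apply]
      exact hA a ha
    · rw [abhRes_mem, hfx]
      exact v₁.add_mem _ _ (pow_mem hsv e) (hAmem c)
  have hd : InDisc A E ϖ x (X - C c) (abhRes (E := E) v₁) :=
    abh_inDisc A E E₁ ϖ x s c e he hs v₁ hdisc
  obtain ⟨hU, hR⟩ := hT _ hv hd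
  have hchar : ∀ n : ℕ, 0 < n → abhVal v₁ ((n : ℕ) : E₁) = 1 := by
    intro n hn
    have hnE : ((n : ℕ) : E) ≠ 0 := Nat.cast_ne_zero.mpr hn.ne'
    have hnA : ((n : ℕ) : A) ≠ 0 := by
      intro h
      apply hnE
      rw [← map_natCast (algebraMap A E), h, map_zero]
    have hnE₁ : ((n : ℕ) : E₁) ≠ 0 := by
      rw [← map_natCast (algebraMap E E₁), Ne, map_eq_zero]
      exact hnE
    have := hA _ hnA
    rw [map_natCast] at this
    exact abhVal_eq_one_of_mem v₁ hnE₁ this.1 this.2
  by_cases hzm : x - algebraMap A E c ∈ (abhRes (E := E) v₁).nonunits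
  · obtain ⟨t, ht, n, hn, h1, h2⟩ := hR hzm
    exact ⟨s, Subfield.subset_closure (Algebra.subset_adjoin (Set.mem_singleton s)),
      abh_isUniformiser_of_val v₁
        (abh_ram_case v₁ s hgen e he hchar _ hz0 hzm hs t ht n hn h1 h2)⟩
  · obtain ⟨t, htK, ht⟩ := hU hzm
    have hw : x - algebraMap A E c ∈ abhRes (E := E) v₁ := by
      refine (abhRes (E := E) v₁).toSubring.sub_mem hv.2 ?_
      rw [ValuationSubring.mem_toSubring, abhRes_mem, ← IsScalarTower.algebraMap_apply]
      exact hAmem c
    have hw' : (x - algebraMap A E c)⁻¹ ∈ abhRes (E := E) v₁ := by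
      by_contra hcon
      exact hzm ((ValuationSubring.mem_nonunits_iff_or _).mpr (Or.inr hcon))
    exact ⟨algebraMap E E₁ t, abh_map_mem_chartField A E E₁ x s c e hs htK,
      abh_isUniformiser_of_val v₁
        (abh_unit_case v₁ s hgen e he (hchar e he) _ hz0 hw hw' hs t ht)⟩

/-- **Abhyankar's lemma**, valuation-subring form, for a transcendental coordinate. -/
theorem unramifiedNear_of_tameNear (ϖ : A) (x : E) (hx : Transcendental A x) (c : A)
    (e : ℕ) (he : 0 < e) (hT : TameNear A E ϖ x c e) (s : E₁)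
    (hs : s ^ e = algebraMap E E₁ (x - algebraMap A E c))
    (hgen : Algebra.adjoin E ({s} : Set E₁) = ⊤) :
    UnramifiedNear A E₁ ϖ s X := by
  refine unramifiedNear_of_tameNear' A E E₁ ϖ x c ?_ e he hT s hs hgen
  intro h
  have : Nontrivial A := (algebraMap A E).domain_nontrivial
  apply hx
  rw [sub_eq_zero.mp h]
  exact isAlgebraic_algebraMap c

end Main

end Fermat.Agent.H64
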