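/-
P-ES / ES-D: the abstract pinch lemma `Fermat.Agent.H27.ESD.PinchStatement`.
-/
import Mathlib
import Fermat.Agent.H27.ESD.Interfaces1b

set_option autoImplicit false
set_option synthInstance.maxHeartbeats 400000

open AlgebraicCurve ModularCurve

namespace Fermat.Agent.H64

open Fermat.Agent.H27.ESD

/-- A finite-sum comparison: if `a ≥ 0` off a finite set, `b ≥ 0` everywhere off its support,
and the sums of `a` over the fibres of `r` are bounded by `b`, then `∑ a ≤ ∑ b`. -/
theorem finsum_le_finsum_of_fibres {α β : Type*} (r : α → β) (a : α → ℤ) (b : β → ℤ)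
    (ha : (Function.support a).Finite) (hb : (Function.support b).Finite)
    (hb0 : ∀ w, 0 ≤ b w)
    (hfib : ∀ w : β, ∀ s : Finset α, (∀ v ∈ s, r v = w) → ∑ v ∈ s, a v ≤ b w) :
    ∑ᶠ v, a v ≤ ∑ᶠ w, b w := by
  classical
  set Sa : Finset α := ha.toFinset with hSa
  set Sb : Finset β := hb.toFinset with hSb
  have h1 : ∑ᶠ v, a v = ∑ v ∈ Sa, a v :=
    finsum_eq_sum_of_support_subset a (by rw [hSa]; simp)
  have h2 : ∑ᶠ w, b w = ∑ w ∈ Sb ∪ Sa.image r, b w :=
    finsum_eq_sum_of_support_subset b (by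
      intro w hw
      simp only [Finset.coe_union, Set.mem_union, Finset.mem_coe]
      left
      rw [hSb]
      simpa using hw)
  rw [h1, h2]
  have h3 : ∑ v ∈ Sa, a v = ∑ w ∈ Sa.image r, ∑ v ∈ Sa with r v = w, a v :=
    (Finset.sum_fiberwise_of_maps_to (fun v hv => Finset.mem_image_of_mem r hv) a).symm
  rw [h3]
  calc ∑ w ∈ Sa.image r, ∑ v ∈ Sa with r v = w, a v
      ≤ ∑ w ∈ Sa.image r, b w := by
        apply Finset.sum_le_sum
        intro w _
        exact hfib w _ (fun v hv => (Finset.mem_filter.mp hv).2)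
    _ ≤ ∑ w ∈ Sb ∪ Sa.image r, b w := by
        apply Finset.sum_le_sum_of_subset_of_nonneg Finset.subset_union_right
        intro w _ _
        exact hb0 w

/-- **D-PINCH.** -/
theorem pinchStatement : PinchStatement := by
  intro hH K₁ F₁ K₂ F₂ _ _ _ _ _ _ _ _ g₁ g₂ hR₁ hR₂ r y ybar hy hybar hfin₁ hfin₂ hsep₁ hsep₂
    hdeg htame hfib
  obtain ⟨hfinset₁, -, heq₁⟩ := hH K₁ F₁ y hy hfin₁ hsep₁ g₁ hR₁
  obtain ⟨hfinset₂, hle₂, -⟩ := hH K₂ F₂ ybar hybar hfin₂ hsep₂ g₂ hR₂
  have heq := heq₁ htame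
  -- ramification indices are `≥ 1` on both sides
  have he₁ : ∀ v : Place K₁ F₁, 1 ≤ ramIdx y v := by
    intro v
    have h := htame v
    rcases Nat.eq_zero_or_pos (ramIdx y v) with h0 | h0
    · rw [h0] at h
      exact absurd Nat.cast_zero h
    · exact h0
  have he₂ : ∀ w : Place K₂ F₂, 0 ≤ (ramIdx ybar w : ℤ) - 1 := by
    intro w
    simpa using hfib w ∅ (by simp)
  have hsupp₁ : (Function.support fun v : Place K₁ F₁ => (ramIdx y v : ℤ) - 1).Finite := by
    apply hfinset₁.subset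
    intro v hv
    have h1 := he₁ v
    have hne : (ramIdx y v : ℤ) - 1 ≠ 0 := hv
    have : ramIdx y v ≠ 1 := by
      intro h
      apply hne
      rw [h]
      simp
    show 1 < ramIdx y v
    omega
  have hsupp₂ : (Function.support fun w : Place K₂ F₂ => (ramIdx ybar w : ℤ) - 1).Finite := by
    apply hfinset₂.subset
    intro w hw
    have h1 := he₂ w
    have hne : (ramIdx ybar w : ℤ) - 1 ≠ 0 := hw
    show 1 < ramIdx ybar w
    omega
  have hmain := finsum_le_finsum_of_fibres r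
    (fun v : Place K₁ F₁ => (ramIdx y v : ℤ) - 1)
    (fun w : Place K₂ F₂ => (ramIdx ybar w : ℤ) - 1) hsupp₁ hsupp₂ he₂ hfib
  rw [heq] at hmain
  have := hmain.trans hle₂
  rw [hdeg] at this
  omega

end Fermat.Agent.H64
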