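/-
P-ES, ES-G glue: residue fields of `ℤ̄ = integralClosure ℤ ℂ`.

* the kernel of a ring homomorphism `ℤ̄ → k` to a field of characteristic `p > 0` is maximal;
* every prime ideal of `ℤ̄` containing a prime number is maximal;
* the residue field `ℤ̄ ⧸ 𝔪` of a maximal ideal is algebraically closed.
-/
import Mathlib

set_option autoImplicit false

open Polynomial

namespace Fermat.Agent.H64

/-- The ring of all algebraic integers. -/
local notation "ℤbar" => (integralClosure ℤ ℂ)

/-- A prime ideal of `ℤ̄` containing a prime number is maximal. -/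
theorem zbar_isMaximal_of_prime_mem (P : Ideal ℤbar) [P.IsPrime] {p : ℕ} (hp : p.Prime)
    (hpP : (p : ℤbar) ∈ P) : P.IsMaximal := by
  apply Ideal.isMaximal_of_isIntegral_of_isMaximal_comap (R := ℤ) P
  have hprime : (Ideal.comap (algebraMap ℤ ℤbar) P).IsPrime := Ideal.comap_isPrime _ P
  have hne : Ideal.comap (algebraMap ℤ ℤbar) P ≠ ⊥ := by
    intro h
    have hmem : (p : ℤ) ∈ Ideal.comap (algebraMap ℤ ℤbar) P := by
      rw [Ideal.mem_comap]
      simpa using hpP
    rw [h, Ideal.mem_bot] at hmem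
    exact hp.ne_zero (by exact_mod_cast hmem)
  exact hprime.isMaximal hne

/-- The kernel of a ring homomorphism from `ℤ̄` to a field of characteristic `p` is maximal. -/
theorem zbar_ker_isMaximal {k : Type*} [Field k] {p : ℕ} (hp : p.Prime) [CharP k p]
    (φ : ℤbar →+* k) : (RingHom.ker φ).IsMaximal := by
  have : (RingHom.ker φ).IsPrime := RingHom.ker_isPrime φ
  apply zbar_isMaximal_of_prime_mem (RingHom.ker φ) hp
  rw [RingHom.mem_ker, map_natCast]
  exact CharP.cast_eq_zero k p

/-- Every monic polynomial of positive degree over `ℤ̄` has a root in `ℤ̄`. -/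
theorem zbar_exists_root (F : ℤbar[X]) (hF : F.Monic) (hdeg : F.degree ≠ 0) :
    ∃ z : ℤbar, F.eval z = 0 := by
  have hmap : (F.map (algebraMap ℤbar ℂ)).degree ≠ 0 := by
    rw [Polynomial.degree_map_eq_of_injective (FaithfulSMul.algebraMap_injective ℤbar ℂ)]
    exact hdeg
  obtain ⟨z, hz⟩ := IsAlgClosed.exists_root (F.map (algebraMap ℤbar ℂ)) hmap
  have hint : IsIntegral ℤbar z := ⟨F, hF, by
    rw [← Polynomial.eval_map]
    exact hz⟩
  have hintZ : IsIntegral ℤ z := isIntegral_trans (R := ℤ) (A := ℤbar) z hint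
  refine ⟨⟨z, hintZ⟩, ?_⟩
  apply (FaithfulSMul.algebraMap_injective ℤbar ℂ)
  rw [map_zero, ← Polynomial.eval₂_hom, ← Polynomial.eval_map]
  exact hz

/-- The residue field of `ℤ̄` at a maximal ideal is algebraically closed. -/
theorem zbar_quotient_isAlgClosed (𝔪 : Ideal ℤbar) [h𝔪 : 𝔪.IsMaximal] :
    @IsAlgClosed (ℤbar ⧸ 𝔪) (Ideal.Quotient.field 𝔪) := by
  let _ : Field (ℤbar ⧸ 𝔪) := Ideal.Quotient.field 𝔪
  apply IsAlgClosed.of_exists_root
  intro f hf hirr
  have hlift : f ∈ Polynomial.lifts (Ideal.Quotient.mk 𝔪) := by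
    rw [Polynomial.mem_lifts]
    exact Polynomial.map_surjective _ Ideal.Quotient.mk_surjective f
  obtain ⟨F, hFmap, hFdeg, hFmonic⟩ := Polynomial.lifts_and_degree_eq_and_monic hlift hf
  have hdeg : F.degree ≠ 0 := by
    rw [hFdeg]
    intro h0
    exact hirr.not_isUnit (Polynomial.isUnit_iff_degree_eq_zero.mpr h0)
  obtain ⟨z, hz⟩ := zbar_exists_root F hFmonic hdeg
  refine ⟨Ideal.Quotient.mk 𝔪 z, ?_⟩
  rw [← hFmap, Polynomial.eval_map, Polynomial.eval₂_hom, hz, map_zero]

end Fermat.Agent.H64
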