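/-
P-ES / ES-G2: `Fermat.Agent.H28.QuotAlgClosedStatement` (residue fields of `ℤ̄`).
-/
import Mathlib
import Fermat.Agent.H64.ZbarResidue
import Fermat.Agent.H28.ES.Interface2

set_option autoImplicit false

namespace Fermat.Agent.H64

/-- **ES-G2**: kernels of ring homomorphisms from `ℤ̄` to fields of characteristic `p` are
maximal, and the residue fields of `ℤ̄` are algebraically closed. -/
theorem quotAlgClosedStatement : Fermat.Agent.H28.QuotAlgClosedStatement := by
  refine ⟨fun p hp k _ _ φ => zbar_ker_isMaximal hp φ, fun 𝔪 h𝔪 => ?_⟩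
  exact @zbar_quotient_isAlgClosed 𝔪 h𝔪

end Fermat.Agent.H64
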