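import Fermat.Agent.H64.NodeInertia
import Fermat.Agent.H3.FreyReduction
import Fermat.Agent.H4.IntVal

/-!
# The Frey curve at the prime `2`: inertia acts unipotently on `E[p]`

The Frey model `y² + xy = x³ + a₂x² + a₄x` (`a₂ = (bᵖ - 1 - aᵖ)/4`, `a₄ = -aᵖbᵖ/16`) has
integral coefficients, `a₄` even and `b₂ = 1 + 4a₂ = bᵖ - aᵖ` odd: it is a node model at every
valuation subring of `AlgebraicClosure ℚ` lying over `2`.  More generally it is a node model at
every prime `q` dividing `a * b`.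
-/

set_option autoImplicit false

open WeierstrassCurve WeierstrassCurve.Affine WeierstrassCurve.Affine.Point

namespace Fermat.Agent.H64

local notation "Qbar" => AlgebraicClosure ℚ

theorem freyCurve_a₁ (P : FreyPackage) : P.freyCurve.a₁ = 1 := rfl
theorem freyCurve_a₃ (P : FreyPackage) : P.freyCurve.a₃ = 0 := rfl
theorem freyCurve_a₆ (P : FreyPackage) : P.freyCurve.a₆ = 0 := rfl

theorem freyCurve_a₂ (P : FreyPackage) : P.freyCurve.a₂ = ((P.freyCurveInt.a₂ : ℤ) : ℚ) := by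
  have := congrArg WeierstrassCurve.a₂ (Fermat.Agent.H3.freyCurveInt_map P)
  simpa using this.symm

theorem freyCurve_a₄ (P : FreyPackage) : P.freyCurve.a₄ = ((P.freyCurveInt.a₄ : ℤ) : ℚ) := by
  have := congrArg WeierstrassCurve.a₄ (Fermat.Agent.H3.freyCurveInt_map P)
  simpa using this.symm

/-- `b₂ = 1 + 4a₂ = bᵖ - aᵖ`. -/
theorem freyCurveInt_b₂ (P : FreyPackage) :
    1 + 4 * P.freyCurveInt.a₂ = P.b ^ P.p - P.a ^ P.p := by
  have := Fermat.Agent.H3.frey_four_mul_a₂ P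
  linear_combination this

/-- If the prime `q` divides `a * b`, then `q ∣ a₄`. -/
theorem frey_dvd_a₄ (P : FreyPackage) {q : ℕ} (hq : q.Prime) (h : (q : ℤ) ∣ P.a * P.b) :
    (q : ℤ) ∣ P.freyCurveInt.a₄ := by
  have h16 := Fermat.Agent.H3.frey_sixteen_mul_a₄ P
  have h32 := Fermat.Agent.H3.frey_thirtytwo_dvd_bpow P
  have hq' : Prime (q : ℤ) := Nat.prime_iff_prime_int.mp hq
  by_cases h2 : q = 2
  · subst h2
    obtain ⟨k, hk⟩ := h32
    refine ⟨-(P.a ^ P.p) * k, ?_⟩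
    have : (16 : ℤ) * P.freyCurveInt.a₄ = 16 * ((2 : ℤ) * (-(P.a ^ P.p) * k)) := by
      rw [h16, hk]; ring
    have h16ne : (16 : ℤ) ≠ 0 := by norm_num
    exact_mod_cast mul_left_cancel₀ h16ne this
  · have hdvd : (q : ℤ) ∣ 16 * P.freyCurveInt.a₄ := by
      rw [h16]
      rcases hq'.dvd_or_dvd h with ha | hb
      · exact Dvd.dvd.mul_right ((dvd_neg.mpr (dvd_pow ha P.hp0))) _
      · exact Dvd.dvd.mul_left (dvd_pow hb P.hp0) _
    rcases hq'.dvd_or_dvd hdvd with h16' | h4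
    · exfalso
      have : (q : ℤ) ∣ 2 ^ 4 := by norm_num; exact h16'
      have := hq'.dvd_of_dvd_pow this
      have hq2 : q ∣ 2 := by exact_mod_cast this
      exact h2 ((Nat.prime_dvd_prime_iff_eq hq Nat.prime_two).mp hq2)
    · exact h4

/-- If the prime `q` divides `a * b`, then `q ∤ b₂ = bᵖ - aᵖ`. -/
theorem frey_not_dvd_b₂ (P : FreyPackage) {q : ℕ} (hq : q.Prime) (h : (q : ℤ) ∣ P.a * P.b) :
    ¬ (q : ℤ) ∣ 1 + 4 * P.freyCurveInt.a₂ := by
  rw [freyCurveInt_b₂]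
  have hq' : Prime (q : ℤ) := Nat.prime_iff_prime_int.mp hq
  intro hd
  have hnot := Fermat.Agent.H3.not_prime_dvd_both P.hgcdab hq
  rcases hq'.dvd_or_dvd h with ha | hb
  · have hbp : (q : ℤ) ∣ P.b ^ P.p := by
      have := dvd_add hd (dvd_pow ha P.hp0 : (q : ℤ) ∣ P.a ^ P.p)
      simpa using this
    exact hnot ha (hq'.dvd_of_dvd_pow hbp)
  · have hap : (q : ℤ) ∣ P.a ^ P.p := by
      have := dvd_sub (dvd_pow hb P.hp0 : (q : ℤ) ∣ P.b ^ P.p) hd
      simpa using this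
    exact hnot (hq'.dvd_of_dvd_pow hap) hb

/-- The Frey model is a node model at every valuation `v` of a field `K ⊇ ℚ` (integers have
`v ≤ 1`) such that `v q < 1` for a prime `q ∣ a * b`. -/
theorem frey_isNodeModel (P : FreyPackage) {K : Type*} [Field K] [Algebra ℚ K]
    (A : ValuationSubring K) {q : ℕ} (hq : q.Prime) (hqA : A.valuation (q : K) < 1)
    (h : (q : ℤ) ∣ P.a * P.b) : IsNodeModel A.valuation (P.freyCurve⁄K) := by
  have e₂ : (P.freyCurve⁄K).a₂ = ((P.freyCurveInt.a₂ : ℤ) : K) := by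
    simp [freyCurve_a₂]
  have e₄ : (P.freyCurve⁄K).a₄ = ((P.freyCurveInt.a₄ : ℤ) : K) := by
    simp [freyCurve_a₄]
  have e₁ : (P.freyCurve⁄K).a₁ = 1 := by simp [freyCurve_a₁]
  refine ⟨⟨by simp [freyCurve_a₃], by simp [freyCurve_a₆]⟩, ?_, ?_, ?_, ?_, ?_⟩
  · rw [e₁, map_one]
  · rw [e₂]; exact Fermat.Agent.H4.val_intCast_le_one A _
  · rw [e₄]; exact Fermat.Agent.H4.val_intCast_lt_one_of_dvd A hqA (frey_dvd_a₄ P hq h)
  · rw [e₄]
    have : CharZero K := algebraRat.charZero K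
    exact Int.cast_ne_zero.mpr (Fermat.Agent.H3.freyCurveInt_a₄_ne_zero P)
  · rw [e₁, e₂]
    have : (1 : K) ^ 2 + 4 * ((P.freyCurveInt.a₂ : ℤ) : K) =
        ((1 + 4 * P.freyCurveInt.a₂ : ℤ) : K) := by push_cast; ring
    rw [this]
    exact Fermat.Agent.H4.val_intCast_eq_one_of_not_dvd A hq hqA (frey_not_dvd_b₂ P hq h)

/-- `2 ∣ a * b` for a Frey package. -/
theorem frey_two_dvd_ab (P : FreyPackage) : ((2 : ℕ) : ℤ) ∣ P.a * P.b :=
  Dvd.dvd.mul_left ((ZMod.intCast_zmod_eq_zero_iff_dvd P.b 2).1 P.hb2) _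

/-- **Step (1) at `ℓ = 2`.** For every valuation subring `A` of `AlgebraicClosure ℚ` over `2`,
every `σ` in the inertia group of `A` acts unipotently on the `p`-torsion of the Frey curve:
`σ • (σ • Q - Q) = σ • Q - Q`. -/
theorem frey_inertia_two_unipotent (P : FreyPackage) (A : ValuationSubring Qbar)
    (hA : A.LiesOverPrime 2) {σ : Qbar ≃ₐ[ℚ] Qbar} (hσ : σ ∈ A.inertiaSubgroupIn ℚ)
    (Q : (P.freyCurve⁄Qbar).Point) (hQ : (P.p : ℤ) • Q = 0) :
    σ • (σ • Q - Q) = σ • Q - Q := by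
  have h2 : A.valuation ((2 : ℕ) : Qbar) < 1 :=
    (ValuationSubring.mem_nonunits_iff (A := A)).mp hA
  have hW := frey_isNodeModel P A Nat.prime_two h2 (frey_two_dvd_ab P)
  have hp2 : ¬ 2 ∣ P.p := by
    intro hd
    have := (Nat.prime_dvd_prime_iff_eq Nat.prime_two P.pp).mp hd
    have := P.hp5
    omega
  have hpu : A.valuation (P.p : Qbar) = 1 :=
    Fermat.Agent.H4.val_natCast_eq_one_of_not_dvd A Nat.prime_two h2 hp2
  have hQ' : P.p • Q = 0 := by
    rw [← natCast_zsmul]; exact hQ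
  have : Algebra.IsAlgebraic ℚ Qbar := AlgebraicClosure.isAlgebraic ℚ
  exact inertia_unipotent_of_node A hW P.hp_odd hpu hσ Q hQ'

/-- Torsion-submodule form of `frey_inertia_two_unipotent`. -/
theorem frey_inertia_two_unipotent' (P : FreyPackage) (A : ValuationSubring Qbar)
    (hA : A.LiesOverPrime 2) {σ : Qbar ≃ₐ[ℚ] Qbar} (hσ : σ ∈ A.inertiaSubgroupIn ℚ)
    (x : Submodule.torsionBy ℤ (P.freyCurve⁄Qbar).Point P.p) :
    σ • (σ • x - x) = σ • x - x := by
  apply Subtype.ext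
  have hx : (P.p : ℤ) • (x : (P.freyCurve⁄Qbar).Point) = 0 :=
    (Submodule.mem_torsionBy_iff _ _).mp x.2
  exact frey_inertia_two_unipotent P A hA hσ x hx

end Fermat.Agent.H64
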