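import Fermat.Agent.H64.NodeFormulas
import Mathlib.RingTheory.Valuation.Basic

/-!
# The node model `y² + a₁xy = x³ + a₂x² + a₄x` over a valued field

`v` is an arbitrary valuation on the field `K` (any residue characteristic), the coefficients are
integral, `a₄` is a nonzero non-unit and `b₂ = a₁² + 4a₂` is a unit: the reduction has a node at
`(0,0)`.

* `InE0 v P` : `P` does not reduce to the node (`P = 0` or `1 ≤ v (x P)`).
* `InE0.add`, `InE0.neg`, `InE0.nsmul` : these points form a subgroup.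
* `typeM_of_odd_torsion` : a point of odd order reducing to the node has `v a₄ < v x < 1`.
* `val_two_y_add` : for such points `v (2y + a₁x) = v x`.
-/

set_option autoImplicit false
set_option linter.unusedSectionVars false

open WeierstrassCurve WeierstrassCurve.Affine

namespace Fermat.Agent.H64

variable {K : Type*} [Field K] {Γ₀ : Type*} [LinearOrderedCommGroupWithZero Γ₀]

/-- Valuation data for the node model. -/
structure IsNodeModel (v : Valuation K Γ₀) (W : WeierstrassCurve.Affine K) : Prop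
    extends IsNodeShape W where
  a₁_le : v W.a₁ ≤ 1
  a₂_le : v W.a₂ ≤ 1
  a₄_lt : v W.a₄ < 1
  a₄_ne : W.a₄ ≠ 0
  b₂_eq : v (W.a₁ ^ 2 + 4 * W.a₂) = 1

section helpers

variable {v : Valuation K Γ₀}

theorem val_ofNat_le_one (v : Valuation K Γ₀) (n : ℕ) : v (n : K) ≤ 1 := by
  induction n with
  | zero => simp
  | succ n ih =>
    push_cast
    exact (v.map_add _ _).trans (max_le ih (by simp))

theorem val_two_le_one (v : Valuation K Γ₀) : v (2 : K) ≤ 1 := by
  simpa using val_ofNat_le_one v 2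

theorem val_four_le_one (v : Valuation K Γ₀) : v (4 : K) ≤ 1 := by
  simpa using val_ofNat_le_one v 4

theorem vmul_le_one_left {a b : K} (ha : v a ≤ 1) : v (a * b) ≤ v b := by
  rw [map_mul]
  calc v a * v b ≤ 1 * v b := mul_le_mul' ha le_rfl
    _ = v b := one_mul _

theorem one_le_pow_of_one_le {g : Γ₀} (hg : 1 ≤ g) (n : ℕ) : 1 ≤ g ^ n :=
  one_le_pow_of_one_le' hg n

theorem pow_le_pow_of_one_le {g : Γ₀} (hg : 1 ≤ g) {m n : ℕ} (h : m ≤ n) : g ^ m ≤ g ^ n :=
  pow_le_pow_right' hg h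

/-- If `1 ≤ g * h⁻¹`-type statement: from `a * b = c`, `b ≤ c`, `b ≠ 0` get `1 ≤ a`. -/
theorem one_le_of_mul_eq {a b c : Γ₀} (h : a * b = c) (hb : b ≠ 0) (hbc : b ≤ c) : 1 ≤ a := by
  by_contra hcon
  have ha : a < 1 := not_le.mp hcon
  have hb0 : 0 < b := zero_lt_iff.mpr hb
  have : a * b < 1 * b := mul_lt_mul_of_pos_right ha hb0
  rw [one_mul, h] at this
  exact absurd hbc (not_le.mpr this)

theorem sq_eq_sq_imp {a b : Γ₀} (h : a ^ 2 = b ^ 2) : a = b := by
  rcases lt_trichotomy a b with hlt | heq | hgt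
  · exfalso
    have h1 : a ^ 2 < b ^ 2 := by
      rw [sq, sq]
      rcases eq_or_ne a 0 with rfl | ha
      · have hb0 : 0 < b := hlt
        simpa using mul_pos hb0 hb0
      · have ha0 : 0 < a := zero_lt_iff.mpr ha
        calc a * a < a * b := mul_lt_mul_of_pos_left hlt ha0
          _ ≤ b * b := mul_le_mul' hlt.le le_rfl
    exact absurd h (ne_of_lt h1)
  · exact heq
  · exfalso
    have h1 : b ^ 2 < a ^ 2 := by
      rw [sq, sq]
      rcases eq_or_ne b 0 with rfl | hb
      · have ha0 : 0 < a := hgt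
        simpa using mul_pos ha0 ha0
      · have hb0 : 0 < b := zero_lt_iff.mpr hb
        calc b * b < b * a := mul_lt_mul_of_pos_left hgt hb0
          _ ≤ a * a := mul_le_mul' hgt.le le_rfl
    exact absurd h.symm (ne_of_lt h1)

end helpers

section E0

variable {v : Valuation K Γ₀} {W : WeierstrassCurve.Affine K}

/-- For an integral node model and `1 ≤ v x`: `v y ^ 2 ≤ v x ^ 3`. -/
theorem val_y_sq_le (hW : IsNodeModel v W) {x y : K} (h : W.Equation x y) (hx : 1 ≤ v x) :
    v y ^ 2 ≤ v x ^ 3 := by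
  by_contra hcon
  have hcon : v x ^ 3 < v y ^ 2 := not_le.mp hcon
  have e := hW.toIsNodeShape.equation h
  have hx0 : v x ≠ 0 := (zero_lt_one.trans_le hx).ne'
  have hx23 : v x ^ 2 ≤ v x ^ 3 := pow_le_pow_of_one_le hx (by norm_num)
  have hx13 : v x ≤ v x ^ 3 := by
    simpa using pow_le_pow_of_one_le hx (show 1 ≤ 3 by norm_num)
  -- `v x < v y`
  have hxy : v x < v y := by
    by_contra hc
    have hc : v y ≤ v x := not_lt.mp hc
    have : v y ^ 2 ≤ v x ^ 2 := pow_le_pow_left' hc 2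
    exact absurd (this.trans hx23) (not_le.mpr hcon)
  have hy0 : 0 < v y := lt_of_le_of_lt zero_le hxy
  have h1 : v (W.a₁ * x * y) < v (y ^ 2) := by
    rw [mul_assoc, map_pow, sq]
    refine lt_of_le_of_lt (vmul_le_one_left hW.a₁_le) ?_
    rw [map_mul]
    exact mul_lt_mul_of_pos_right hxy hy0
  have hL : v (y ^ 2 + W.a₁ * x * y) = v y ^ 2 := by
    rw [v.map_add_eq_of_lt_left h1, map_pow]
  have hR : v (x ^ 3 + W.a₂ * x ^ 2 + W.a₄ * x) ≤ v x ^ 3 := by
    refine v.map_add_le (v.map_add_le ?_ ?_) ?_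
    · rw [map_pow]
    · refine (vmul_le_one_left hW.a₂_le).trans ?_
      rw [map_pow]; exact hx23
    · exact (vmul_le_one_left hW.a₄_lt.le).trans hx13
  rw [← e, hL] at hR
  exact absurd hR (not_le.mpr hcon)

variable [DecidableEq K]

/-- `P` does not reduce to the node: `P = 0` or `1 ≤ v (x P)`. -/
def InE0 (v : Valuation K Γ₀) : W.Point → Prop
  | .zero => True
  | .some x _ _ => 1 ≤ v x

@[simp] theorem inE0_zero : InE0 v (0 : W.Point) := trivial

@[simp] theorem inE0_some {x y : K} (h : W.Nonsingular x y) :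
    InE0 v (Point.some x y h) ↔ 1 ≤ v x := Iff.rfl

theorem InE0.neg {P : W.Point} (hP : InE0 v P) : InE0 v (-P) := by
  cases P with
  | zero => exact trivial
  | some x y h => exact hP

/-- The points with nonsingular reduction are closed under addition. -/
theorem InE0.add (hW : IsNodeModel v W) {P Q : W.Point} (hP : InE0 v P) (hQ : InE0 v Q) :
    InE0 v (P + Q) := by
  cases P with
  | zero => rw [show (Point.zero : W.Point) = 0 from rfl, zero_add]; exact hQ
  | some x₁ y₁ h₁ =>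
  cases Q with
  | zero => rw [show (Point.zero : W.Point) = 0 from rfl, add_zero]; exact hP
  | some x₂ y₂ h₂ =>
  have hS := hW.toIsNodeShape
  have hx₁ : 1 ≤ v x₁ := hP
  have hx₂ : 1 ≤ v x₂ := hQ
  have hx₁0 : v x₁ ≠ 0 := (zero_lt_one.trans_le hx₁).ne'
  have hx₂0 : v x₂ ≠ 0 := (zero_lt_one.trans_le hx₂).ne'
  have hx₁n : x₁ ≠ 0 := fun h => hx₁0 (by rw [h, map_zero])
  have hx₂n : x₂ ≠ 0 := fun h => hx₂0 (by rw [h, map_zero])
  by_cases hx : x₁ = x₂
  · -- same `x`-coordinate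
    rcases IsNodeShape.eq_or_eq_neg_of_X_eq h₁ h₂ hx with hPQ | hPQ
    · -- doubling
      have hPQ' : Point.some x₁ y₁ h₁ + Point.some x₂ y₂ h₂ =
          Point.some x₁ y₁ h₁ + Point.some x₁ y₁ h₁ := by rw [← hPQ]
      rw [hPQ']
      by_cases hy : 2 * y₁ + W.a₁ * x₁ = 0
      · rw [hS.add_self_of_eq h₁ hy]; exact trivial
      · obtain ⟨x₃, y₃, h₃, hadd, f⟩ := hS.add_self_of_ne h₁ hy
        rw [hadd, inE0_some]
        have hv : v (x₁ ^ 2 - W.a₄) = v x₁ ^ 2 := by
          have : v W.a₄ < v (x₁ ^ 2) := by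
            rw [map_pow]
            exact lt_of_lt_of_le hW.a₄_lt (one_le_pow_of_one_le hx₁ 2)
          rw [v.map_sub_eq_of_lt_left this, map_pow]
        have hD : v (2 * y₁ + W.a₁ * x₁) ^ 2 ≤ v x₁ ^ 4 := by
          have hy2 := val_y_sq_le hW h₁.1 hx₁
          have h34 : v x₁ ^ 3 ≤ v x₁ ^ 4 := pow_le_pow_of_one_le hx₁ (by norm_num)
          have h24 : v x₁ ^ 2 ≤ v x₁ ^ 4 := pow_le_pow_of_one_le hx₁ (by norm_num)
          rcases v.map_add' (2 * y₁) (W.a₁ * x₁) with hle | hle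
          · have : v (2 * y₁ + W.a₁ * x₁) ≤ v y₁ := hle.trans (vmul_le_one_left (val_two_le_one v))
            exact (pow_le_pow_left' this 2).trans (hy2.trans h34)
          · have : v (2 * y₁ + W.a₁ * x₁) ≤ v x₁ := hle.trans (vmul_le_one_left hW.a₁_le)
            exact (pow_le_pow_left' this 2).trans h24
        have hD0 : v (2 * y₁ + W.a₁ * x₁) ^ 2 ≠ 0 := by
          simpa using hy
        have hf := congrArg v f
        rw [map_mul, map_pow, map_pow, hv] at hf
        refine one_le_of_mul_eq hf hD0 ?_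
        rw [← pow_mul]
        exact hD
    · rw [hPQ, neg_add_cancel]; exact trivial
  · -- chord
    obtain ⟨x₃, y₃, h₃, hadd, -, f⟩ := hS.add_of_X_ne h₁ h₂ hx
    rw [hadd, inE0_some]
    set N := y₁ * x₂ + y₂ * x₁ + W.a₁ * x₁ * x₂ with hN
    have h12 : 1 ≤ v x₁ * v x₂ := one_le_mul hx₁ hx₂
    have hv : v (x₁ * x₂ - W.a₄) = v x₁ * v x₂ := by
      have : v W.a₄ < v (x₁ * x₂) := by
        rw [map_mul]
        exact lt_of_lt_of_le hW.a₄_lt h12
      rw [v.map_sub_eq_of_lt_left this, map_mul]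
    have hx12n : x₁ * x₂ - W.a₄ ≠ 0 := by
      intro h0
      rw [h0, map_zero] at hv
      exact (mul_ne_zero hx₁0 hx₂0) hv.symm
    have hNn : N ≠ 0 := by
      intro h0
      have key := hS.key_identity h₁.1 h₂.1
      rw [← hN, h0, mul_zero] at key
      have : x₁ * x₂ * (x₁ - x₂) * (x₁ * x₂ - W.a₄) ≠ 0 :=
        mul_ne_zero (mul_ne_zero (mul_ne_zero hx₁n hx₂n) (sub_ne_zero.mpr hx)) hx12n
      exact this key.symm
    have hy₁ := val_y_sq_le hW h₁.1 hx₁
    have hy₂ := val_y_sq_le hW h₂.1 hx₂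
    have hT : v N ^ 2 ≤ (v x₁ * v x₂) ^ 3 := by
      have t1 : v (y₁ * x₂) ^ 2 ≤ (v x₁ * v x₂) ^ 3 := by
        rw [map_mul, mul_pow, mul_pow]
        exact mul_le_mul' hy₁ (pow_le_pow_of_one_le hx₂ (by norm_num))
      have t2 : v (y₂ * x₁) ^ 2 ≤ (v x₁ * v x₂) ^ 3 := by
        rw [map_mul, mul_pow, mul_pow, mul_comm]
        exact mul_le_mul' (pow_le_pow_of_one_le hx₁ (by norm_num)) hy₂
      have t3 : v (W.a₁ * x₁ * x₂) ^ 2 ≤ (v x₁ * v x₂) ^ 3 := by
        rw [mul_assoc]
        refine (pow_le_pow_left' (vmul_le_one_left hW.a₁_le) 2).trans ?_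
        rw [map_mul]
        exact pow_le_pow_of_one_le h12 (by norm_num)
      rcases v.map_add' (y₁ * x₂ + y₂ * x₁) (W.a₁ * x₁ * x₂) with hle | hle
      · rcases v.map_add' (y₁ * x₂) (y₂ * x₁) with hle' | hle'
        · exact (pow_le_pow_left' (hle.trans hle') 2).trans t1
        · exact (pow_le_pow_left' (hle.trans hle') 2).trans t2
      · exact (pow_le_pow_left' hle 2).trans t3
    have hf := congrArg v f
    rw [map_mul, map_pow, map_mul, map_mul, map_pow, hv] at hf
    have hN0 : v N ^ 2 ≠ 0 := by simpa using hNn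
    refine one_le_of_mul_eq hf hN0 ?_
    calc v N ^ 2 ≤ (v x₁ * v x₂) ^ 3 := hT
      _ = v x₁ * v x₂ * (v x₁ * v x₂) ^ 2 := by rw [pow_succ']

theorem InE0.nsmul (hW : IsNodeModel v W) {P : W.Point} (hP : InE0 v P) (n : ℕ) :
    InE0 v (n • P) := by
  induction n with
  | zero => simp
  | succ n ih => rw [succ_nsmul]; exact ih.add hW hP

theorem InE0.sub (hW : IsNodeModel v W) {P Q : W.Point} (hP : InE0 v P) (hQ : InE0 v Q) :
    InE0 v (P - Q) := by
  rw [sub_eq_add_neg]; exact hP.add hW hQ.neg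

end E0

end Fermat.Agent.H64
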