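import Mathlib.AlgebraicGeometry.EllipticCurve.Affine.Point
import Mathlib.Tactic

/-!
# Group-law formulas on the model `y² + a₁xy = x³ + a₂x² + a₄x`

Pure algebra over a field `K` (any characteristic).  The curve has `a₃ = a₆ = 0`, so `(0,0)` is a
point of order two (when `a₄ ≠ 0`).  With `mᵢ = yᵢ / xᵢ` the formulas read
`x(P₁ + P₂) = x₁x₂(m₁ - m₂)²/(x₁ - x₂)² = (x₁x₂ - a₄)² / (x₁x₂(m₁ + m₂ + a₁)²)` and similarly
for `P₁ - P₂`; they are stated in division-free form.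
-/

set_option autoImplicit false

open WeierstrassCurve WeierstrassCurve.Affine

namespace Fermat.Agent.H64

variable {K : Type*} [Field K]

/-- The curve has the shape `y² + a₁xy = x³ + a₂x² + a₄x`. -/
structure IsNodeShape (W : WeierstrassCurve.Affine K) : Prop where
  a₃ : W.a₃ = 0
  a₆ : W.a₆ = 0

namespace IsNodeShape

variable {W : WeierstrassCurve.Affine K} (hW : IsNodeShape W)

include hW

lemma equation {x y : K} (h : W.Equation x y) :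
    y ^ 2 + W.a₁ * x * y = x ^ 3 + W.a₂ * x ^ 2 + W.a₄ * x := by
  have := (WeierstrassCurve.Affine.equation_iff x y).mp h
  rw [hW.a₃, hW.a₆] at this
  linear_combination this

lemma negY_eq (x y : K) : W.negY x y = -y - W.a₁ * x := by
  simp [WeierstrassCurve.Affine.negY, hW.a₃]

/-- The key identity relating slopes and `x`-coordinates. -/
lemma key_identity {x₁ y₁ x₂ y₂ : K} (h₁ : W.Equation x₁ y₁) (h₂ : W.Equation x₂ y₂) :
    (y₁ * x₂ - y₂ * x₁) * (y₁ * x₂ + y₂ * x₁ + W.a₁ * x₁ * x₂) =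
      x₁ * x₂ * (x₁ - x₂) * (x₁ * x₂ - W.a₄) := by
  have e₁ := hW.equation h₁
  have e₂ := hW.equation h₂
  grind

/-- `(2y + a₁x)² = b₂x² + 4x³ + 4a₄x`. -/
lemma sq_two_y_add {x y : K} (h : W.Equation x y) :
    (2 * y + W.a₁ * x) ^ 2 = (W.a₁ ^ 2 + 4 * W.a₂) * x ^ 2 + 4 * x ^ 3 + 4 * W.a₄ * x := by
  have e := hW.equation h
  linear_combination 4 * e

variable [DecidableEq K]

/-- Chord formulas for the sum: `x₁ ≠ x₂`. -/
lemma add_of_X_ne {x₁ y₁ x₂ y₂ : K} (h₁ : W.Nonsingular x₁ y₁)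
    (h₂ : W.Nonsingular x₂ y₂) (hx : x₁ ≠ x₂) :
    ∃ (x₃ y₃ : K) (h₃ : W.Nonsingular x₃ y₃),
      Point.some x₁ y₁ h₁ + Point.some x₂ y₂ h₂ = Point.some x₃ y₃ h₃ ∧
      x₃ * (x₁ * x₂ * (x₁ - x₂) ^ 2) = (y₁ * x₂ - y₂ * x₁) ^ 2 ∧
      x₃ * (y₁ * x₂ + y₂ * x₁ + W.a₁ * x₁ * x₂) ^ 2 = x₁ * x₂ * (x₁ * x₂ - W.a₄) ^ 2 := by
  have e₁ := hW.equation h₁.1
  have e₂ := hW.equation h₂.1
  have hd : x₁ - x₂ ≠ 0 := sub_ne_zero.mpr hx
  refine ⟨_, _, _, Point.add_of_X_ne (h₁ := h₁) (h₂ := h₂) hx, ?_, ?_⟩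
  · simp only [WeierstrassCurve.Affine.addX, WeierstrassCurve.Affine.slope_of_X_ne hx]
    field_simp
    grind
  · simp only [WeierstrassCurve.Affine.addX, WeierstrassCurve.Affine.slope_of_X_ne hx]
    field_simp
    grind

/-- Chord formulas for the difference: `x₁ ≠ x₂`. -/
lemma sub_of_X_ne {x₁ y₁ x₂ y₂ : K} (h₁ : W.Nonsingular x₁ y₁)
    (h₂ : W.Nonsingular x₂ y₂) (hx : x₁ ≠ x₂) :
    ∃ (x₄ y₄ : K) (h₄ : W.Nonsingular x₄ y₄),
      Point.some x₁ y₁ h₁ - Point.some x₂ y₂ h₂ = Point.some x₄ y₄ h₄ ∧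
      x₄ * (x₁ * x₂ * (x₁ - x₂) ^ 2) = (y₁ * x₂ + y₂ * x₁ + W.a₁ * x₁ * x₂) ^ 2 ∧
      x₄ * (y₁ * x₂ - y₂ * x₁) ^ 2 = x₁ * x₂ * (x₁ * x₂ - W.a₄) ^ 2 := by
  have hn : W.Nonsingular x₂ (W.negY x₂ y₂) :=
    (WeierstrassCurve.Affine.nonsingular_neg ..).mpr h₂
  have hsub : Point.some x₁ y₁ h₁ - Point.some x₂ y₂ h₂ =
      Point.some x₁ y₁ h₁ + Point.some x₂ _ hn := by
    rw [sub_eq_add_neg, Point.neg_some]
  obtain ⟨x₄, y₄, h₄, hadd, f₁, f₂⟩ := hW.add_of_X_ne h₁ hn hx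
  refine ⟨x₄, y₄, h₄, hsub.trans hadd, ?_, ?_⟩
  · rw [f₁, hW.negY_eq]; ring
  · rw [hW.negY_eq] at f₂
    rw [← f₂]; ring

/-- Doubling formula (`y ≠ negY`, i.e. `2y + a₁x ≠ 0`). -/
lemma add_self_of_ne {x y : K} (h : W.Nonsingular x y) (hy : 2 * y + W.a₁ * x ≠ 0) :
    ∃ (x₃ y₃ : K) (h₃ : W.Nonsingular x₃ y₃),
      Point.some x y h + Point.some x y h = Point.some x₃ y₃ h₃ ∧
      x₃ * (2 * y + W.a₁ * x) ^ 2 = (x ^ 2 - W.a₄) ^ 2 := by
  have e := hW.equation h.1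
  have hne : y ≠ W.negY x y := by
    rw [hW.negY_eq]
    intro hyy
    apply hy
    linear_combination hyy
  refine ⟨_, _, _, Point.add_self_of_Y_ne hne, ?_⟩
  simp only [WeierstrassCurve.Affine.addX, WeierstrassCurve.Affine.slope_of_Y_ne rfl hne]
  have h2y : y - W.negY x y = 2 * y + W.a₁ * x := by rw [hW.negY_eq]; ring
  rw [h2y]
  have hy' : 2 * y + x * W.a₁ ≠ 0 := by rw [mul_comm x]; exact hy
  field_simp
  grind

/-- Doubling gives `0` when `2y + a₁x = 0`. -/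
lemma add_self_of_eq {x y : K} (h : W.Nonsingular x y) (hy : 2 * y + W.a₁ * x = 0) :
    Point.some x y h + Point.some x y h = 0 := by
  apply Point.add_self_of_Y_eq
  rw [hW.negY_eq]
  linear_combination hy

omit hW [DecidableEq K] in
/-- Two affine points with the same `x` are equal or opposite. -/
lemma eq_or_eq_neg_of_X_eq {x₁ y₁ x₂ y₂ : K} (h₁ : W.Nonsingular x₁ y₁)
    (h₂ : W.Nonsingular x₂ y₂) (hx : x₁ = x₂) :
    Point.some x₁ y₁ h₁ = Point.some x₂ y₂ h₂ ∨ Point.some x₁ y₁ h₁ = -Point.some x₂ y₂ h₂ :=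
  Point.X_eq_iff.mp hx

omit [DecidableEq K] in
/-- `(0, 0)` is a nonsingular point when `a₄ ≠ 0`. -/
lemma nonsingular_zero (h4 : W.a₄ ≠ 0) : W.Nonsingular 0 0 := by
  rw [WeierstrassCurve.Affine.nonsingular_iff, WeierstrassCurve.Affine.equation_iff]
  refine ⟨by rw [hW.a₆]; ring, Or.inl ?_⟩
  simpa using h4.symm

/-- Translation by the two-torsion point `T₀ = (0, 0)`. -/
lemma add_T0 (h4 : W.a₄ ≠ 0) {x y : K} (h : W.Nonsingular x y) (hx : x ≠ 0) :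
    ∃ (x₃ y₃ : K) (h₃ : W.Nonsingular x₃ y₃),
      Point.some x y h + Point.some 0 0 (hW.nonsingular_zero h4) = Point.some x₃ y₃ h₃ ∧
      x₃ * x = W.a₄ := by
  have e := hW.equation h.1
  refine ⟨_, _, _, Point.add_of_X_ne (h₁ := h) (h₂ := hW.nonsingular_zero h4) hx, ?_⟩
  simp only [WeierstrassCurve.Affine.addX, WeierstrassCurve.Affine.slope_of_X_ne hx]
  field_simp
  grind

/-- `T₀ + T₀ = 0`. -/
lemma T0_add_T0 (h4 : W.a₄ ≠ 0) :
    Point.some 0 0 (hW.nonsingular_zero h4) + Point.some 0 0 (hW.nonsingular_zero h4) = 0 := by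
  apply hW.add_self_of_eq
  ring

end IsNodeShape

end Fermat.Agent.H64
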