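import Fermat.Agent.H64.NodeTypeM
import Fermat.Agent.H64.DecompVal
import Fermat.Agent.H8.InertiaReduction
import Fermat.Agent.H26.KernelReduction

/-!
# Inertia acts unipotently on odd torsion of a node model (any residue characteristic)

`W'` is a Weierstrass curve over `S` of the shape `y² + a₁xy = x³ + a₂x² + a₄x`, `K / S` is an
algebraic extension, `A` a valuation subring of `K` such that `a₁, a₂ ∈ A`, `a₄` is a nonzero
non-unit and `b₂ = a₁² + 4a₂` is a unit.  Let `p` be odd and a unit of `A`.  Then for every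
`σ` in the inertia group of `A` and every `P` with `p • P = 0`:

* `σ • P - P` has nonsingular reduction (`inertia_sub_inE0`);
* `σ` fixes the `p`-torsion points with nonsingular reduction (`inertia_fixes_inE0`);
* hence `σ • (σ • P - P) = σ • P - P` (`inertia_unipotent_of_node`).
-/

set_option autoImplicit false
set_option linter.unusedSectionVars false

open WeierstrassCurve WeierstrassCurve.Affine WeierstrassCurve.Affine.Point

namespace Fermat.Agent.H64

section generic

variable {K : Type*} [Field K] {Γ₀ : Type*} [LinearOrderedCommGroupWithZero Γ₀]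
variable {v : Valuation K Γ₀} {W : WeierstrassCurve.Affine K}

theorem IsNodeModel.isIntegralAt (hW : IsNodeModel v W) : Fermat.Agent.H26.IsIntegralAt v W where
  a₁ := hW.a₁_le
  a₂ := hW.a₂_le
  a₃ := by rw [hW.a₃, _root_.map_zero]; exact zero_le_one
  a₄ := hW.a₄_lt.le
  a₆ := by rw [hW.a₆, _root_.map_zero]; exact zero_le_one

/-- An integral point with unit `x`-coordinate reduces to a nonsingular point: the two partial
derivatives are not both in the maximal ideal. -/
theorem not_both_partials_small (hW : IsNodeModel v W) {x y : K} (h : W.Equation x y)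
    (hx : v x = 1) :
    ¬ (v (W.a₁ * y - (3 * x ^ 2 + 2 * W.a₂ * x + W.a₄)) < 1 ∧ v (2 * y + W.a₁ * x) < 1) := by
  rintro ⟨hX, hY⟩
  have e1 := hW.toIsNodeShape.sq_two_y_add h
  have h4 : v (4 * W.a₄ * x) < 1 := by
    rw [mul_assoc]
    refine lt_of_le_of_lt (vmul_le_one_left (val_four_le_one v)) ?_
    rw [map_mul, hx, mul_one]; exact hW.a₄_lt
  have hY2 : v ((2 * y + W.a₁ * x) ^ 2) < 1 := by
    rw [map_pow]; exact pow_lt_one' hY two_ne_zero
  -- `b₂x² + 4x³` is small
  have hA : v ((W.a₁ ^ 2 + 4 * W.a₂) * x ^ 2 + 4 * x ^ 3) < 1 := by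
    have : (W.a₁ ^ 2 + 4 * W.a₂) * x ^ 2 + 4 * x ^ 3 =
        (2 * y + W.a₁ * x) ^ 2 - 4 * W.a₄ * x := by rw [e1]; ring
    rw [this]
    exact v.map_sub_lt hY2 h4
  -- `b₂x + 6x²` is small
  have hB : v ((W.a₁ ^ 2 + 4 * W.a₂) * x + 6 * x ^ 2) < 1 := by
    have : (W.a₁ ^ 2 + 4 * W.a₂) * x + 6 * x ^ 2 =
        W.a₁ * (2 * y + W.a₁ * x) - 2 * (W.a₁ * y - (3 * x ^ 2 + 2 * W.a₂ * x + W.a₄))
          - 2 * W.a₄ := by ring
    rw [this]
    refine v.map_sub_lt (v.map_sub_lt ?_ ?_) ?_
    · exact lt_of_le_of_lt (vmul_le_one_left hW.a₁_le) hY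
    · exact lt_of_le_of_lt (vmul_le_one_left (val_two_le_one v)) hX
    · exact lt_of_le_of_lt (vmul_le_one_left (val_two_le_one v)) hW.a₄_lt
  have hB' : v (((W.a₁ ^ 2 + 4 * W.a₂) * x + 6 * x ^ 2) * x) < 1 := by
    rw [map_mul, hx, mul_one]; exact hB
  have h2 : v (2 : K) < 1 := by
    have : (2 : K) * x ^ 3 = ((W.a₁ ^ 2 + 4 * W.a₂) * x + 6 * x ^ 2) * x -
        ((W.a₁ ^ 2 + 4 * W.a₂) * x ^ 2 + 4 * x ^ 3) := by ring
    have h := v.map_sub_lt hB' hA
    rw [← this, map_mul, map_pow, hx, one_pow, mul_one] at h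
    exact h
  have h43 : v (4 * x ^ 3) < 1 := by
    have : (4 : K) = 2 * 2 := by norm_num
    rw [this, map_mul, map_mul, map_pow, hx, one_pow, mul_one]
    calc v 2 * v 2 ≤ 1 * v 2 := mul_le_mul' h2.le le_rfl
      _ = v 2 := one_mul _
      _ < 1 := h2
  have hb : v ((W.a₁ ^ 2 + 4 * W.a₂) * x ^ 2) < 1 := by
    have : (W.a₁ ^ 2 + 4 * W.a₂) * x ^ 2 =
        ((W.a₁ ^ 2 + 4 * W.a₂) * x ^ 2 + 4 * x ^ 3) - 4 * x ^ 3 := by ring
    rw [this]
    exact v.map_sub_lt hA h43
  rw [map_mul, hW.b₂_eq, map_pow, hx, one_pow, mul_one] at hb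
  exact lt_irrefl _ hb

end generic

section galois

universe s u

variable {S : Type s} {K : Type u} [Field S] [Field K] [DecidableEq K] [Algebra S K]
variable (A : ValuationSubring K) {W' : Affine S}

theorem smul_nsmul_point (σ : K ≃ₐ[S] K) (n : ℕ) (P : (W'⁄K).Point) :
    σ • (n • P) = n • (σ • P) := by
  have := algEquiv_smul_zsmul (W' := W') σ (n : ℤ) P
  simpa using this

theorem smul_sub_point (σ : K ≃ₐ[S] K) (P Q : (W'⁄K).Point) :
    σ • (P - Q) = σ • P - σ • Q := by
  rw [sub_eq_add_neg, smul_add, smul_neg, ← sub_eq_add_neg]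

/-- Stability of `A` under an element of the inertia group. -/
theorem inertia_stable {σ : K ≃ₐ[S] K} (hσ : σ ∈ A.inertiaSubgroupIn S) (z : K) :
    σ z ∈ A ↔ z ∈ A :=
  Fermat.Agent.H8.apply_mem_iff_of_mem_decomposition A
    (Fermat.Agent.H8.mem_decomposition_of_mem_inertiaSubgroupIn A hσ)

theorem inertia_val_eq [Algebra.IsAlgebraic S K] {σ : K ≃ₐ[S] K}
    (hσ : σ ∈ A.inertiaSubgroupIn S) (z : K) : A.valuation (σ z) = A.valuation z :=
  valuation_apply_eq_of_stable A σ (inertia_stable A hσ) z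

theorem inertia_val_sub_lt {σ : K ≃ₐ[S] K} (hσ : σ ∈ A.inertiaSubgroupIn S) {z : K}
    (hz : A.valuation z ≤ 1) : A.valuation (σ z - z) < 1 := by
  have hzA : z ∈ A := (A.valuation_le_one_iff z).mp hz
  exact (ValuationSubring.mem_nonunits_iff (A := A)).mp
    (Fermat.Agent.H8.apply_sub_mem_nonunits_of_mem_inertia A hσ hzA)

/-- **(A1)** Inertia fixes the `p`-torsion points with nonsingular reduction. -/
theorem inertia_fixes_inE0 (hW : IsNodeModel A.valuation (W'⁄K)) {p : ℕ}
    (hpu : A.valuation (p : K) = 1) {σ : K ≃ₐ[S] K} (hσ : σ ∈ A.inertiaSubgroupIn S)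
    {Q : (W'⁄K).Point} (hQ : InE0 A.valuation Q) (hpQ : p • Q = 0) : σ • Q = Q := by
  have hI := hW.isIntegralAt
  rcases Q with _ | ⟨x, y, h⟩
  · rfl
  · have hx : 1 ≤ A.valuation x := hQ
    rcases lt_or_eq_of_le hx with hlt | heq
    · -- kernel of reduction: impossible
      have hK : Fermat.Agent.H26.InKer A.valuation (Point.some x y h) := hlt
      have := Fermat.Agent.H26.eq_zero_of_nsmul_eq_zero hI hK hpu hpQ
      cases this
    · have hx1 : A.valuation x = 1 := heq.symm
      have hxA : x ∈ A := (A.valuation_le_one_iff x).mp hx1.le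
      have hy1 : A.valuation y ≤ 1 := by
        have := val_y_sq_le hW h.1 hx
        rw [hx1, one_pow] at this
        by_contra hc
        have hc : 1 < A.valuation y := not_le.mp hc
        have : 1 < A.valuation y ^ 2 := one_lt_pow' hc two_ne_zero
        exact absurd ‹A.valuation y ^ 2 ≤ 1› (not_le.mpr this)
      have hyA : y ∈ A := (A.valuation_le_one_iff y).mp hy1
      have hns : (W'⁄K).a₁ * y - (3 * x ^ 2 + 2 * (W'⁄K).a₂ * x + (W'⁄K).a₄) ∉ A.nonunits ∨
          2 * y + (W'⁄K).a₁ * x + (W'⁄K).a₃ ∉ A.nonunits := by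
        by_contra hcon
        rw [not_or, not_not, not_not] at hcon
        obtain ⟨c1, c2⟩ := hcon
        rw [hW.a₃, add_zero] at c2
        exact not_both_partials_small hW h.1 hx1
          ⟨(ValuationSubring.mem_nonunits_iff (A := A)).mp c1,
            (ValuationSubring.mem_nonunits_iff (A := A)).mp c2⟩
      have ha₁ : (W'⁄K).a₁ ∈ A := (A.valuation_le_one_iff _).mp hW.a₁_le
      have ha₂ : (W'⁄K).a₂ ∈ A := (A.valuation_le_one_iff _).mp hW.a₂_le
      have ha₃ : (W'⁄K).a₃ ∈ A := by rw [hW.a₃]; exact A.zero_mem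
      have ha₄ : (W'⁄K).a₄ ∈ A := (A.valuation_le_one_iff _).mp hW.a₄_lt.le
      have hpd : p • (σ • (Point.some x y h : (W'⁄K).Point) - Point.some x y h) = 0 := by
        rw [nsmul_sub, ← smul_nsmul_point, hpQ, smul_zero, sub_zero]
      rcases Fermat.Agent.H8.inertia_smul_sub_of_nonsingular_reduction A ha₁ ha₂ ha₃ ha₄ hσ h
        hxA hyA hns with h0 | ⟨x₃, y₃, h₃, he, hx₃⟩
      · exact sub_eq_zero.mp h0
      · exfalso
        rw [he] at hpd
        have hK : Fermat.Agent.H26.InKer A.valuation (Point.some x₃ y₃ h₃) :=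
          (Fermat.Agent.H26.one_lt_valuation_iff A).mpr hx₃
        have := Fermat.Agent.H26.eq_zero_of_nsmul_eq_zero hI hK hpu hpd
        cases this

/-- **(A2)** For a point `P` of odd order reducing to the node and `σ` in the inertia group,
`σ • P - P` has nonsingular reduction. -/
theorem inertia_sub_inE0_of_node [Algebra.IsAlgebraic S K]
    (hW : IsNodeModel A.valuation (W'⁄K)) {p : ℕ} (hp : Odd p)
    {σ : K ≃ₐ[S] K} (hσ : σ ∈ A.inertiaSubgroupIn S)
    {x y : K} (h : (W'⁄K).Nonsingular x y) (hx : A.valuation x < 1)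
    (hpP : p • (Point.some x y h : (W'⁄K).Point) = 0) :
    InE0 A.valuation (σ • (Point.some x y h : (W'⁄K).Point) - Point.some x y h) := by
  set v := A.valuation with hv
  have hS := hW.toIsNodeShape
  obtain ⟨hx0, hx4⟩ := typeM_of_odd_torsion hW h hp hpP hx
  have hvx0 : 0 < v x := zero_lt_iff.mpr ((Valuation.ne_zero_iff v).mpr hx0)
  have hWY := val_two_y_add hW h.1 hx hx4
  have hyx := val_y_le hW h.1 hx hx4
  have hσx : v (σ x) = v x := inertia_val_eq A hσ x
  rw [Fermat.Agent.H8.algEquiv_smul_some]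
  set h' : (W'⁄K).Nonsingular (σ x) (σ y) :=
    (W'.baseChange_nonsingular σ.toAlgHom.injective ..).mpr h with hh'
  -- the slope `m = y / x`
  have hm1 : v (y / x) ≤ 1 := by
    rw [map_div₀]; exact (div_le_one₀ hvx0).mpr hyx
  have hσm : v (σ (y / x) - y / x) < 1 := inertia_val_sub_lt A hσ hm1
  have h2m : v (2 * (y / x) + (W'⁄K).a₁) = 1 := by
    have : 2 * (y / x) + (W'⁄K).a₁ = (2 * y + (W'⁄K).a₁ * x) / x := by
      field_simp
    rw [this, map_div₀, hWY, div_self hvx0.ne']
  have hsum : v (σ (y / x) + y / x + (W'⁄K).a₁) = 1 := by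
    have : σ (y / x) + y / x + (W'⁄K).a₁ =
        (σ (y / x) - y / x) + (2 * (y / x) + (W'⁄K).a₁) := by ring
    rw [this, v.map_add_eq_of_lt_right (by rw [h2m]; exact hσm), h2m]
  have hσx0 : σ x ≠ 0 := by simpa using hx0
  by_cases hxx : σ x = x
  · rcases IsNodeShape.eq_or_eq_neg_of_X_eq h' h hxx with hPQ | hPQ
    · rw [hPQ, sub_self]; exact trivial
    · exfalso
      rw [Point.neg_some] at hPQ
      have hy : σ y = (W'⁄K).negY x y := by
        have := hPQ
        simp only [Point.some.injEq] at this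
        exact this.2
      rw [hS.negY_eq] at hy
      -- `σ y - y = -(2y + a₁x)` has valuation `v x`, but it is `(σ m - m) x`
      have e1 : σ y - y = -(2 * y + (W'⁄K).a₁ * x) := by rw [hy]; ring
      have e2 : σ y - y = (σ (y / x) - y / x) * x := by
        rw [map_div₀, hxx]; field_simp
      have h1 : v (σ y - y) = v x := by rw [e1, Valuation.map_neg, hWY]
      have h2 : v (σ y - y) < v x := by
        rw [e2, map_mul]
        calc v (σ (y / x) - y / x) * v x < 1 * v x := mul_lt_mul_of_pos_right hσm hvx0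
          _ = v x := one_mul _
      rw [h1] at h2
      exact lt_irrefl _ h2
  · obtain ⟨x₄, y₄, h₄, hsub, f, -⟩ := hS.sub_of_X_ne h' h hxx
    rw [hsub, inE0_some]
    have hN : σ y * x + y * σ x + (W'⁄K).a₁ * σ x * x =
        x * σ x * (σ (y / x) + y / x + (W'⁄K).a₁) := by
      rw [map_div₀]; field_simp
    have hvN : v (σ y * x + y * σ x + (W'⁄K).a₁ * σ x * x) = v x * v x := by
      rw [hN, map_mul, map_mul, hsum, mul_one, hσx]
    have hd : v (σ x - x) ≤ v x := by
      refine v.map_sub_le ?_ le_rfl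
      rw [hσx]
    have hd0 : v (σ x - x) ≠ 0 := (Valuation.ne_zero_iff v).mpr (sub_ne_zero.mpr hxx)
    have hf := congrArg v f
    rw [map_mul, map_mul, map_mul, map_pow, map_pow, hvN, hσx] at hf
    refine one_le_of_mul_eq hf ?_ ?_
    · exact mul_ne_zero (mul_ne_zero hvx0.ne' hvx0.ne') (pow_ne_zero 2 hd0)
    · rw [sq (v x * v x)]
      refine mul_le_mul' le_rfl ?_
      rw [sq]
      exact mul_le_mul' hd hd

/-- `σ • P - P` has nonsingular reduction for every `p`-torsion point `P`. -/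
theorem inertia_sub_inE0 [Algebra.IsAlgebraic S K]
    (hW : IsNodeModel A.valuation (W'⁄K)) {p : ℕ} (hp : Odd p)
    (hpu : A.valuation (p : K) = 1) {σ : K ≃ₐ[S] K} (hσ : σ ∈ A.inertiaSubgroupIn S)
    (P : (W'⁄K).Point) (hpP : p • P = 0) : InE0 A.valuation (σ • P - P) := by
  rcases P with _ | ⟨x, y, h⟩
  · exact trivial
  · by_cases hx : A.valuation x < 1
    · exact inertia_sub_inE0_of_node A hW hp hσ h hx hpP
    · have hE : InE0 A.valuation (Point.some x y h : (W'⁄K).Point) := not_lt.mp hx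
      rw [inertia_fixes_inE0 A hW hpu hσ hE hpP, sub_self]
      exact trivial

/-- **Unipotence.** `(σ - 1)² = 0` on the `p`-torsion, for `σ` in the inertia group. -/
theorem inertia_unipotent_of_node [Algebra.IsAlgebraic S K]
    (hW : IsNodeModel A.valuation (W'⁄K)) {p : ℕ} (hp : Odd p)
    (hpu : A.valuation (p : K) = 1) {σ : K ≃ₐ[S] K} (hσ : σ ∈ A.inertiaSubgroupIn S)
    (P : (W'⁄K).Point) (hpP : p • P = 0) : σ • (σ • P - P) = σ • P - P := by
  have hE := inertia_sub_inE0 A hW hp hpu hσ P hpP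
  have hpd : p • (σ • P - P) = 0 := by
    rw [nsmul_sub, ← smul_nsmul_point, hpP, smul_zero, sub_zero]
  exact inertia_fixes_inE0 A hW hpu hσ hE hpd

end galois

end Fermat.Agent.H64
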