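import Fermat.Agent.H64.NodeE0

/-!
# Points of odd order reducing to the node

For the node model `y² + a₁xy = x³ + a₂x² + a₄x` over a valued field:
a point `(x, y)` of odd order with `v x < 1` satisfies `x ≠ 0`, `v a₄ < v x`, and then
`v (2y + a₁x) = v x` and `v y ≤ v x`.
-/

set_option autoImplicit false
set_option linter.unusedSectionVars false

open WeierstrassCurve WeierstrassCurve.Affine

namespace Fermat.Agent.H64

variable {K : Type*} [Field K] {Γ₀ : Type*} [LinearOrderedCommGroupWithZero Γ₀]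
variable {v : Valuation K Γ₀} {W : WeierstrassCurve.Affine K}

/-- For a point with `v a₄ < v x < 1`: `v (2y + a₁x) = v x`. -/
theorem val_two_y_add (hW : IsNodeModel v W) {x y : K} (h : W.Equation x y)
    (hx1 : v x < 1) (hx4 : v W.a₄ < v x) : v (2 * y + W.a₁ * x) = v x := by
  have hx0 : 0 < v x := lt_of_le_of_lt zero_le hx4
  have e := hW.toIsNodeShape.sq_two_y_add h
  have h1 : v ((W.a₁ ^ 2 + 4 * W.a₂) * x ^ 2) = v x ^ 2 := by
    rw [map_mul, hW.b₂_eq, one_mul, map_pow]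
  have h2 : v (4 * x ^ 3) < v x ^ 2 := by
    refine lt_of_le_of_lt (vmul_le_one_left (val_four_le_one v)) ?_
    rw [map_pow, pow_succ]
    calc v x ^ 2 * v x < v x ^ 2 * 1 := mul_lt_mul_of_pos_left hx1 (pow_pos hx0 2)
      _ = v x ^ 2 := mul_one _
  have h3 : v (4 * W.a₄ * x) < v x ^ 2 := by
    rw [mul_assoc]
    refine lt_of_le_of_lt (vmul_le_one_left (val_four_le_one v)) ?_
    rw [map_mul, sq]
    exact mul_lt_mul_of_pos_right hx4 hx0
  have h4 : v ((W.a₁ ^ 2 + 4 * W.a₂) * x ^ 2 + 4 * x ^ 3) = v x ^ 2 := by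
    rw [v.map_add_eq_of_lt_left (by rw [h1]; exact h2), h1]
  have h5 : v ((W.a₁ ^ 2 + 4 * W.a₂) * x ^ 2 + 4 * x ^ 3 + 4 * W.a₄ * x) = v x ^ 2 := by
    rw [v.map_add_eq_of_lt_left (by rw [h4]; exact h3), h4]
  have h6 : v (2 * y + W.a₁ * x) ^ 2 = v x ^ 2 := by
    rw [← map_pow, e, h5]
  exact sq_eq_sq_imp h6

/-- For a point with `v a₄ < v x < 1`: `v y ≤ v x`. -/
theorem val_y_le (hW : IsNodeModel v W) {x y : K} (h : W.Equation x y)
    (hx1 : v x < 1) (hx4 : v W.a₄ < v x) : v y ≤ v x := by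
  by_contra hcon
  have hcon : v x < v y := not_le.mp hcon
  have hx0 : 0 < v x := lt_of_le_of_lt zero_le hx4
  have hy0 : 0 < v y := hx0.trans hcon
  have e := hW.toIsNodeShape.equation h
  have h1 : v (W.a₁ * x * y) < v (y ^ 2) := by
    rw [mul_assoc, map_pow, sq]
    refine lt_of_le_of_lt (vmul_le_one_left hW.a₁_le) ?_
    rw [map_mul]
    exact mul_lt_mul_of_pos_right hcon hy0
  have hL : v (y ^ 2 + W.a₁ * x * y) = v y ^ 2 := by
    rw [v.map_add_eq_of_lt_left h1, map_pow]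
  have hx32 : v x ^ 3 ≤ v x ^ 2 := by
    rw [pow_succ]
    calc v x ^ 2 * v x ≤ v x ^ 2 * 1 := mul_le_mul' le_rfl hx1.le
      _ = v x ^ 2 := mul_one _
  have hR : v (x ^ 3 + W.a₂ * x ^ 2 + W.a₄ * x) ≤ v x ^ 2 := by
    refine v.map_add_le (v.map_add_le ?_ ?_) ?_
    · rw [map_pow]; exact hx32
    · refine (vmul_le_one_left hW.a₂_le).trans ?_
      rw [map_pow]
    · rw [map_mul, sq]
      exact mul_le_mul' hx4.le le_rfl
  rw [← e, hL] at hR
  have : v x ^ 2 < v y ^ 2 := by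
    rw [sq, sq]
    calc v x * v x < v x * v y := mul_lt_mul_of_pos_left hcon hx0
      _ ≤ v y * v y := mul_le_mul' hcon.le le_rfl
  exact absurd hR (not_le.mpr this)

variable [DecidableEq K]

/-- A point of odd order which reduces to the node has `x ≠ 0` and `v a₄ < v x`. -/
theorem typeM_of_odd_torsion (hW : IsNodeModel v W) {x y : K} (h : W.Nonsingular x y)
    {n : ℕ} (hn : Odd n) (hP : n • Point.some x y h = 0) (hx : v x < 1) :
    x ≠ 0 ∧ v W.a₄ < v x := by
  have hS := hW.toIsNodeShape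
  obtain ⟨k, rfl⟩ := hn
  have hne : Point.some x y h ≠ 0 := by
    intro h0; cases h0
  -- `(2k+2) • P = P`
  have hP1 : (k + 1) • ((2 : ℕ) • Point.some x y h) = Point.some x y h := by
    rw [← mul_nsmul', show (k + 1) * 2 = (2 * k + 1) + 1 by ring, succ_nsmul, hP, zero_add]
  have hx0 : x ≠ 0 := by
    rintro rfl
    have e := hS.equation h.1
    have hy : y = 0 := by
      have : y ^ 2 = 0 := by linear_combination e
      exact pow_eq_zero_iff (two_ne_zero) |>.mp this
    subst hy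
    have h2 : (2 : ℕ) • Point.some (0 : K) 0 h = 0 := by
      rw [two_nsmul]
      exact hS.add_self_of_eq h (by ring)
    rw [h2, smul_zero] at hP1
    exact hne hP1.symm
  refine ⟨hx0, ?_⟩
  by_contra hcon
  have hcon : v x ≤ v W.a₄ := not_lt.mp hcon
  obtain ⟨x₃, y₃, h₃, hadd, f⟩ := hS.add_T0 hW.a₄_ne h hx0
  have hvx0 : v x ≠ 0 := by simpa using hx0
  have hQ : InE0 v (Point.some x₃ y₃ h₃) := by
    rw [inE0_some]
    have hf := congrArg v f
    rw [map_mul] at hf
    exact one_le_of_mul_eq hf hvx0 hcon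
  have h2Q : (2 : ℕ) • Point.some x₃ y₃ h₃ = (2 : ℕ) • Point.some x y h := by
    rw [← hadd, nsmul_add, two_nsmul (Point.some 0 0 _), hS.T0_add_T0 hW.a₄_ne, add_zero]
  have hPE : InE0 v (Point.some x y h) := by
    rw [← hP1, ← h2Q, ← mul_nsmul']
    exact hQ.nsmul hW _
  rw [inE0_some] at hPE
  exact absurd hx (not_lt.mpr hPE)

end Fermat.Agent.H64
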