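/-
P-S13 (S13): the input `h2` (unipotent inertia at `2`, WP5 (A)/(B)) in exactly the shape
consumed by `Fermat.Agent.H25.s13_of_two`, and S13 from the global lemma (WP7) alone.
-/
import Mathlib
import Fermat.Agent.H64.FreyTwo
import Fermat.Agent.H25.S13.Inputs

set_option autoImplicit false

open WeierstrassCurve WeierstrassCurve.Affine WeierstrassCurve.Affine.Point

namespace Fermat.Agent.H64

/-- **`h2`**: at every place over `2`, inertia acts unipotently on the `p`-torsion of the Frey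
curve, in the exact shape of the input `h2` of `Fermat.Agent.H25.s13_of_two`. -/
theorem frey_h2 (P : FreyPackage) :
    ∀ A : ValuationSubring (AlgebraicClosure ℚ), A.LiesOverPrime 2 →
      ∀ σ ∈ A.inertiaSubgroupIn ℚ,
      ∀ x : Submodule.torsionBy ℤ (P.freyCurve⁄(AlgebraicClosure ℚ)).Point P.p,
        σ • (σ • x - x) = σ • x - x :=
  fun A hA _ hσ x => frey_inertia_two_unipotent' P A hA hσ x

/-- **S13 from the global lemma (WP7) alone.** -/
theorem s13_of_global (P : FreyPackage)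
    (hG : ∀ (H : Subgroup (AlgebraicClosure ℚ ≃ₐ[ℚ] AlgebraicClosure ℚ)), H.Normal →
      ∀ (L : IntermediateField ℚ (AlgebraicClosure ℚ)), FiniteDimensional ℚ L →
      L.fixingSubgroup ≤ H → H ≠ ⊤ →
      ∃ ℓ : ℕ, ℓ.Prime ∧ ∀ A : ValuationSubring (AlgebraicClosure ℚ),
        A.LiesOverPrime ℓ → ∃ σ ∈ A.inertiaSubgroupIn ℚ, σ ∉ H)
    (hred : ¬ GaloisRepIsIrreducible (K := AlgebraicClosure ℚ) ℚ P.freyCurve P.p) :
    HasGaloisStableCofixedLine (K := AlgebraicClosure ℚ) ℚ P.freyCurve P.p :=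
  Fermat.Agent.H25.s13_of_two P (frey_h2 P) hG hred

end Fermat.Agent.H64
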